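import Fermat.Prelude.Def_AlgebraicCurve_DivisorClassGroup

/-!
# Basic facts on orders at places and weak approximation
-/

set_option autoImplicit false

noncomputable section

open AlgebraicCurve WithZero

namespace Fermat.Agent.JPairing

variable {K F : Type*} [Field K] [Field F] [Algebra K F] (v : Place K F)

theorem ord_pow (f : F) (n : ℕ) : v.ord (f ^ n) = n * v.ord f := by
  rw [← zpow_natCast, v.ord_zpow]

theorem ord_neg (f : F) : v.ord (-f) = v.ord f := by
  simp only [Place.ord, Valuation.map_neg]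

theorem ord_div {f g : F} (hf : f ≠ 0) (hg : g ≠ 0) : v.ord (f / g) = v.ord f - v.ord g := by
  rw [div_eq_mul_inv, v.ord_mul hf (inv_ne_zero hg), v.ord_inv]; ring

theorem adicValuation_eq_exp {f : F} (hf : f ≠ 0) : v.adicValuation f = exp (-v.ord f) := by
  rw [Place.ord, neg_neg, exp_log (v.adicValuation_ne_zero hf)]

theorem min_ord_le_ord_add {f g : F} (hf : f ≠ 0) (hg : g ≠ 0) (h : f + g ≠ 0) :
    min (v.ord f) (v.ord g) ≤ v.ord (f + g) := by
  have := Valuation.map_add v.adicValuation f g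
  rw [adicValuation_eq_exp v hf, adicValuation_eq_exp v hg, adicValuation_eq_exp v h, le_max_iff,
    exp_le_exp, exp_le_exp] at this
  omega

theorem ord_add_eq_of_lt {f g : F} (hf : f ≠ 0) (hg : g ≠ 0) (h : v.ord f < v.ord g) :
    v.ord (f + g) = v.ord f := by
  have h0 : f + g ≠ 0 := by
    intro h0
    rw [eq_neg_of_add_eq_zero_left h0, ord_neg] at h
    exact lt_irrefl _ h
  have h1 := min_ord_le_ord_add v hf hg h0
  have h2 := min_ord_le_ord_add v h0 (neg_ne_zero.2 hg) (by simpa using hf)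
  rw [ord_neg, add_neg_cancel_right] at h2
  omega

/-- The divisibility `ord ≥ m`, including the zero function. -/
def OrdGE (m : ℤ) (f : F) : Prop := f = 0 ∨ m ≤ v.ord f

theorem OrdGE.zero (m : ℤ) : OrdGE v m 0 := Or.inl rfl

variable {v}

theorem OrdGE.le_ord {m : ℤ} {f : F} (h : OrdGE v m f) (hf : f ≠ 0) : m ≤ v.ord f :=
  h.resolve_left hf

theorem OrdGE.mono {m m' : ℤ} {f : F} (h : OrdGE v m f) (hm : m' ≤ m) : OrdGE v m' f :=
  h.imp_right hm.trans

theorem OrdGE.add {m : ℤ} {f g : F} (hf : OrdGE v m f) (hg : OrdGE v m g) :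
    OrdGE v m (f + g) := by
  by_cases hf0 : f = 0
  · simpa [hf0] using hg
  by_cases hg0 : g = 0
  · simpa [hg0] using hf
  by_cases h : f + g = 0
  · exact Or.inl h
  have h1 := min_ord_le_ord_add v hf0 hg0 h
  have := hf.le_ord hf0
  have := hg.le_ord hg0
  exact Or.inr (by omega)

theorem OrdGE.neg {m : ℤ} {f : F} (hf : OrdGE v m f) : OrdGE v m (-f) := by
  rcases hf with h | h
  · exact Or.inl (by simp [h])
  · exact Or.inr (by rwa [ord_neg])

theorem OrdGE.sub {m : ℤ} {f g : F} (hf : OrdGE v m f) (hg : OrdGE v m g) :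
    OrdGE v m (f - g) := by
  rw [sub_eq_add_neg]; exact hf.add hg.neg

theorem OrdGE.mul {m m' : ℤ} {f g : F} (hf : OrdGE v m f) (hg : OrdGE v m' g) :
    OrdGE v (m + m') (f * g) := by
  by_cases hf0 : f = 0
  · exact Or.inl (by simp [hf0])
  by_cases hg0 : g = 0
  · exact Or.inl (by simp [hg0])
  have := hf.le_ord hf0
  have := hg.le_ord hg0
  exact Or.inr (by rw [v.ord_mul hf0 hg0]; omega)

theorem OrdGE.sum {ι : Type*} {m : ℤ} {s : Finset ι} {f : ι → F}
    (h : ∀ i ∈ s, OrdGE v m (f i)) : OrdGE v m (∑ i ∈ s, f i) :=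
  Finset.sum_induction _ _ (fun _ _ => OrdGE.add) (OrdGE.zero v m) h

theorem mem_iff_ordGE {f : F} : f ∈ v.toValuationSubring ↔ OrdGE v 0 f := by
  by_cases hf : f = 0
  · simp [hf, OrdGE, zero_mem]
  obtain ⟨π, hπ⟩ := IsDiscreteValuationRing.exists_irreducible v.toValuationSubring
  constructor
  · intro hmem
    obtain ⟨n, u, hu⟩ := IsDiscreteValuationRing.eq_unit_mul_pow_irreducible
      (x := (⟨f, hmem⟩ : v.toValuationSubring)) (by simpa [Subtype.ext_iff] using hf) hπ
    have hcoe : f = ((u : v.toValuationSubring) : F) * ((π : F) ^ (n : ℤ)) := by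
      have h := congrArg Subtype.val hu
      push_cast at h
      rw [zpow_natCast]; exact h
    refine Or.inr ?_
    rw [hcoe, v.ord_unit_smul_zpow u hπ (n : ℤ)]
    exact Int.natCast_nonneg n
  · intro h
    obtain ⟨u, hu⟩ := v.exists_unit_mul_zpow hf hπ
    rw [hu, ← Int.toNat_of_nonneg (h.le_ord hf), zpow_natCast]
    exact mul_mem (u : v.toValuationSubring).2 (pow_mem (π : v.toValuationSubring).2 _)

theorem ord_algebraMap {c : K} (hc : c ≠ 0) : v.ord (algebraMap K F c) = 0 := by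
  have h1 : OrdGE v 0 (algebraMap K F c) := mem_iff_ordGE.1 (v.algebraMap_mem' c)
  have h2 : OrdGE v 0 (algebraMap K F c⁻¹) := mem_iff_ordGE.1 (v.algebraMap_mem' c⁻¹)
  have hc' : algebraMap K F c ≠ 0 := by simpa using hc
  have h1' := h1.le_ord hc'
  have h2' := h2.le_ord (by simpa using hc)
  rw [map_inv₀, v.ord_inv] at h2'
  omega

theorem exists_ord_eq (v : Place K F) (m : ℤ) : ∃ f : F, f ≠ 0 ∧ v.ord f = m := by
  obtain ⟨π, hπ⟩ := IsDiscreteValuationRing.exists_irreducible v.toValuationSubring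
  have hπF : (π : F) ≠ 0 := by simpa [ne_eq, ZeroMemClass.coe_eq_zero] using hπ.ne_zero
  exact ⟨(π : F) ^ m, zpow_ne_zero _ hπF, by rw [v.ord_zpow, v.ord_coe_irreducible hπ, mul_one]⟩

/-- Two distinct places: a function regular at the first and not at the second. -/
theorem exists_ord_nonneg_neg {v w : Place K F} (h : v ≠ w) :
    ∃ f : F, f ≠ 0 ∧ 0 ≤ v.ord f ∧ w.ord f < 0 := by
  by_contra hcon
  push Not at hcon
  apply h
  have hvw : v.toValuationSubring ≤ w.toValuationSubring := by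
    intro f hf
    by_cases hf0 : f = 0
    · simp [hf0]
    exact mem_iff_ordGE.2 (Or.inr (hcon f hf0 ((mem_iff_ordGE.1 hf).le_ord hf0)))
  refine Place.ext (le_antisymm hvw fun x hx => ?_)
  by_contra hxv
  apply w.ne_top'
  refine SetLike.ext fun y => ⟨fun _ => ValuationSubring.mem_top y, fun _ => ?_⟩
  have hx0 : x ≠ 0 := fun h0 => hxv (by simp [h0])
  have hxneg : v.ord x < 0 := by
    by_contra hh; exact hxv (mem_iff_ordGE.2 (Or.inr (by omega)))
  by_cases hy : y = 0
  · simp [hy]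
  obtain ⟨m, hm⟩ : ∃ m : ℕ, -v.ord y ≤ m := ⟨(-v.ord y).toNat, Int.self_le_toNat _⟩
  have hq : y / x ^ m ∈ v.toValuationSubring := by
    refine mem_iff_ordGE.2 (Or.inr ?_)
    rw [ord_div v hy (pow_ne_zero _ hx0), ord_pow]
    have : (m : ℤ) * v.ord x ≤ (m : ℤ) * (-1) := mul_le_mul_of_nonneg_left (by omega) (by omega)
    omega
  have hym : y = x ^ m * (y / x ^ m) := (mul_div_cancel₀ y (pow_ne_zero _ hx0)).symm
  rw [hym]
  exact mul_mem (pow_mem hx _) (hvw hq)

theorem exists_ord_pos_neg {v w : Place K F} (h : v ≠ w) :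
    ∃ f : F, f ≠ 0 ∧ 0 < v.ord f ∧ w.ord f < 0 := by
  obtain ⟨a, ha0, hav, haw⟩ := exists_ord_nonneg_neg h
  obtain ⟨b, hb0, hbw, hbv⟩ := exists_ord_nonneg_neg (Ne.symm h)
  refine ⟨a / b, div_ne_zero ha0 hb0, ?_, ?_⟩
  · rw [ord_div v ha0 hb0]; omega
  · rw [ord_div w ha0 hb0]; omega

theorem exists_separator (w : Place K F) (S : Finset (Place K F)) (hw : w ∉ S) :
    ∃ z : F, z ≠ 0 ∧ 0 < w.ord z ∧ ∀ v ∈ S, v.ord z < 0 := by
  classical
  induction S using Finset.induction with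
  | empty =>
    obtain ⟨f, hf, h⟩ := exists_ord_eq w 1
    exact ⟨f, hf, by omega, by simp⟩
  | insert v' S hv' ih =>
    simp only [Finset.mem_insert, not_or] at hw
    obtain ⟨z, hz0, hzw, hzS⟩ := ih hw.2
    by_cases hneg : v'.ord z < 0
    · exact ⟨z, hz0, hzw, Finset.forall_mem_insert _ _ _ |>.2 ⟨hneg, hzS⟩⟩
    obtain ⟨y, hy0, hyw, hyv⟩ := exists_ord_pos_neg hw.1
    obtain ⟨k, hk1, hk⟩ : ∃ k : ℕ, 1 ≤ k ∧ ∀ v ∈ S, -v.ord y < k :=
      ⟨(S.sup fun v => (-v.ord y).toNat) + 1, by omega, fun v hv => by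
        have := Finset.le_sup (f := fun v : Place K F => (-v.ord y).toNat) hv
        have := Int.self_le_toNat (-v.ord y)
        omega⟩
    have hzk : z ^ k ≠ 0 := pow_ne_zero _ hz0
    have hv'k : 0 ≤ v'.ord (z ^ k) := by
      rw [ord_pow]; exact mul_nonneg (by omega) (by omega)
    have hsum : v'.ord (y + z ^ k) = v'.ord y := ord_add_eq_of_lt v' hy0 hzk (by omega)
    have hne : y + z ^ k ≠ 0 := by
      intro h0; rw [h0, v'.ord_zero] at hsum; omega
    refine ⟨y + z ^ k, hne, ?_, Finset.forall_mem_insert _ _ _ |>.2 ⟨by omega, fun v hv => ?_⟩⟩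
    · have h1 := min_ord_le_ord_add w hy0 hzk hne
      have h2 : 0 < w.ord (z ^ k) := by rw [ord_pow]; exact mul_pos (by omega) hzw
      omega
    · have h2 : v.ord (z ^ k) ≤ -(k : ℤ) := by
        rw [ord_pow]
        have := hzS v hv
        have : (k : ℤ) * v.ord z ≤ (k : ℤ) * (-1) := mul_le_mul_of_nonneg_left (by omega) (by omega)
        omega
      have := hk v hv
      rw [add_comm, ord_add_eq_of_lt v hzk hy0 (by omega)]
      omega

/-- An approximate idempotent at `w` relative to `S`. -/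
theorem exists_near_one (w : Place K F) (S : Finset (Place K F)) (hw : w ∉ S) (m : ℕ) :
    ∃ e : F, OrdGE w m (e - 1) ∧ ∀ v ∈ S, OrdGE v m e := by
  obtain ⟨z, hz0, hzw, hzS⟩ := exists_separator w S hw
  set u := z ^ (m + 1) with hu
  have hu0 : u ≠ 0 := pow_ne_zero _ hz0
  have huw : (m : ℤ) < w.ord u := by
    rw [hu, ord_pow]; push_cast
    have : ((m : ℤ) + 1) * 1 ≤ ((m : ℤ) + 1) * w.ord z :=
      mul_le_mul_of_nonneg_left (by omega) (by omega)
    omega
  have hw1 : w.ord (1 + u) = 0 := by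
    rw [ord_add_eq_of_lt w one_ne_zero hu0 (by simp; omega), w.ord_one]
  have h1u : 1 + u ≠ 0 := by
    intro h0
    have h' : u = -1 := eq_neg_of_add_eq_zero_right h0
    rw [h', ord_neg, w.ord_one] at huw
    omega
  refine ⟨(1 + u)⁻¹, Or.inr ?_, fun v hv => Or.inr ?_⟩
  · have h2 : (1 + u)⁻¹ - 1 = -u / (1 + u) := by field_simp; ring
    rw [h2, ord_div w (neg_ne_zero.2 hu0) h1u, ord_neg, hw1]
    omega
  · have hvu : v.ord u ≤ -((m : ℤ) + 1) := by
      rw [hu, ord_pow]; push_cast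
      have := hzS v hv
      have : ((m : ℤ) + 1) * v.ord z ≤ ((m : ℤ) + 1) * (-1) :=
        mul_le_mul_of_nonneg_left (by omega) (by omega)
      omega
    rw [v.ord_inv, add_comm, ord_add_eq_of_lt v hu0 one_ne_zero (by simp; omega)]
    omega

/-- Weak approximation: prescribed values to prescribed precision at finitely many places. -/
theorem exists_approx (S : Finset (Place K F)) (a : Place K F → F) (m : ℤ) :
    ∃ x : F, ∀ v ∈ S, OrdGE v m (x - a v) := by
  classical
  obtain ⟨B, hB⟩ : ∃ B : ℕ, ∀ v ∈ S, ∀ w ∈ S, m - v.ord (a w) ≤ B :=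
    ⟨S.sup fun v => S.sup fun w => (m - v.ord (a w)).toNat, fun v hv w hw => by
      have h1 := Finset.le_sup (f := fun w : Place K F => (m - v.ord (a w)).toNat) hw
      have h2 := Finset.le_sup
        (f := fun v : Place K F => S.sup fun w : Place K F => (m - v.ord (a w)).toNat) hv
      have := Int.self_le_toNat (m - v.ord (a w))
      omega⟩
  choose e he1 he2 using fun w : Place K F => exists_near_one w (S.erase w) (by simp) B
  refine ⟨∑ w ∈ S, a w * e w, fun v hv => ?_⟩
  have key : ∀ w ∈ S, ∀ (f : F), OrdGE v B f → OrdGE v m (a w * f) := fun w hw f hf => by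
    by_cases ha : a w = 0
    · exact Or.inl (by simp [ha])
    exact ((OrdGE.mul (Or.inr le_rfl : OrdGE v (v.ord (a w)) (a w)) hf)).mono
      (by have := hB v hv w hw; omega)
  have hsplit : (∑ w ∈ S, a w * e w) - a v
      = a v * (e v - 1) + ∑ w ∈ S.erase v, a w * e w := by
    rw [← Finset.add_sum_erase _ _ hv]; ring
  rw [hsplit]
  refine (key v hv _ (he1 v)).add (OrdGE.sum fun w hw => ?_)
  obtain ⟨hwv, hwS⟩ := Finset.mem_erase.1 hw
  exact key w hwS _ (he2 w v (Finset.mem_erase.2 ⟨Ne.symm hwv, hv⟩))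

theorem eq_of_ordGE_sub {a b : F} {m : ℤ} (ha : a ≠ 0) (h : OrdGE v m (b - a))
    (hm : v.ord a < m) : b ≠ 0 ∧ v.ord b = v.ord a := by
  by_cases hba : b - a = 0
  · rw [sub_eq_zero] at hba; subst hba; exact ⟨ha, rfl⟩
  have h1 := ord_add_eq_of_lt v ha hba (lt_of_lt_of_le hm (h.le_ord hba))
  rw [add_sub_cancel] at h1
  refine ⟨fun h0 => ?_, h1⟩
  rw [h0, zero_sub, OrdGE] at h
  rcases h with h | h
  · exact ha (neg_eq_zero.1 h)
  · rw [ord_neg] at h; omega

/-- A nonzero function with prescribed orders at finitely many places. -/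
theorem exists_ord_prescribed (S : Finset (Place K F)) (n : Place K F → ℤ) :
    ∃ f : F, f ≠ 0 ∧ ∀ v ∈ S, v.ord f = n v := by
  classical
  rcases S.eq_empty_or_nonempty with rfl | ⟨v₀, hv₀⟩
  · exact ⟨1, one_ne_zero, by simp⟩
  choose a ha hao using fun v : Place K F => exists_ord_eq v (n v)
  obtain ⟨x, hx⟩ := exists_approx S a ((S.sup fun v => (n v).toNat : ℕ) + 1)
  have key : ∀ v ∈ S, x ≠ 0 ∧ v.ord x = n v := fun v hv => by
    rw [← hao v]
    refine eq_of_ordGE_sub (ha v) (hx v hv) ?_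
    have := Finset.le_sup (f := fun v : Place K F => (n v).toNat) hv
    have := Int.self_le_toNat (n v)
    rw [hao v]
    omega
  exact ⟨x, (key v₀ hv₀).1, fun v hv => (key v hv).2⟩

end Fermat.Agent.JPairing
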