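import Fermat.Prelude.Def_AlgebraicCurve_IsCurveOver
import Fermat.Agent.JPairing.Approx

/-!
# Values of functions at places of a curve over an algebraically closed field
-/

set_option autoImplicit false

noncomputable section

open AlgebraicCurve

namespace Fermat.Agent.JPairing

variable {K F : Type*} [Field K] [Field F] [Algebra K F]

open Classical in
/-- The value of `f` at a rational place `v` (junk `0` at poles). -/
def evalAt (v : Place K F) (f : F) : K :=
  if h : f ∈ v.toValuationSubring then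
    Function.invFun (algebraMap K v.ResidueField) (IsLocalRing.residue _ ⟨f, h⟩)
  else 0

variable [IsAlgClosed K] [IsCurveOver K F] (v : Place K F)

theorem algebraMap_residueField_bijective :
    Function.Bijective (algebraMap K v.ResidueField) :=
  haveI : Module.Finite K v.ResidueField := IsCurveOver.finiteResidue v
  haveI : Algebra.IsIntegral K v.ResidueField := Algebra.IsIntegral.of_finite K v.ResidueField
  IsAlgClosed.algebraMap_bijective_of_isIntegral

omit [IsAlgClosed K] [IsCurveOver K F] in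
theorem residue_eq_zero_iff_ordGE {f : F} (h : f ∈ v.toValuationSubring) :
    IsLocalRing.residue v.toValuationSubring ⟨f, h⟩ = 0 ↔ OrdGE v 1 f := by
  rw [IsLocalRing.residue_eq_zero_iff, IsLocalRing.mem_maximalIdeal, mem_nonunits_iff,
    ← v.adicValuation_coe_eq_one_iff]
  by_cases hf : f = 0
  · subst hf; simp [OrdGE]
  have h0 := (mem_iff_ordGE.1 h).le_ord hf
  rw [adicValuation_eq_exp v hf, ← WithZero.exp_zero, WithZero.exp_inj]
  constructor
  · intro hne; exact Or.inr (by omega)
  · intro hge; have := hge.le_ord hf; omega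

theorem ordGE_sub_evalAt {f : F} (hf : OrdGE v 0 f) :
    OrdGE v 1 (f - algebraMap K F (evalAt v f)) := by
  have hm : f ∈ v.toValuationSubring := mem_iff_ordGE.2 hf
  have he : algebraMap K v.ResidueField (evalAt v f) = IsLocalRing.residue _ ⟨f, hm⟩ := by
    rw [evalAt, dif_pos hm]
    exact Function.invFun_eq ((algebraMap_residueField_bijective v).2 _)
  have hm' : f - algebraMap K F (evalAt v f) ∈ v.toValuationSubring :=
    sub_mem hm (v.algebraMap_mem' _)
  rw [← residue_eq_zero_iff_ordGE v hm']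
  have : (⟨_, hm'⟩ : v.toValuationSubring)
      = ⟨f, hm⟩ - algebraMap K v.toValuationSubring (evalAt v f) := Subtype.ext rfl
  rw [this, map_sub, sub_eq_zero, ← he]
  rfl

variable {v}

theorem evalAt_eq {f : F} {c : K} (h : OrdGE v 1 (f - algebraMap K F c)) : evalAt v f = c := by
  have hf : OrdGE v 0 f := by
    have hc : OrdGE v 0 (algebraMap K F c) := mem_iff_ordGE.1 (v.algebraMap_mem' c)
    simpa using (h.mono zero_le_one).add hc
  by_contra hne
  have hsub := h.sub (ordGE_sub_evalAt v hf)
  rw [sub_sub_sub_cancel_left, ← map_sub] at hsub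
  have hne' : evalAt v f - c ≠ 0 := sub_ne_zero.2 hne
  have := hsub.le_ord (by rwa [ne_eq, map_eq_zero])
  rw [ord_algebraMap hne'] at this
  omega

@[simp]
theorem evalAt_algebraMap (c : K) : evalAt v (algebraMap K F c) = c :=
  evalAt_eq (by rw [sub_self]; exact OrdGE.zero v 1)

@[simp]
theorem evalAt_zero : evalAt v (0 : F) = 0 := by
  simpa using evalAt_algebraMap (v := v) (0 : K)

@[simp]
theorem evalAt_one : evalAt v (1 : F) = 1 := by
  simpa using evalAt_algebraMap (v := v) (1 : K)

theorem evalAt_add {f g : F} (hf : OrdGE v 0 f) (hg : OrdGE v 0 g) :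
    evalAt v (f + g) = evalAt v f + evalAt v g := by
  refine evalAt_eq ?_
  convert (ordGE_sub_evalAt v hf).add (ordGE_sub_evalAt v hg) using 1
  rw [map_add]; ring

theorem evalAt_neg {f : F} (hf : OrdGE v 0 f) : evalAt v (-f) = -evalAt v f := by
  refine evalAt_eq ?_
  convert (ordGE_sub_evalAt v hf).neg using 1
  rw [map_neg]; ring

theorem evalAt_mul {f g : F} (hf : OrdGE v 0 f) (hg : OrdGE v 0 g) :
    evalAt v (f * g) = evalAt v f * evalAt v g := by
  refine evalAt_eq ?_
  have hc : OrdGE v 0 (algebraMap K F (evalAt v f)) := mem_iff_ordGE.1 (v.algebraMap_mem' _)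
  have h1 := (ordGE_sub_evalAt v hf).mul hg
  have h2 := hc.mul (ordGE_sub_evalAt v hg)
  rw [add_zero] at h1
  rw [zero_add] at h2
  convert h1.add h2 using 1
  rw [map_mul]; ring

theorem evalAt_eq_zero_iff {f : F} (hf : OrdGE v 0 f) : evalAt v f = 0 ↔ OrdGE v 1 f := by
  constructor
  · intro h
    simpa [h] using ordGE_sub_evalAt v hf
  · intro h
    exact evalAt_eq (by simpa using h)

theorem evalAt_ne_zero {f : F} (hf : f ≠ 0) (h : v.ord f = 0) : evalAt v f ≠ 0 := by
  rw [ne_eq, evalAt_eq_zero_iff (Or.inr h.ge)]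
  intro h1
  have := h1.le_ord hf
  omega

theorem evalAt_mul_of_ord {f g : F} (hf : v.ord f = 0) (hg : v.ord g = 0) :
    evalAt v (f * g) = evalAt v f * evalAt v g :=
  evalAt_mul (Or.inr hf.ge) (Or.inr hg.ge)

theorem evalAt_inv {f : F} (h : v.ord f = 0) : evalAt v f⁻¹ = (evalAt v f)⁻¹ := by
  by_cases hf : f = 0
  · simp [hf]
  refine eq_inv_of_mul_eq_one_left ?_
  rw [← evalAt_mul_of_ord (by rw [v.ord_inv, h, neg_zero]) h, inv_mul_cancel₀ hf, evalAt_one]

theorem evalAt_div {f g : F} (hf : v.ord f = 0) (hg : v.ord g = 0) :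
    evalAt v (f / g) = evalAt v f / evalAt v g := by
  rw [div_eq_mul_inv, evalAt_mul_of_ord hf (by rw [v.ord_inv, hg, neg_zero]), evalAt_inv hg,
    div_eq_mul_inv]

theorem evalAt_pow {f : F} (hf : OrdGE v 0 f) (n : ℕ) : evalAt v (f ^ n) = evalAt v f ^ n := by
  induction n with
  | zero => simp
  | succ n ih =>
    have hfn : f ^ n ∈ v.toValuationSubring := pow_mem (mem_iff_ordGE.2 hf) n
    rw [pow_succ, evalAt_mul (mem_iff_ordGE.1 hfn) hf, ih, pow_succ]

theorem evalAt_zpow {f : F} (h : v.ord f = 0) (n : ℤ) : evalAt v (f ^ n) = evalAt v f ^ n := by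
  cases n with
  | ofNat n => simpa using evalAt_pow (v := v) (Or.inr h.ge) n
  | negSucc n =>
    rw [zpow_negSucc, zpow_negSucc, evalAt_inv (by rw [ord_pow, h, mul_zero]),
      evalAt_pow (Or.inr h.ge)]

theorem evalAt_neg_one_zpow (n : ℤ) : evalAt v ((-1 : F) ^ n) = (-1 : K) ^ n := by
  rw [evalAt_zpow (by rw [ord_neg, v.ord_one]), evalAt_neg (Or.inr (by rw [v.ord_one])),
    evalAt_one]

theorem evalAt_prod {ι : Type*} {s : Finset ι} {f : ι → F}
    (h : ∀ i ∈ s, OrdGE v 0 (f i)) : evalAt v (∏ i ∈ s, f i) = ∏ i ∈ s, evalAt v (f i) := by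
  classical
  induction s using Finset.induction with
  | empty => simp
  | insert i s hi ih =>
    simp only [Finset.mem_insert, forall_eq_or_imp] at h
    have hs : (∏ j ∈ s, f j) ∈ v.toValuationSubring :=
      prod_mem fun j hj => mem_iff_ordGE.2 (h.2 j hj)
    rw [Finset.prod_insert hi, Finset.prod_insert hi, evalAt_mul h.1 (mem_iff_ordGE.1 hs), ih h.2]

end Fermat.Agent.JPairing
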