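import Fermat.Prelude.Def_AlgebraicCurve_DivisorPushPull
import Fermat.Agent.JPairing.Eval
import Mathlib.LinearAlgebra.Matrix.Block
import Mathlib.RingTheory.Norm.Defs

/-!
# The norm of a function regular and nonzero on a fibre

`(N f)(v) = ∏_{w ∣ v} f(w) ^ e_w`.
-/

set_option autoImplicit false

noncomputable section

open AlgebraicCurve

namespace Fermat.Agent.JPairing

variable {K F F' : Type*} [Field K] [Field F] [Field F'] [Algebra K F] [Algebra K F']
  [Algebra F F'] [IsScalarTower K F F'] [Algebra.IsIntegral F F']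

theorem OrdGE.algebraMap_lift {v : Place K F} {w : Place K F'} (hw : w.restrict F = v) {m : ℤ}
    {f : F} (h : OrdGE v m f) :
    OrdGE w (w.ramificationIndex F * m) (algebraMap F F' f) := by
  rcases h with h | h
  · exact Or.inl (by simp [h])
  · refine Or.inr ?_
    rw [w.ord_restrict f, hw]
    exact mul_le_mul_of_nonneg_left h (by omega)

variable [IsAlgClosed K] [IsCurveOver K F] [IsCurveOver K F']

omit [IsScalarTower K F F'] [Algebra.IsIntegral F F'] [Algebra F F'] [IsCurveOver K F] in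
/-- Reading off the lowest coefficient of a truncated expansion in powers of a uniformizer. -/
theorem expansion_low {w : Place K F'} {p : F'} (hp : p ≠ 0) (hpw : w.ord p = 1) {n : ℕ}
    {c : Fin n → K} {z : F'} {j : ℕ} (hz : OrdGE w j z)
    (h : OrdGE w n (z - ∑ i, algebraMap K F' (c i) * p ^ (i : ℕ))) :
    (∀ i : Fin n, (i : ℕ) < j → c i = 0) ∧
      ∀ i : Fin n, (i : ℕ) = j → c i = evalAt w (z / p ^ j) := by
  classical
  have hpp : ∀ i : ℕ, OrdGE w i (p ^ i) := fun i => Or.inr (by rw [ord_pow, hpw, mul_one])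
  have hC : ∀ c : K, OrdGE w 0 (algebraMap K F' c) := fun c =>
    mem_iff_ordGE.1 (w.algebraMap_mem' c)
  have step : ∀ i : Fin n, (i : ℕ) ≤ j → (∀ l : Fin n, (l : ℕ) < i → c l = 0) →
      OrdGE w ((i : ℕ) + 1) (z - algebraMap K F' (c i) * p ^ (i : ℕ)) := by
    intro i _ hlow
    have hsum : OrdGE w ((i : ℕ) + 1)
        (∑ l ∈ Finset.univ.erase i, algebraMap K F' (c l) * p ^ (l : ℕ)) := by
      refine OrdGE.sum fun l hl => ?_
      rcases lt_trichotomy (l : ℕ) i with hli | hli | hli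
      · rw [hlow l hli, map_zero, zero_mul]; exact OrdGE.zero w _
      · exact absurd (Fin.ext hli) (Finset.ne_of_mem_erase hl)
      · have := (hC (c l)).mul (hpp l)
        exact this.mono (by omega)
    have hsplit : z - algebraMap K F' (c i) * p ^ (i : ℕ)
        = (z - ∑ l, algebraMap K F' (c l) * p ^ (l : ℕ))
          + ∑ l ∈ Finset.univ.erase i, algebraMap K F' (c l) * p ^ (l : ℕ) := by
      rw [← Finset.add_sum_erase _ _ (Finset.mem_univ i)]; ring
    rw [hsplit]
    exact (h.mono (by have := i.2; omega)).add hsum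
  have low : ∀ k : ℕ, ∀ i : Fin n, (i : ℕ) = k → (i : ℕ) < j → c i = 0 := by
    intro k
    induction k using Nat.strong_induction_on with
    | _ k ih =>
      intro i hik hij
      by_contra hne
      have h1 := step i (by omega) fun l hl => ih l (by omega) l rfl (by omega)
      have h2 : OrdGE w ((i : ℕ) + 1) (algebraMap K F' (c i) * p ^ (i : ℕ)) := by
        have h3 := (hz.mono (by omega : ((i : ℕ) : ℤ) + 1 ≤ j)).sub h1
        rwa [sub_sub_cancel] at h3
      have hne' : algebraMap K F' (c i) ≠ 0 := by simpa using hne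
      have h4 := h2.le_ord (mul_ne_zero hne' (pow_ne_zero _ hp))
      rw [w.ord_mul hne' (pow_ne_zero _ hp), ord_algebraMap hne, ord_pow, hpw] at h4
      omega
  refine ⟨fun i => low i i rfl, fun i hij => ?_⟩
  have h1 := step i hij.le fun l hl => low l l rfl (by omega)
  rw [hij] at h1
  refine (evalAt_eq ?_).symm
  have h2 : OrdGE w (-(j : ℤ)) (p ^ j)⁻¹ := Or.inr (by rw [w.ord_inv, ord_pow, hpw, mul_one])
  have h3 := (h1.mul h2).mono (by omega : (1 : ℤ) ≤ (j : ℤ) + 1 + -(j : ℤ))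
  have hpj : p ^ j ≠ 0 := pow_ne_zero _ hp
  convert h3 using 1
  field_simp

theorem inertiaDeg_eq_one (w : Place K F') : w.inertiaDeg F = 1 := by
  have h := w.deg_restrict_mul_inertiaDeg (F := F)
  rwa [IsCurveOver.deg_eq_one_of_isAlgClosed, IsCurveOver.deg_eq_one_of_isAlgClosed, one_mul] at h

theorem sum_ramificationIndex [SumRamificationInertia K F F'] (v : Place K F) :
    ∑ w ∈ v.fiber F', w.ramificationIndex F = Module.finrank F F' := by
  have h := SumRamificationInertia.sum_ramificationIndex_mul_inertiaDeg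
    (K := K) (F := F) (F' := F') v
  simp only [inertiaDeg_eq_one, Nat.cast_one, mul_one] at h
  exact_mod_cast h

section Basis

variable (v : Place K F) (p : Place K F' → F')

/-- Index type of the fibre basis. -/
abbrev FibIdx (F' : Type*) [Field F'] [Algebra K F'] [Algebra F F'] [IsScalarTower K F F']
    [Algebra.IsIntegral F F'] [HasPrincipalDivisors K F'] (v : Place K F) : Type _ :=
  Σ w : {w // w ∈ v.fiber F'}, Fin (w.1.ramificationIndex F)

/-- A family adapted to the fibre over `v`. -/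
def IsAdapted (b : FibIdx F' v → F') : Prop :=
  ∀ (k : FibIdx F' v) (w : {w // w ∈ v.fiber F'}),
    (w = k.1 → OrdGE w.1 (w.1.ramificationIndex F) (b k - p k.1.1 ^ (k.2 : ℕ))) ∧
    (w ≠ k.1 → OrdGE w.1 (w.1.ramificationIndex F) (b k))

variable {v p} {b : FibIdx F' v → F'}

theorem IsAdapted.congr_sum (hb : IsAdapted v p b) (hp1 : ∀ w, p w ≠ 0 ∧ w.ord (p w) = 1)
    {a : FibIdx F' v → F} (ha : ∀ k, OrdGE v 0 (a k)) (w : {w // w ∈ v.fiber F'}) :
    OrdGE w.1 (w.1.ramificationIndex F) ((∑ k, algebraMap F F' (a k) * b k)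
      - ∑ i, algebraMap K F' (evalAt v (a ⟨w, i⟩)) * p w.1 ^ (i : ℕ)) := by
  classical
  have hwv : w.1.restrict F = v := Place.mem_fiber.1 w.2
  set e : ℤ := (w.1.ramificationIndex F : ℤ)
  have hA : ∀ k, OrdGE w.1 0 (algebraMap F F' (a k)) := fun k => by
    simpa using (ha k).algebraMap_lift hwv
  have hd : ∀ k, OrdGE w.1 e
      (algebraMap F F' (a k) - algebraMap K F' (evalAt v (a k))) := fun k => by
    have := (ordGE_sub_evalAt v (ha k)).algebraMap_lift hwv
    rw [map_sub, ← IsScalarTower.algebraMap_apply] at this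
    simpa using this
  rw [Fintype.sum_sigma, ← Finset.add_sum_erase _ _ (Finset.mem_univ w), add_sub_right_comm,
    ← Finset.sum_sub_distrib]
  refine (OrdGE.sum fun i _ => ?_).add (OrdGE.sum fun w' hw' => OrdGE.sum fun i _ => ?_)
  · have h1 := (hA ⟨w, i⟩).mul ((hb ⟨w, i⟩ w).1 rfl)
    have h2 := (hd ⟨w, i⟩).mul (Or.inr (by
      rw [ord_pow, (hp1 w.1).2, mul_one]; omega) : OrdGE w.1 0 (p w.1 ^ (i : ℕ)))
    rw [zero_add] at h1
    rw [add_zero] at h2
    convert h1.add h2 using 1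
    ring
  · have h1 := (hA ⟨w', i⟩).mul ((hb ⟨w', i⟩ w).2 (Finset.ne_of_mem_erase hw').symm)
    rwa [zero_add] at h1

theorem IsAdapted.evalAt_eq_zero (hb : IsAdapted v p b) (hp1 : ∀ w, p w ≠ 0 ∧ w.ord (p w) = 1)
    {a : FibIdx F' v → F} (ha : ∀ k, OrdGE v 0 (a k))
    (h : ∀ w ∈ v.fiber F', OrdGE w (w.ramificationIndex F) (∑ k, algebraMap F F' (a k) * b k))
    (k : FibIdx F' v) : evalAt v (a k) = 0 :=
  (expansion_low (hp1 k.1.1).1 (hp1 k.1.1).2 (j := k.1.1.ramificationIndex F)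
    (h k.1.1 k.1.2) (hb.congr_sum hp1 ha k.1)).1 k.2 k.2.2

theorem IsAdapted.coeff_ordGE (hb : IsAdapted v p b) (hp1 : ∀ w, p w ≠ 0 ∧ w.ord (p w) = 1)
    (a : FibIdx F' v → F)
    (h : ∀ w ∈ v.fiber F', OrdGE w 0 (∑ k, algebraMap F F' (a k) * b k))
    (k : FibIdx F' v) : OrdGE v 0 (a k) := by
  classical
  by_contra hk
  have hk0 : a k ≠ 0 := fun h0 => hk (Or.inl h0)
  obtain ⟨k₀, hk₀, hmin⟩ := Finset.exists_min_image
    (Finset.univ.filter fun k => a k ≠ 0) (fun k => v.ord (a k)) ⟨k, by simp [hk0]⟩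
  simp only [Finset.mem_filter, Finset.mem_univ, true_and] at hk₀ hmin
  have hneg : v.ord (a k₀) < 0 := by
    have h1 := hmin k hk0
    have : ¬ 0 ≤ v.ord (a k) := fun h0 => hk (Or.inr h0)
    omega
  have ha' : ∀ l, OrdGE v 0 (a l / a k₀) := fun l => by
    by_cases hl : a l = 0
    · exact Or.inl (by simp [hl])
    exact Or.inr (by rw [ord_div v hl hk₀]; have := hmin l hl; omega)
  have hev := hb.evalAt_eq_zero hp1 ha' (fun w hw => ?_) k₀
  · rw [div_self hk₀, evalAt_one] at hev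
    exact one_ne_zero hev
  · have h1 : OrdGE v 1 (a k₀)⁻¹ := Or.inr (by rw [v.ord_inv]; omega)
    have h2 := (h1.algebraMap_lift (Place.mem_fiber.1 hw)).mul (h w hw)
    rw [mul_one, add_zero, Finset.mul_sum] at h2
    convert h2 using 1
    refine Finset.sum_congr rfl fun l _ => ?_
    rw [map_div₀, map_inv₀]; ring

theorem IsAdapted.linearIndependent (hb : IsAdapted v p b)
    (hp1 : ∀ w, p w ≠ 0 ∧ w.ord (p w) = 1) : LinearIndependent F b := by
  classical
  rw [Fintype.linearIndependent_iff]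
  intro a ha k
  by_contra hk
  have h1 : ∀ c : F, ∑ l, algebraMap F F' (a l * c) * b l = 0 := fun c => by
    simp only [Algebra.smul_def] at ha
    calc ∑ l, algebraMap F F' (a l * c) * b l
        = algebraMap F F' c * ∑ l, algebraMap F F' (a l) * b l := by
          rw [Finset.mul_sum]; exact Finset.sum_congr rfl fun l _ => by rw [map_mul]; ring
      _ = 0 := by rw [ha, mul_zero]
  obtain ⟨c, hc, hord⟩ := exists_ord_eq v (-v.ord (a k))
  have hall : ∀ l, OrdGE v 0 (a l * c) := hb.coeff_ordGE hp1 _ fun w _ => by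
    rw [h1]; exact OrdGE.zero w 0
  have hev := hb.evalAt_eq_zero hp1 hall (fun w _ => by rw [h1]; exact OrdGE.zero w _) k
  exact evalAt_ne_zero (mul_ne_zero hk hc) (by rw [v.ord_mul hk hc]; omega) hev

variable (F') in
omit [IsAlgClosed K] [IsCurveOver K F] in
theorem exists_adapted (v : Place K F) (p : Place K F' → F') :
    ∃ b : FibIdx F' v → F', IsAdapted v p b := by
  classical
  choose b hb using fun k : FibIdx F' v => exists_approx (v.fiber F')
    (fun w => if w = k.1.1 then p w ^ (k.2 : ℕ) else 0)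
    ((v.fiber F').sup (fun w => w.ramificationIndex F) : ℕ)
  refine ⟨b, fun k w => ?_⟩
  have hle : w.1.ramificationIndex F ≤ (v.fiber F').sup (fun w => w.ramificationIndex F) :=
    Finset.le_sup (f := fun w : Place K F' => w.ramificationIndex F) w.2
  have h := (hb k w.1 w.2).mono (Int.ofNat_le.2 hle)
  refine ⟨fun heq => ?_, fun hne => ?_⟩
  · subst heq; simpa using h
  · rwa [if_neg (fun e => hne (Subtype.ext e)), sub_zero] at h

end Basis

/-- Evaluation as a ring homomorphism on the local ring of `v`. -/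
def evalHom (v : Place K F) : v.toValuationSubring →+* K where
  toFun f := evalAt v (f : F)
  map_one' := evalAt_one
  map_zero' := evalAt_zero
  map_mul' f g := evalAt_mul (mem_iff_ordGE.1 f.2) (mem_iff_ordGE.1 g.2)
  map_add' f g := evalAt_add (mem_iff_ordGE.1 f.2) (mem_iff_ordGE.1 g.2)

variable [Module.Finite F F'] [SumRamificationInertia K F F']

theorem evalAt_norm (v : Place K F) {f : F'} (hf : ∀ w ∈ v.fiber F', OrdGE w 0 f) :
    OrdGE v 0 (Algebra.norm F f) ∧
      evalAt v (Algebra.norm F f)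
        = ∏ w ∈ v.fiber F', evalAt w f ^ w.ramificationIndex F := by
  classical
  choose p hp1 using fun w : Place K F' => exists_ord_eq w 1
  obtain ⟨b, hb⟩ := exists_adapted F' v p
  have hcard : Fintype.card (FibIdx F' v) = Module.finrank F F' := by
    rw [Fintype.card_sigma]
    simp only [Fintype.card_fin]
    exact (Finset.sum_coe_sort (v.fiber F') _).trans (sum_ramificationIndex v)
  have : Nonempty (FibIdx F' v) :=
    Fintype.card_pos_iff.1 (hcard ▸ Module.finrank_pos)
  let B := basisOfLinearIndependentOfCardEqFinrank (hb.linearIndependent hp1) hcard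
  have hB : ∀ k, B k = b k := fun k => by
    rw [coe_basisOfLinearIndependentOfCardEqFinrank]
  let A : Matrix (FibIdx F' v) (FibIdx F' v) F := Algebra.leftMulMatrix B f
  have hAsum : ∀ l, ∑ k, algebraMap F F' (A k l) * b k = f * b l := fun l => by
    rw [← hB l]
    conv_rhs => rw [← B.sum_repr (f * B l)]
    refine Finset.sum_congr rfl fun k _ => ?_
    rw [Algebra.smul_def, hB k, show A k l = B.repr (f * B l) k from
      Algebra.leftMulMatrix_eq_repr_mul B f k l]
  have hbl : ∀ (l : FibIdx F' v) (w : {w // w ∈ v.fiber F'}),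
      (w = l.1 → OrdGE w.1 (l.2 : ℕ) (b l)) ∧ OrdGE w.1 0 (b l) := by
    intro l w
    by_cases h : w = l.1
    · subst h
      have hh : OrdGE l.1.1 (l.2 : ℕ) (b l) := by
        have h1 := ((hb l l.1).1 rfl).mono
          (by have := l.2.2; omega : ((l.2 : ℕ) : ℤ) ≤ l.1.1.ramificationIndex F)
        simpa using h1.add (Or.inr (by rw [ord_pow, (hp1 _).2, mul_one]) :
          OrdGE l.1.1 (l.2 : ℕ) (p l.1.1 ^ (l.2 : ℕ)))
      exact ⟨fun _ => hh, hh.mono (by omega)⟩
    · exact ⟨fun e => absurd e h, ((hb l w).2 h).mono (by omega)⟩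
  have hfb : ∀ l, ∀ w ∈ v.fiber F', OrdGE w 0 (f * b l) := fun l w hw => by
    simpa using (hf w hw).mul (hbl l ⟨w, hw⟩).2
  have hA0 : ∀ k l, OrdGE v 0 (A k l) := fun k l =>
    hb.coeff_ordGE hp1 (fun k => A k l) (fun w hw => by rw [hAsum l]; exact hfb l w hw) k
  let A₀ : Matrix (FibIdx F' v) (FibIdx F' v) v.toValuationSubring :=
    fun k l => ⟨A k l, mem_iff_ordGE.2 (hA0 k l)⟩
  have hnorm : Algebra.norm F f = ((A₀.det : v.toValuationSubring) : F) := by
    rw [Algebra.norm_eq_matrix_det B]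
    exact (RingHom.map_det v.toValuationSubring.subtype A₀).symm
  refine ⟨hnorm ▸ mem_iff_ordGE.1 A₀.det.2, ?_⟩
  rw [hnorm]
  change evalHom v A₀.det = _
  rw [RingHom.map_det]
  have hcol : ∀ (l : FibIdx F' v) (w : {w // w ∈ v.fiber F'}),
      OrdGE w.1 (w.1.ramificationIndex F)
        (f * b l - ∑ i, algebraMap K F' (evalAt v (A ⟨w, i⟩ l)) * p w.1 ^ (i : ℕ)) := fun l w => by
    rw [← hAsum l]; exact hb.congr_sum hp1 (fun k => hA0 k l) w
  have hoff : ∀ k l : FibIdx F' v, k.1 ≠ l.1 → evalAt v (A k l) = 0 := fun k l hne => by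
    have hz := (hf k.1.1 k.1.2).mul ((hb l k.1).2 hne)
    rw [zero_add] at hz
    exact (expansion_low (hp1 _).1 (hp1 _).2 hz (hcol l k.1)).1 k.2 k.2.2
  have hlow : ∀ k l : FibIdx F' v, k.1 = l.1 → (k.2 : ℕ) < l.2 → evalAt v (A k l) = 0 := by
    rintro ⟨w, i⟩ ⟨w', j⟩ h hij
    simp only at h hij
    subst h
    have hz := (hf w.1 w.2).mul ((hbl ⟨w, j⟩ w).1 rfl)
    rw [zero_add] at hz
    exact (expansion_low (hp1 _).1 (hp1 _).2 hz (hcol ⟨w, j⟩ w)).1 i hij
  have hdiag : ∀ k : FibIdx F' v, evalAt v (A k k) = evalAt k.1.1 f := by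
    rintro ⟨w, i⟩
    have hz := (hf w.1 w.2).mul ((hbl ⟨w, i⟩ w).1 rfl)
    rw [zero_add] at hz
    rw [(expansion_low (hp1 _).1 (hp1 _).2 hz (hcol ⟨w, i⟩ w)).2 i rfl]
    have hpi : p w.1 ^ (i : ℕ) ≠ 0 := pow_ne_zero _ (hp1 _).1
    have h1 : OrdGE w.1 1 (b ⟨w, i⟩ / p w.1 ^ (i : ℕ) - 1) := by
      have h2 := (((hb ⟨w, i⟩ w).1 rfl).mul
        (Or.inr (by rw [w.1.ord_inv, ord_pow, (hp1 _).2, mul_one]) :
          OrdGE w.1 (-((i : ℕ) : ℤ)) (p w.1 ^ (i : ℕ))⁻¹)).mono
          (by have := i.2; omega : (1 : ℤ) ≤ w.1.ramificationIndex F + -((i : ℕ) : ℤ))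
      convert h2 using 1
      field_simp
    have h3 : OrdGE w.1 0 (b ⟨w, i⟩ / p w.1 ^ (i : ℕ)) := by
      simpa using (h1.mono zero_le_one).add (Or.inr (by simp) : OrdGE w.1 0 (1 : F'))
    have h4 : evalAt w.1 (b ⟨w, i⟩ / p w.1 ^ (i : ℕ)) = 1 :=
      evalAt_eq (by simpa using h1)
    rw [mul_div_assoc, evalAt_mul (hf w.1 w.2) h3, h4, mul_one]
  let key : FibIdx F' v → Fin (Fintype.card {w // w ∈ v.fiber F'}) ×ₗ ℕ :=
    fun k => toLex (Fintype.equivFin _ k.1, (k.2 : ℕ))
  have hkey : Function.Injective key := by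
    rintro ⟨w, i⟩ ⟨w', j⟩ h
    simp only [key, EmbeddingLike.apply_eq_iff_eq, Prod.mk.injEq] at h
    obtain ⟨rfl, h2⟩ := h
    rw [Fin.ext h2]
  let _ : LinearOrder (FibIdx F' v) := LinearOrder.lift' key hkey
  rw [Matrix.det_of_isLowerTriangular]
  · rw [Fintype.prod_sigma, ← Finset.prod_coe_sort (v.fiber F')]
    refine Finset.prod_congr rfl fun w _ => ?_
    have : ∀ i, (evalHom v).mapMatrix A₀ ⟨w, i⟩ ⟨w, i⟩ = evalAt w.1 f := fun i => hdiag ⟨w, i⟩
    simp only [this, Finset.prod_const, Finset.card_univ, Fintype.card_fin]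
  · intro k l hkl
    show evalAt v (A k l) = 0
    by_cases h : k.1 = l.1
    · refine hlow k l h ?_
      have hlt : key k < key l := OrderDual.toDual_lt_toDual.1 hkl
      simp only [key, Prod.Lex.toLex_lt_toLex, h] at hlt
      simpa using hlt
    · exact hoff k l h

end Fermat.Agent.JPairing
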