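import Fermat.Agent.JPairing.Symbol
import Fermat.Agent.JPairing.NormEval

/-!
# Products of local symbols over a fibre
-/

set_option autoImplicit false

noncomputable section

open AlgebraicCurve

namespace Fermat.Agent.JPairing

section Support

variable (K : Type*) {F : Type*} [Field K] [Field F] [Algebra K F] [HasPrincipalDivisors K F]

open Classical in
/-- The divisor of a function (junk `0` for the zero function). -/
def divOf (f : F) : Divisor K F :=
  if h : f = 0 then 0 else (HasPrincipalDivisors.exists_divisor (K := K) f h).choose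

variable {K}

theorem divOf_apply (f : F) (v : Place K F) : divOf K f v = v.ord f := by
  by_cases h : f = 0
  · simp [divOf, h]
  · rw [divOf, dif_neg h]
    exact (HasPrincipalDivisors.exists_divisor (K := K) f h).choose_spec.1 v

theorem degree_divOf (f : F) : Divisor.degree (divOf K f) = 0 := by
  by_cases h : f = 0
  · simp [divOf, h]
  · rw [divOf, dif_neg h]
    exact (HasPrincipalDivisors.exists_divisor (K := K) f h).choose_spec.2

theorem ord_eq_zero_of_notMem_support {f : F} {v : Place K F} (h : v ∉ (divOf K f).support) :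
    v.ord f = 0 := by
  rw [← divOf_apply f v]; simpa using h

theorem divOf_isPrincipal {f : F} (hf : f ≠ 0) : (divOf K f).IsPrincipal :=
  ⟨f, hf, divOf_apply f⟩

theorem divOf_mul {f g : F} (hf : f ≠ 0) (hg : g ≠ 0) :
    divOf K (f * g) = divOf K f + divOf K g := by
  ext v
  rw [Finsupp.add_apply, divOf_apply, divOf_apply, divOf_apply, v.ord_mul hf hg]

end Support

variable {K F F' : Type*} [Field K] [Field F] [Field F'] [Algebra K F] [Algebra K F']
  [IsAlgClosed K] [IsCurveOver K F]

/-- The degree of a divisor on a curve over an algebraically closed field is the sum of its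
coefficients. -/
theorem degree_eq_sum (D : Divisor K F) {S : Finset (Place K F)} (hS : D.support ⊆ S) :
    Divisor.degree D = ∑ v ∈ S, D v := by
  rw [Divisor.degree, Finsupp.liftAddHom_apply,
    Finsupp.sum_of_support_subset D hS _ (fun _ _ => map_zero _)]
  simp [IsCurveOver.deg_eq_one_of_isAlgClosed]

theorem sum_ord_eq_zero (f : F) {S : Finset (Place K F)}
    (hS : ∀ v, v ∉ S → v.ord f = 0) : ∑ v ∈ S, v.ord f = 0 := by
  have h := degree_divOf (K := K) f
  rw [degree_eq_sum (divOf K f) (S := S) (fun v hv => ?_)] at h
  · simpa only [divOf_apply] using h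
  · by_contra hvS
    rw [Finsupp.mem_support_iff, divOf_apply] at hv
    exact hv (hS v hvS)

variable [IsCurveOver K F'] [Algebra F F'] [IsScalarTower K F F'] [Algebra.IsIntegral F F']

theorem evalAt_algebraMap_lift {v : Place K F} {w : Place K F'} (hw : w.restrict F = v) {t : F}
    (ht : OrdGE v 0 t) : evalAt w (algebraMap F F' t) = evalAt v t := by
  refine evalAt_eq ?_
  have h := (ordGE_sub_evalAt v ht).algebraMap_lift hw
  rw [map_sub, ← IsScalarTower.algebraMap_apply, mul_one] at h
  exact h.mono (by exact_mod_cast (w.ramificationIndex_pos (F := F)))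

variable [Module.Finite F F']

theorem ord_norm_eq_sum_fiber (hN : Divisor.PushforwardNormFormula K F F') {f : F'} (hf : f ≠ 0)
    (v : Place K F) : v.ord (Algebra.norm F f) = ∑ w ∈ v.fiber F', w.ord f := by
  classical
  rw [← hN f hf (divOf K f) (divOf_apply f) v, Divisor.pushforward_apply]
  simp only [inertiaDeg_eq_one, Nat.cast_one, mul_one, divOf_apply]
  rw [← Finset.sum_filter]
  refine Finset.sum_subset (fun w hw => Place.mem_fiber.2 (Finset.mem_filter.1 hw).2)
    (fun w hw hw' => ord_eq_zero_of_notMem_support fun hs => hw' ?_)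
  exact Finset.mem_filter.2 ⟨hs, Place.mem_fiber.1 hw⟩

theorem prod_zpow_eq_zpow_sum' {ι R : Type*} [Field R] {x : R} (hx : x ≠ 0) (s : Finset ι)
    (e : ι → ℤ) : ∏ i ∈ s, x ^ e i = x ^ ∑ i ∈ s, e i := by
  classical
  induction s using Finset.induction with
  | empty => simp
  | insert i s hi ih => rw [Finset.prod_insert hi, Finset.sum_insert hi, ih, zpow_add₀ hx]

variable [SumRamificationInertia K F F']

/-- Projection formula for the tame symbol, for functions with disjoint supports on the fibre. -/
theorem prod_fiber_tameSymbol (hN : Divisor.PushforwardNormFormula K F F') (v : Place K F)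
    {f : F'} {t : F} (hf : f ≠ 0) (ht : t ≠ 0) (h : v.ord t = 0 ∨ ∀ w ∈ v.fiber F', w.ord f = 0) :
    ∏ w ∈ v.fiber F', tameSymbol w f (algebraMap F F' t) = tameSymbol v (Algebra.norm F f) t := by
  rcases h with h | h
  · have hw : ∀ w ∈ v.fiber F', tameSymbol w f (algebraMap F F' t)
        = (evalAt v t ^ w.ord f)⁻¹ := by
      intro w hw
      have hwv := Place.mem_fiber.1 hw
      have ht0 : w.ord (algebraMap F F' t) = 0 := by rw [w.ord_restrict, hwv, h, mul_zero]
      rw [tameSymbol, ht0, pairFactor_right_unit f ht0,
        evalAt_algebraMap_lift hwv (Or.inr h.ge)]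
    rw [Finset.prod_congr rfl hw, tameSymbol, h, pairFactor_right_unit _ h,
      ord_norm_eq_sum_fiber hN hf v, Finset.prod_inv_distrib]
    rw [prod_zpow_eq_zpow_sum' (evalAt_ne_zero ht h)]
  · obtain ⟨-, hev⟩ := evalAt_norm v (f := f) fun w hw => Or.inr (h w hw).ge
    have hNord : v.ord (Algebra.norm F f) = 0 := by
      rw [ord_norm_eq_sum_fiber hN hf v]; exact Finset.sum_eq_zero h
    have hw : ∀ w ∈ v.fiber F', tameSymbol w f (algebraMap F F' t)
        = (evalAt w f ^ w.ramificationIndex F) ^ v.ord t := by
      intro w hw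
      rw [tameSymbol, h w hw, w.ord_restrict, Place.mem_fiber.1 hw,
        pairFactor_left_unit (h w hw), zpow_mul, zpow_natCast]
    rw [Finset.prod_congr rfl hw, tameSymbol, hNord, pairFactor_left_unit hNord, hev,
      ← Finset.prod_zpow]

end Fermat.Agent.JPairing
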