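import Fermat.Agent.FF.Curve
import Fermat.Agent.FF.PushPull
import Fermat.Agent.JPairing.Fibre

/-!
# Weil reciprocity

For nonzero functions `f, g` on a curve over an algebraically closed field of characteristic zero,
the product of all tame symbols `(f, g)_v` is `1`.

Proof: functions with disjoint supports reduce to `K(g)` by the projection formula, where the
statement follows from bimultiplicativity and the Steinberg relation. Then bimultiplicativity
reduces the general case to signs `ε_w` attached to points, which the Steinberg relation kills.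
-/

set_option autoImplicit false

noncomputable section

open AlgebraicCurve IntermediateField Polynomial

namespace Fermat.Agent.JPairing

section Recip

variable (K : Type*) {F : Type*} [Field K] [Field F] [Algebra K F]

/-- The product of all tame symbols of `f` and `g`. -/
def recipProd (f g : F) : K := ∏ᶠ v : Place K F, tameSymbol v f g

variable {K} [IsAlgClosed K] [IsCurveOver K F] {f f' g g' : F}

theorem hasFiniteMulSupport_tameSymbol (f g : F) :
    (fun v : Place K F => tameSymbol v f g).HasFiniteMulSupport := by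
  classical
  refine ((divOf K f).support ∪ (divOf K g).support).finite_toSet.subset fun v hv => ?_
  by_contra h
  rw [Finset.mem_coe, Finset.mem_union, not_or] at h
  exact hv (tameSymbol_eq_one_of_ord (ord_eq_zero_of_notMem_support h.1)
    (ord_eq_zero_of_notMem_support h.2))

theorem recipProd_mul_left (hf : f ≠ 0) (hf' : f' ≠ 0) (hg : g ≠ 0) :
    recipProd K (f * f') g = recipProd K f g * recipProd K f' g := by
  rw [recipProd, recipProd, recipProd, ← finprod_mul_distrib (hasFiniteMulSupport_tameSymbol f g)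
    (hasFiniteMulSupport_tameSymbol f' g)]
  exact finprod_congr fun v => tameSymbol_mul_left hf hf' hg

theorem recipProd_mul_right (hf : f ≠ 0) (hg : g ≠ 0) (hg' : g' ≠ 0) :
    recipProd K f (g * g') = recipProd K f g * recipProd K f g' := by
  rw [recipProd, recipProd, recipProd, ← finprod_mul_distrib (hasFiniteMulSupport_tameSymbol f g)
    (hasFiniteMulSupport_tameSymbol f g')]
  exact finprod_congr fun v => tameSymbol_mul_right hf hg hg'

theorem recipProd_swap (hf : f ≠ 0) (hg : g ≠ 0) :
    recipProd K g f = (recipProd K f g)⁻¹ := by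
  rw [recipProd, recipProd, ← finprod_inv_distrib]
  exact finprod_congr fun v => tameSymbol_swap hf hg

theorem recipProd_ne_zero (hf : f ≠ 0) (hg : g ≠ 0) : recipProd K f g ≠ 0 :=
  finprod_induction (p := fun x : K => x ≠ 0) one_ne_zero (fun _ _ => mul_ne_zero)
    fun _ => tameSymbol_ne_zero hf hg

theorem recipProd_eq_prod (f g : F) {S : Finset (Place K F)}
    (hf : ∀ v : Place K F, v ∉ S → v.ord f = 0) (hg : ∀ v : Place K F, v ∉ S → v.ord g = 0) :
    recipProd K f g = ∏ v ∈ S, tameSymbol v f g :=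
  finprod_eq_prod_of_mulSupport_subset _ fun v hv => by
    by_contra h
    exact hv (tameSymbol_eq_one_of_ord (hf v h) (hg v h))

theorem recipProd_const_left {c : K} (hc : c ≠ 0) (g : F) :
    recipProd K (algebraMap K F c) g = 1 := by
  rw [recipProd_eq_prod (algebraMap K F c) g (S := (divOf K g).support)
      (fun v _ => ord_algebraMap hc) (fun v hv => ord_eq_zero_of_notMem_support hv),
    Finset.prod_congr rfl fun v _ => tameSymbol_const_left hc g, prod_zpow_eq_zpow_sum' hc,
    sum_ord_eq_zero g fun v hv => ord_eq_zero_of_notMem_support hv, zpow_zero]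

theorem recipProd_const_right {c : K} (hc : c ≠ 0) (hf : f ≠ 0) :
    recipProd K f (algebraMap K F c) = 1 := by
  rw [recipProd_swap (by simpa using hc) hf, recipProd_const_left hc, inv_one]

theorem recipProd_self (hf : f ≠ 0) : recipProd K f f = 1 := by
  rw [recipProd_eq_prod f f (S := (divOf K f).support)
      (fun v hv => ord_eq_zero_of_notMem_support hv) (fun v hv => ord_eq_zero_of_notMem_support hv),
    Finset.prod_congr rfl fun v _ => tameSymbol_self hf,
    prod_zpow_eq_zpow_sum' (neg_ne_zero.2 one_ne_zero),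
    sum_ord_eq_zero f fun v hv => ord_eq_zero_of_notMem_support hv, zpow_zero]

theorem recipProd_one_sub (hf : f ≠ 0) (h1 : 1 - f ≠ 0) : recipProd K f (1 - f) = 1 :=
  finprod_eq_one_of_forall_eq_one fun _ => tameSymbol_one_sub hf h1

/-- Reciprocity against a linear polynomial in `t`. -/
theorem recipProd_sub_const {t : F} (ht : t ≠ 0) {α : K} (h : t - algebraMap K F α ≠ 0) :
    recipProd K (t - algebraMap K F α) t = 1 := by
  rcases eq_or_ne α 0 with rfl | hα
  · rw [map_zero, sub_zero]; exact recipProd_self ht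
  set a := algebraMap K F α with ha
  have ha0 : a ≠ 0 := by simpa [ha] using hα
  set u := t / a with hu
  have hu0 : u ≠ 0 := div_ne_zero ht ha0
  have htu : t = a * u := (mul_div_cancel₀ t ha0).symm
  have hsplit : t - a = algebraMap K F (-α) * (1 - u) := by rw [map_neg, ← ha, htu]; ring
  have h1 : 1 - u ≠ 0 := by intro h0; rw [hsplit, h0, mul_zero] at h; exact h rfl
  rw [hsplit, recipProd_mul_left (by simpa using hα) h1 ht,
    recipProd_const_left (neg_ne_zero.2 hα), one_mul, htu, recipProd_mul_right h1 ha0 hu0,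
    ha, recipProd_const_right hα h1, one_mul, recipProd_swap hu0 h1, recipProd_one_sub hu0 h1,
    inv_one]

/-- Reciprocity against a rational function of `t`. -/
theorem recipProd_aeval {t : F} (ht : Transcendental K t) {p : K[X]} (hp : p ≠ 0) :
    recipProd K (aeval t p) t = 1 := by
  have ht0 : t ≠ 0 := fun h => ht (h ▸ isAlgebraic_zero)
  have hne : ∀ q : K[X], q ≠ 0 → aeval t q ≠ 0 := fun q hq h => hq (transcendental_iff.1 ht q h)
  induction h : p.natDegree using Nat.strong_induction_on generalizing p with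
  | _ n ih =>
    by_cases hd : p.degree = 0
    · rw [eq_C_of_degree_eq_zero hd, aeval_C]
      refine recipProd_const_left (fun h0 => ?_) t
      rw [eq_C_of_degree_eq_zero hd, h0, map_zero] at hp
      exact hp rfl
    · obtain ⟨α, hα⟩ := IsAlgClosed.exists_root p hd
      obtain ⟨q, rfl⟩ := dvd_iff_isRoot.2 hα
      have hq : q ≠ 0 := right_ne_zero_of_mul hp
      rw [map_mul, recipProd_mul_left (hne _ (X_sub_C_ne_zero α)) (hne _ hq) ht0]
      have h1 : recipProd K (aeval t (X - C α)) t = 1 := by
        have hh := hne _ (X_sub_C_ne_zero α)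
        rw [map_sub, aeval_X, aeval_C] at hh ⊢
        exact recipProd_sub_const ht0 hh
      rw [h1, one_mul]
      refine ih q.natDegree ?_ hq rfl
      rw [← h, natDegree_mul (X_sub_C_ne_zero α) hq, natDegree_X_sub_C]
      omega

end Recip

variable {K F : Type*} [Field K] [Field F] [Algebra K F] [IsAlgClosed K] [CharZero K]
  [FF.IsFunctionField K F]

omit [CharZero K] [FF.IsFunctionField K F] in
theorem mem_range_or_transcendental (g : F) :
    g ∈ Set.range (algebraMap K F) ∨ Transcendental K g := by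
  by_cases h : IsAlgebraic K g
  · refine Or.inl ?_
    have hdeg := IsAlgClosed.degree_eq_one_of_irreducible K (minpoly.irreducible h.isIntegral)
    exact minpoly.mem_range_of_degree_eq_one K g hdeg
  · exact Or.inr h

/-- Weil reciprocity for functions with disjoint supports. -/
theorem recipProd_eq_one_of_disjoint {f g : F} (hf : f ≠ 0) (hg : g ≠ 0)
    (h : ∀ v : Place K F, v.ord f = 0 ∨ v.ord g = 0) : recipProd K f g = 1 := by
  classical
  rcases mem_range_or_transcendental (K := K) g with ⟨c, rfl⟩ | hgt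
  · exact recipProd_const_right (by simpa using hg) hf
  have : FiniteDimensional K⟮g⟯ F := FF.finiteDimensional_adjoin hgt
  have : CharZero K⟮g⟯ := charZero_of_injective_algebraMap (algebraMap K K⟮g⟯).injective
  have : Algebra.IsIntegral K⟮g⟯ F := Algebra.IsIntegral.of_finite _ _
  have htt : Transcendental K (AdjoinSimple.gen K g) := fun ha => hgt <| by
    simpa using ha.algHom K⟮g⟯.val
  have : FF.IsFunctionField K K⟮g⟯ := FF.IsFunctionField.of_algHom K⟮g⟯.val htt
  have : SumRamificationInertia K K⟮g⟯ F := FF.sumRamificationInertia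
  have hN : Divisor.PushforwardNormFormula K K⟮g⟯ F := FF.pushforwardNormFormula
  set t := AdjoinSimple.gen K g with htdef
  have hgt' : algebraMap K⟮g⟯ F t = g := AdjoinSimple.algebraMap_gen K g
  have ht0 : t ≠ 0 := fun h0 => hg (by rw [← hgt', h0, map_zero])
  set S := (divOf K f).support ∪ (divOf K g).support with hS
  set T := S.image (fun w => w.restrict K⟮g⟯) with hT
  have hsupp : ∀ w : Place K F, w ∉ T.biUnion (fun v => v.fiber F) → w ∉ S := fun w hw hwS =>
    hw (Finset.mem_biUnion.2 ⟨_, Finset.mem_image_of_mem _ hwS, w.restrict_mem_fiber⟩)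
  rw [recipProd_eq_prod f g (S := T.biUnion fun v => v.fiber F)
      (fun v hv => ord_eq_zero_of_notMem_support fun hs =>
        hsupp v hv (Finset.mem_union_left _ hs))
      (fun v hv => ord_eq_zero_of_notMem_support fun hs =>
        hsupp v hv (Finset.mem_union_right _ hs)),
    Finset.prod_biUnion ?_]
  swap
  · intro v _ v' _ hne
    exact Finset.disjoint_left.2 fun w hw hw' =>
      hne ((Place.mem_fiber.1 hw).symm.trans (Place.mem_fiber.1 hw'))
  have hfib : ∀ v : Place K K⟮g⟯, ∏ w ∈ v.fiber F, tameSymbol w f g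
      = tameSymbol v (Algebra.norm K⟮g⟯ f) t := by
    intro v
    rw [Finset.prod_congr rfl (g := fun w => tameSymbol w f (algebraMap K⟮g⟯ F t))
      fun w _ => congrArg (tameSymbol w f) hgt'.symm]
    refine prod_fiber_tameSymbol hN v hf ht0 ?_
    refine or_iff_not_imp_left.2 fun hv w hw => (h w).resolve_right ?_
    rw [← congrArg w.ord hgt', w.ord_restrict, Place.mem_fiber.1 hw]
    exact mul_ne_zero (by exact_mod_cast (w.ramificationIndex_pos (F := K⟮g⟯)).ne') hv
  rw [Finset.prod_congr rfl fun v _ => hfib v]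
  have hNf : Algebra.norm K⟮g⟯ f ≠ 0 := Algebra.norm_ne_zero_iff.2 hf
  have hzero : ∀ v : Place K K⟮g⟯, v ∉ T → ∀ w ∈ v.fiber F, w ∉ S := fun v hv w hw hwS =>
    hv (Place.mem_fiber.1 hw ▸ Finset.mem_image_of_mem _ hwS)
  rw [← recipProd_eq_prod (K := K) (Algebra.norm K⟮g⟯ f) t (S := T) ?_ ?_]
  · obtain ⟨r, s, hrs⟩ := (mem_adjoin_simple_iff (F := K) ((Algebra.norm K⟮g⟯ f : K⟮g⟯) : F)).1
      (Algebra.norm K⟮g⟯ f).2
    have hNf' : Algebra.norm K⟮g⟯ f = aeval t r / aeval t s := by
      apply (algebraMap K⟮g⟯ F).injective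
      rw [map_div₀, ← aeval_algebraMap_apply, ← aeval_algebraMap_apply, hgt']
      exact hrs
    rw [hNf'] at hNf ⊢
    simp only [ne_eq, div_eq_zero_iff, not_or] at hNf
    have hr : r ≠ 0 := fun h0 => hNf.1 (by simp [h0])
    have hs : s ≠ 0 := fun h0 => hNf.2 (by simp [h0])
    have := recipProd_mul_left (K := K) (div_ne_zero hNf.1 hNf.2) hNf.2 ht0
    rw [div_mul_cancel₀ _ hNf.2, recipProd_aeval htt hr, recipProd_aeval htt hs, mul_one] at this
    exact this.symm
  · intro v hv
    rw [ord_norm_eq_sum_fiber hN hf v]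
    exact Finset.sum_eq_zero fun w hw =>
      ord_eq_zero_of_notMem_support fun hs => hzero v hv w hw (Finset.mem_union_left _ hs)
  · intro v hv
    obtain ⟨w, hwv⟩ := FF.exists_place_restrict_eq (F' := F) v
    have hwS := hzero v hv w (Place.mem_fiber.2 hwv)
    have h0 : w.ord g = 0 :=
      ord_eq_zero_of_notMem_support fun hs => hwS (Finset.mem_union_right _ hs)
    rw [← congrArg w.ord hgt', w.ord_restrict, hwv, mul_eq_zero] at h0
    exact h0.resolve_left (by exact_mod_cast (w.ramificationIndex_pos (F := K⟮g⟯)).ne')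

section General

omit [IsAlgClosed K] [CharZero K] [FF.IsFunctionField K F] in
/-- `p` has order one at `w`, and order zero on the rest of `S`. -/
theorem exists_simple (w : Place K F) (S : Finset (Place K F)) :
    ∃ p : F, p ≠ 0 ∧ w.ord p = 1 ∧ ∀ v ∈ S, v ≠ w → v.ord p = 0 := by
  classical
  obtain ⟨p, hp, hp'⟩ := exists_ord_prescribed (insert w S) fun v => if v = w then 1 else 0
  exact ⟨p, hp, by simpa using hp' w (Finset.mem_insert_self _ _),
    fun v hv hne => by simpa [hne] using hp' v (Finset.mem_insert_of_mem hv)⟩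

/-- `p, q` have order one at `w` and no further common point in their supports. -/
def IsCrossing (w : Place K F) (p q : F) : Prop :=
  p ≠ 0 ∧ q ≠ 0 ∧ w.ord p = 1 ∧ w.ord q = 1 ∧ ∀ v : Place K F, v ≠ w → v.ord p = 0 ∨ v.ord q = 0

variable {w : Place K F} {p q r p' q' : F}

omit [IsAlgClosed K] [CharZero K] [FF.IsFunctionField K F] in
theorem IsCrossing.symm (h : IsCrossing w p q) : IsCrossing w q p :=
  ⟨h.2.1, h.1, h.2.2.2.1, h.2.2.1, fun v hv => (h.2.2.2.2 v hv).symm⟩

theorem recipProd_congr_right (h : IsCrossing w p q) (h' : IsCrossing w p q') :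
    recipProd K p q = recipProd K p q' := by
  obtain ⟨hp, hq, hwp, hwq, hdis⟩ := h
  obtain ⟨-, hq', -, hwq', hdis'⟩ := h'
  have h1 : recipProd K p (q / q') = 1 := by
    refine recipProd_eq_one_of_disjoint hp (div_ne_zero hq hq') fun v => ?_
    by_cases hv : v = w
    · subst hv; exact Or.inr (by rw [ord_div _ hq hq', hwq, hwq', sub_self])
    rcases hdis v hv with h2 | h2
    · exact Or.inl h2
    rcases hdis' v hv with h3 | h3
    · exact Or.inl h3
    exact Or.inr (by rw [ord_div _ hq hq', h2, h3, sub_self])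
  calc recipProd K p q = recipProd K p (q / q' * q') := by rw [div_mul_cancel₀ _ hq']
    _ = recipProd K p q' := by rw [recipProd_mul_right hp (div_ne_zero hq hq') hq', h1, one_mul]

theorem recipProd_congr_left (h : IsCrossing w p q) (h' : IsCrossing w p' q) :
    recipProd K p q = recipProd K p' q := by
  rw [recipProd_swap h.2.1 h.1, recipProd_swap h'.2.1 h'.1, recipProd_congr_right h.symm h'.symm]

omit [IsAlgClosed K] [CharZero K] in
variable (K) in
theorem exists_crossing_third (w : Place K F) (S : Finset F) :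
    ∃ r : F, r ≠ 0 ∧ w.ord r = 1 ∧
      ∀ p ∈ S, p ≠ 0 → w.ord p = 1 → IsCrossing w p r := by
  classical
  obtain ⟨r, hr, hwr, hr'⟩ := exists_simple w (S.biUnion fun p => (divOf K p).support)
  refine ⟨r, hr, hwr, fun p hp hp0 hwp => ⟨hp0, hr, hwp, hwr, fun v hv => ?_⟩⟩
  by_cases hs : v ∈ (divOf K p).support
  · exact Or.inr (hr' v (Finset.mem_biUnion.2 ⟨p, hp, hs⟩) hv)
  · exact Or.inl (ord_eq_zero_of_notMem_support hs)

theorem recipProd_crossing_symm (h : IsCrossing w p q) : recipProd K p q = recipProd K q p := by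
  classical
  obtain ⟨r, -, -, hr⟩ := exists_crossing_third K w {p, q}
  have hpr := hr p (by simp) h.1 h.2.2.1
  have hqr := hr q (by simp) h.2.1 h.2.2.2.1
  rw [recipProd_congr_right h hpr, recipProd_congr_left hpr hqr,
    recipProd_congr_right h.symm hqr]

theorem recipProd_crossing_sq (h : IsCrossing w p q) :
    recipProd K p q * recipProd K p q = 1 := by
  nth_rewrite 2 [recipProd_crossing_symm h]
  rw [recipProd_swap h.1 h.2.1]
  exact mul_inv_cancel₀ (recipProd_ne_zero h.1 h.2.1)

theorem recipProd_crossing_eq (h : IsCrossing w p q) (h' : IsCrossing w p' q') :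
    recipProd K p q = recipProd K p' q' := by
  classical
  obtain ⟨r, -, -, hr⟩ := exists_crossing_third K w {p, q, p', q'}
  have hpr := hr p (by simp) h.1 h.2.2.1
  have hp'r := hr p' (by simp) h'.1 h'.2.2.1
  rw [recipProd_congr_right h hpr, recipProd_congr_left hpr hp'r, ← recipProd_congr_right h' hp'r]

open Classical in
/-- The sign attached to a point; shown to be `1` below. -/
def crossSign (w : Place K F) : K :=
  if h : ∃ pq : F × F, IsCrossing w pq.1 pq.2 then recipProd K h.choose.1 h.choose.2 else 1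

theorem crossSign_eq (h : IsCrossing w p q) : crossSign w = recipProd K p q := by
  have h' : ∃ pq : F × F, IsCrossing w pq.1 pq.2 := ⟨(p, q), h⟩
  rw [crossSign, dif_pos h']
  exact recipProd_crossing_eq h'.choose_spec h

theorem crossSign_mul_self (w : Place K F) : crossSign w * crossSign w = 1 := by
  by_cases h : ∃ pq : F × F, IsCrossing w pq.1 pq.2
  · rw [crossSign_eq h.choose_spec]; exact recipProd_crossing_sq h.choose_spec
  · rw [crossSign, dif_neg h, one_mul]

theorem crossSign_ne_zero (w : Place K F) : crossSign w ≠ 0 := fun h => by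
  simpa [h] using crossSign_mul_self w

theorem recipProd_zpow_left {f g : F} (hf : f ≠ 0) (hg : g ≠ 0) (m : ℤ) :
    recipProd K (f ^ m) g = recipProd K f g ^ m := by
  have h1 : recipProd K (1 : F) g = 1 := by
    simpa using recipProd_const_left (K := K) one_ne_zero g
  induction m using Int.induction_on with
  | zero => simp [h1]
  | succ m ih => rw [zpow_add_one₀ hf, recipProd_mul_left (zpow_ne_zero _ hf) hf hg, ih,
      zpow_add_one₀ (recipProd_ne_zero hf hg)]
  | pred m ih =>
    rw [zpow_sub_one₀ hf, recipProd_mul_left (zpow_ne_zero _ hf) (inv_ne_zero hf) hg, ih,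
      zpow_sub_one₀ (recipProd_ne_zero hf hg)]
    congr 1
    refine eq_inv_of_mul_eq_one_left ?_
    rw [← recipProd_mul_left (inv_ne_zero hf) hf hg, inv_mul_cancel₀ hf, h1]

theorem recipProd_prod_left {ι : Type*} (s : Finset ι) {f : ι → F} {g : F}
    (hf : ∀ i ∈ s, f i ≠ 0) (hg : g ≠ 0) :
    recipProd K (∏ i ∈ s, f i) g = ∏ i ∈ s, recipProd K (f i) g := by
  classical
  induction s using Finset.induction with
  | empty => simpa using recipProd_const_left (K := K) one_ne_zero g
  | insert i s hi ih =>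
    simp only [Finset.mem_insert, forall_eq_or_imp] at hf
    rw [Finset.prod_insert hi, Finset.prod_insert hi,
      recipProd_mul_left hf.1 (Finset.prod_ne_zero_iff.2 hf.2) hg, ih hf.2]

theorem recipProd_prod_right {ι : Type*} (s : Finset ι) {f : F} {g : ι → F}
    (hg : ∀ i ∈ s, g i ≠ 0) (hf : f ≠ 0) :
    recipProd K f (∏ i ∈ s, g i) = ∏ i ∈ s, recipProd K f (g i) := by
  rw [recipProd_swap (Finset.prod_ne_zero_iff.2 hg) hf, recipProd_prod_left s hg hf,
    ← Finset.prod_inv_distrib]
  exact Finset.prod_congr rfl fun i hi => (recipProd_swap (hg i hi) hf).symm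

theorem recipProd_zpow_right {f g : F} (hf : f ≠ 0) (hg : g ≠ 0) (m : ℤ) :
    recipProd K f (g ^ m) = recipProd K f g ^ m := by
  rw [recipProd_swap (zpow_ne_zero _ hg) hf, recipProd_zpow_left hg hf, ← inv_zpow,
    ← recipProd_swap hg hf]

omit [IsAlgClosed K] [CharZero K] [FF.IsFunctionField K F] in
theorem ord_prod' {ι : Type*} (v : Place K F) (s : Finset ι) {f : ι → F}
    (hf : ∀ i ∈ s, f i ≠ 0) : v.ord (∏ i ∈ s, f i) = ∑ i ∈ s, v.ord (f i) :=
  FF.ord_prod v s hf

theorem recipProd_eq_prod_crossSign {f g : F} (hf : f ≠ 0) (hg : g ≠ 0) (S : Finset (Place K F))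
    (hfS : ∀ v : Place K F, v ∉ S → v.ord f = 0) (hgS : ∀ v : Place K F, v ∉ S → v.ord g = 0) :
    recipProd K f g = ∏ w ∈ S, crossSign w ^ (w.ord f * w.ord g) := by
  classical
  choose p hp hpw hpS using fun w : Place K F => exists_simple w S
  choose q hq hqw hqS using fun w : Place K F =>
    exists_simple w (S ∪ S.biUnion fun u => (divOf K (p u)).support)
  set A := ∏ w ∈ S, p w ^ w.ord f with hA
  set B := ∏ w ∈ S, q w ^ w.ord g with hB
  have hA0 : A ≠ 0 := Finset.prod_ne_zero_iff.2 fun w _ => zpow_ne_zero _ (hp w)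
  have hB0 : B ≠ 0 := Finset.prod_ne_zero_iff.2 fun w _ => zpow_ne_zero _ (hq w)
  set f' := f / A with hf'
  set g' := g / B with hg'
  have hordA : ∀ v : Place K F, v.ord A = ∑ w ∈ S, w.ord f * v.ord (p w) := fun v => by
    rw [hA, ord_prod' v S fun w _ => zpow_ne_zero _ (hp w)]
    exact Finset.sum_congr rfl fun w _ => v.ord_zpow _ _
  have hordB : ∀ v : Place K F, v.ord B = ∑ w ∈ S, w.ord g * v.ord (q w) := fun v => by
    rw [hB, ord_prod' v S fun w _ => zpow_ne_zero _ (hq w)]
    exact Finset.sum_congr rfl fun w _ => v.ord_zpow _ _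
  have hf'S : ∀ v ∈ S, v.ord f' = 0 := fun v hv => by
    rw [hf', ord_div v hf hA0, hordA, Finset.sum_eq_single_of_mem v hv
      (fun w _ hne => by rw [hpS w v hv (Ne.symm hne), mul_zero]), hpw, mul_one, sub_self]
  have hg'S : ∀ v ∈ S, v.ord g' = 0 := fun v hv => by
    rw [hg', ord_div v hg hB0, hordB, Finset.sum_eq_single_of_mem v hv
      (fun w _ hne => by rw [hqS w v (Finset.mem_union_left _ hv) (Ne.symm hne), mul_zero]),
      hqw, mul_one, sub_self]
  have hf'ne : f' ≠ 0 := div_ne_zero hf hA0
  have hg'ne : g' ≠ 0 := div_ne_zero hg hB0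
  -- outside `S`, the supports of the `p`s and `q`s are disjoint
  have hPQ : ∀ v : Place K F, v ∉ S → (∃ u ∈ S, v.ord (p u) ≠ 0) → ∀ u ∈ S, v.ord (q u) = 0 := by
    rintro v hv ⟨u', hu', hne⟩ u hu
    refine hqS u v (Finset.mem_union_right _ (Finset.mem_biUnion.2 ⟨u', hu', ?_⟩))
      (fun e => hv (e ▸ hu))
    rw [Finsupp.mem_support_iff, divOf_apply]; exact hne
  have d1 : ∀ w ∈ S, recipProd K f' (q w) = 1 := fun w hw => by
    refine recipProd_eq_one_of_disjoint hf'ne (hq w) fun v => ?_
    by_cases hv : v ∈ S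
    · exact Or.inl (hf'S v hv)
    by_cases hex : ∃ u ∈ S, v.ord (p u) ≠ 0
    · exact Or.inr (hPQ v hv hex w hw)
    push Not at hex
    refine Or.inl ?_
    rw [hf', ord_div v hf hA0, hfS v hv, hordA,
      Finset.sum_eq_zero fun u hu => by rw [hex u hu, mul_zero], sub_zero]
  have d2 : ∀ w ∈ S, recipProd K (p w) g' = 1 := fun w hw => by
    refine recipProd_eq_one_of_disjoint (hp w) hg'ne fun v => ?_
    by_cases hv : v ∈ S
    · exact Or.inr (hg'S v hv)
    by_cases hex : v.ord (p w) = 0
    · exact Or.inl hex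
    refine Or.inr ?_
    rw [hg', ord_div v hg hB0, hgS v hv, hordB,
      Finset.sum_eq_zero fun u hu => by rw [hPQ v hv ⟨w, hw, hex⟩ u hu, mul_zero], sub_zero]
  have d3 : recipProd K f' g' = 1 := by
    refine recipProd_eq_one_of_disjoint hf'ne hg'ne fun v => ?_
    by_cases hv : v ∈ S
    · exact Or.inl (hf'S v hv)
    by_cases hex : ∃ u ∈ S, v.ord (p u) ≠ 0
    · refine Or.inr ?_
      rw [hg', ord_div v hg hB0, hgS v hv, hordB,
        Finset.sum_eq_zero fun u hu => by rw [hPQ v hv hex u hu, mul_zero], sub_zero]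
    push Not at hex
    refine Or.inl ?_
    rw [hf', ord_div v hf hA0, hfS v hv, hordA,
      Finset.sum_eq_zero fun u hu => by rw [hex u hu, mul_zero], sub_zero]
  have d4 : ∀ w ∈ S, ∀ u ∈ S, recipProd K (p w) (q u)
      = if u = w then crossSign w else 1 := by
    intro w hw u hu
    have hdis : ∀ v : Place K F, v ≠ w ∨ v ≠ u → v.ord (p w) = 0 ∨ v.ord (q u) = 0 := fun v hor => by
      by_cases hv : v ∈ S
      · rcases hor with h | h
        · exact Or.inl (hpS w v hv h)
        · exact Or.inr (hqS u v (Finset.mem_union_left _ hv) h)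
      · by_cases hex : v.ord (p w) = 0
        · exact Or.inl hex
        · exact Or.inr (hPQ v hv ⟨w, hw, hex⟩ u hu)
    split_ifs with huw
    · subst huw
      exact (crossSign_eq ⟨hp u, hq u, hpw u, hqw u, fun v hv => hdis v (Or.inl hv)⟩).symm
    · refine recipProd_eq_one_of_disjoint (hp w) (hq u) fun v => hdis v ?_
      by_contra hh
      push Not at hh
      exact huw (hh.2.symm.trans hh.1)
  have hfA : f = f' * A := (div_mul_cancel₀ f hA0).symm
  have hgB : g = g' * B := (div_mul_cancel₀ g hB0).symm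
  conv_lhs => rw [hfA, hgB]
  rw [recipProd_mul_left hf'ne hA0 (mul_ne_zero hg'ne hB0), recipProd_mul_right hf'ne hg'ne hB0,
    recipProd_mul_right hA0 hg'ne hB0, d3, hB,
    recipProd_prod_right S (fun w _ => zpow_ne_zero _ (hq w)) hf'ne,
    Finset.prod_eq_one (fun w hw => by rw [recipProd_zpow_right hf'ne (hq w), d1 w hw, one_zpow]),
    hA, recipProd_prod_left S (fun w _ => zpow_ne_zero _ (hp w)) hg'ne,
    Finset.prod_eq_one (fun w hw => by rw [recipProd_zpow_left (hp w) hg'ne, d2 w hw, one_zpow]),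
    one_mul, one_mul, one_mul, recipProd_prod_left S (fun w _ => zpow_ne_zero _ (hp w))
      (hB ▸ hB0)]
  refine Finset.prod_congr rfl fun w hw => ?_
  rw [recipProd_zpow_left (hp w) (hB ▸ hB0),
    recipProd_prod_right S (fun u _ => zpow_ne_zero _ (hq u)) (hp w),
    Finset.prod_eq_single_of_mem w hw (fun u hu hne => by
      rw [recipProd_zpow_right (hp w) (hq u), d4 w hw u hu, if_neg hne, one_zpow]),
    recipProd_zpow_right (hp w) (hq w), d4 w hw w hw, if_pos rfl, ← zpow_mul, mul_comm]

open Classical in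
/-- `crossSign` weighted at the poles of `u`. -/
def poleSign (u : F) (v : Place K F) : K :=
  if v.ord u < 0 then crossSign v ^ (v.ord u * v.ord u) else 1

theorem finprod_poleSign {u : F} (hu : u ≠ 0) (h1 : 1 - u ≠ 0) :
    ∏ᶠ v : Place K F, poleSign u v = 1 := by
  classical
  set S := (divOf K u).support ∪ (divOf K (1 - u)).support with hS
  have h := recipProd_one_sub (K := K) hu h1
  rw [recipProd_eq_prod_crossSign hu h1 S
    (fun v hv => ord_eq_zero_of_notMem_support fun hs => hv (Finset.mem_union_left _ hs))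
    (fun v hv => ord_eq_zero_of_notMem_support fun hs => hv (Finset.mem_union_right _ hs))] at h
  rw [finprod_eq_prod_of_mulSupport_subset _ (s := S) fun v hv => by
    by_contra hvS
    apply hv
    rw [poleSign, if_neg (by
      rw [ord_eq_zero_of_notMem_support fun hs => hvS (Finset.mem_union_left _ hs)]
      exact lt_irrefl _)]]
  rw [← h]
  refine Finset.prod_congr rfl fun v _ => ?_
  rw [poleSign]
  split_ifs with hneg
  · rw [sub_eq_neg_add 1 u, ord_add_eq_of_lt v (neg_ne_zero.2 hu) one_ne_zero
      (by rw [ord_neg, v.ord_one]; exact hneg), ord_neg]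
  · rcases lt_or_eq_of_le (not_lt.1 hneg) with hpos | hzero
    · rw [show v.ord (1 - u) = 0 by
        rw [sub_eq_add_neg, ord_add_eq_of_lt v one_ne_zero (neg_ne_zero.2 hu)
          (by rw [ord_neg, v.ord_one]; exact hpos), v.ord_one], mul_zero, zpow_zero]
    · rw [← hzero, zero_mul, zpow_zero]

theorem crossSign_eq_one (w : Place K F) : crossSign w = 1 := by
  classical
  obtain ⟨p, hp, hwp, -⟩ := exists_simple w ∅
  obtain ⟨q, hq, hwq, hpq⟩ := exists_crossing_third K w {p}
  obtain ⟨-, -, -, -, hdis⟩ := hpq p (by simp) hp hwp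
  set u₁ := p⁻¹ with hu₁
  set u := q⁻¹ with hu
  have hu₁0 : u₁ ≠ 0 := inv_ne_zero hp
  have hu0 : u ≠ 0 := inv_ne_zero hq
  have hord₁ : w.ord u₁ = -1 := by rw [hu₁, w.ord_inv, hwp]
  have hord : w.ord u = -1 := by rw [hu, w.ord_inv, hwq]
  obtain ⟨c, hc, hcne⟩ : ∃ c : K, c ≠ 0 ∧ evalAt w (u₁ / u) + c ≠ 0 := by
    by_cases h : evalAt w (u₁ / u) + 1 = 0
    · refine ⟨-1, neg_ne_zero.2 one_ne_zero, fun h' => two_ne_zero (α := K) ?_⟩
      linear_combination h - h'
    · exact ⟨1, one_ne_zero, h⟩
  set u₂ := algebraMap K F c * u with hu₂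
  have hc' : algebraMap K F c ≠ 0 := by simpa using hc
  have hu₂0 : u₂ ≠ 0 := mul_ne_zero hc' hu0
  have hordv : ∀ v : Place K F, v.ord u₂ = v.ord u := fun v => by
    rw [hu₂, v.ord_mul hc' hu0, ord_algebraMap hc, zero_add]
  have hsum : u₁ + u₂ = u * (u₁ / u + algebraMap K F c) := by rw [hu₂]; field_simp
  have hq' : u₁ / u + algebraMap K F c ≠ 0 ∧ w.ord (u₁ / u + algebraMap K F c) = 0 := by
    have h0 : w.ord (u₁ / u) = 0 := by rw [ord_div w hu₁0 hu0, hord₁, hord, sub_self]
    have h1 : evalAt w (u₁ / u + algebraMap K F c) ≠ 0 := by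
      rwa [evalAt_add (Or.inr h0.ge) (mem_iff_ordGE.1 (w.algebraMap_mem' c)), evalAt_algebraMap]
    have hge : OrdGE w 0 (u₁ / u + algebraMap K F c) :=
      OrdGE.add (Or.inr h0.ge) (mem_iff_ordGE.1 (w.algebraMap_mem' c))
    have hne : u₁ / u + algebraMap K F c ≠ 0 := fun h2 => h1 (by rw [h2, evalAt_zero])
    refine ⟨hne, ?_⟩
    have := hge.le_ord hne
    by_contra h2
    exact h1 ((evalAt_eq_zero_iff hge).2 (Or.inr (by omega)))
  set u₃ := u₁ + u₂ with hu₃
  have hu₃0 : u₃ ≠ 0 := by rw [hsum]; exact mul_ne_zero hu0 hq'.1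
  have hord₃ : w.ord u₃ = -1 := by
    rw [hsum, w.ord_mul hu0 hq'.1, hord, hq'.2, add_zero]
  have h1sub : ∀ x : F, w.ord x = -1 → 1 - x ≠ 0 := fun x hx h0 => by
    rw [sub_eq_zero] at h0; rw [← h0, w.ord_one] at hx; omega
  have hdis' : ∀ v : Place K F, v ≠ w → v.ord u₁ = 0 ∨ v.ord u₂ = 0 := fun v hv => by
    rw [hordv, hu₁, hu, v.ord_inv, v.ord_inv, neg_eq_zero, neg_eq_zero]
    exact hdis v hv
  have hfin : ∀ x : F, (fun v : Place K F => poleSign x v).HasFiniteMulSupport := fun x =>
    (divOf K x).support.finite_toSet.subset fun v hv => by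
      by_contra hvS
      apply hv
      show poleSign x v = 1
      rw [poleSign, if_neg (by rw [ord_eq_zero_of_notMem_support hvS]; exact lt_irrefl _)]
  have key : ∀ v : Place K F, poleSign u₁ v * poleSign u₂ v
      = poleSign u₃ v * (if v = w then crossSign w else 1) := by
    intro v
    by_cases hv : v = w
    · subst hv
      simp [poleSign, hord₁, hordv, hord, hord₃]
    rw [if_neg hv, mul_one]
    rcases hdis' v hv with h | h
    · by_cases h2 : v.ord u₂ < 0
      · have h3 : v.ord u₃ = v.ord u₂ := by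
          rw [hu₃, add_comm, ord_add_eq_of_lt v hu₂0 hu₁0 (by omega)]
        simp [poleSign, h, h3]
      · have h3 := min_ord_le_ord_add v hu₁0 hu₂0 hu₃0
        simp [poleSign, h, h2, show ¬ v.ord u₃ < 0 by rw [hu₃]; omega]
    · by_cases h2 : v.ord u₁ < 0
      · have h3 : v.ord u₃ = v.ord u₁ := by rw [hu₃, ord_add_eq_of_lt v hu₁0 hu₂0 (by omega)]
        simp [poleSign, h, h3]
      · have h3 := min_ord_le_ord_add v hu₁0 hu₂0 hu₃0
        simp [poleSign, h, h2, show ¬ v.ord u₃ < 0 by rw [hu₃]; omega]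
  have := finprod_congr key
  rw [finprod_mul_distrib (hfin u₁) (hfin u₂),
    finprod_mul_distrib (hfin u₃) ((Set.finite_singleton w).subset fun v hv => by
      by_contra h; exact hv (if_neg h)),
    finprod_poleSign hu₁0 (h1sub u₁ hord₁),
    finprod_poleSign hu₂0 (h1sub u₂ (by rw [hordv, hord])),
    finprod_poleSign hu₃0 (h1sub u₃ hord₃), finprod_eq_single _ w (fun v hv => if_neg hv),
    if_pos rfl, one_mul, one_mul] at this
  exact this.symm

/-- **Weil reciprocity.** -/
theorem recipProd_eq_one {f g : F} (hf : f ≠ 0) (hg : g ≠ 0) : recipProd K f g = 1 := by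
  classical
  rw [recipProd_eq_prod_crossSign hf hg ((divOf K f).support ∪ (divOf K g).support)
    (fun v hv => ord_eq_zero_of_notMem_support fun hs => hv (Finset.mem_union_left _ hs))
    (fun v hv => ord_eq_zero_of_notMem_support fun hs => hv (Finset.mem_union_right _ hs))]
  exact Finset.prod_eq_one fun w _ => by rw [crossSign_eq_one, one_zpow]

end General

end Fermat.Agent.JPairing
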