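import Fermat.Agent.FF.Approximation
import Fermat.Agent.JPairing.Reciprocity
import Fermat.Prelude.Def_AlgebraicCurve_BaseChangeGalois

/-!
# The Weil pairing on `Pic⁰[n]`

For classes `x = [D]`, `y = [E]` with `n D = div f`, `n E = div g`,
`e_n(x, y) = ∏_v ((-1) ^ (n a b) f ^ b / g ^ a) (v)` with `a = D v`, `b = E v`.
-/

set_option autoImplicit false

noncomputable section

open AlgebraicCurve

namespace Fermat.Agent.JPairing

variable {K F : Type*} [Field K] [Field F] [Algebra K F]

/-- `D` represents `x` and `n D` is the divisor of `f`. -/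
def IsTorsionRep (n : ℕ) (x : Pic0 K F) (D : Divisor K F) (f : F) : Prop :=
  f ≠ 0 ∧ (∀ v : Place K F, v.ord f = (n : ℤ) * D v) ∧
    ∃ h : D ∈ Divisor.degZero (K := K) (F := F), Pic0.mk ⟨D, h⟩ = x

/-- The pairing product of two pieces of representing data. -/
def weilPre (n : ℕ) (D : Divisor K F) (f : F) (E : Divisor K F) (g : F) : K :=
  ∏ᶠ v : Place K F, pairFactor n v (D v) (E v) f g

theorem pic0_mk_zsmul (k : ℤ) (D : Divisor.degZero (K := K) (F := F)) :
    Pic0.mk (k • D) = k • Pic0.mk D :=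
  rfl

theorem pic0_mk_nsmul (k : ℕ) (D : Divisor.degZero (K := K) (F := F)) :
    Pic0.mk (k • D) = k • Pic0.mk D :=
  rfl

variable {n m : ℕ} {x x' y y' : Pic0 K F} {D D' E E' : Divisor K F} {f f' g g' : F}

theorem isTorsionRep_exists (hx : x ∈ Pic0.torsion K F n) : ∃ D f, IsTorsionRep n x D f := by
  obtain ⟨⟨D, hD⟩, rfl⟩ := Pic0.mk_surjective x
  have hz : Pic0.mk ((n : ℤ) • (⟨D, hD⟩ : Divisor.degZero (K := K) (F := F))) = 0 :=
    (pic0_mk_zsmul _ _).trans (Pic0.mem_torsion.1 hx)
  rw [Pic0.mk, QuotientAddGroup.eq_zero_iff, AddSubgroup.mem_addSubgroupOf] at hz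
  obtain ⟨f, hf, hfD⟩ := hz
  refine ⟨D, f, hf, fun v => ?_, hD, rfl⟩
  simpa using (hfD v).symm

theorem IsTorsionRep.add (h : IsTorsionRep n x D f) (h' : IsTorsionRep n x' D' f') :
    IsTorsionRep n (x + x') (D + D') (f * f') := by
  obtain ⟨hf, ho, hd, rfl⟩ := h
  obtain ⟨hf', ho', hd', rfl⟩ := h'
  exact ⟨mul_ne_zero hf hf', fun v => by rw [v.ord_mul hf hf', ho, ho', Finsupp.add_apply, mul_add],
    add_mem hd hd', rfl⟩

theorem IsTorsionRep.isTorsion (h : IsTorsionRep n x D f) : x ∈ Pic0.torsion K F n := by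
  obtain ⟨hf, ho, hd, rfl⟩ := h
  rw [Pic0.mem_torsion]
  rw [← pic0_mk_zsmul, Pic0.mk, QuotientAddGroup.eq_zero_iff, AddSubgroup.mem_addSubgroupOf]
  exact ⟨f, hf, fun v => by simpa using (ho v).symm⟩

theorem IsTorsionRep.lift (h : IsTorsionRep n x D f) (m : ℕ) :
    IsTorsionRep (n * m) x D (f ^ m) :=
  ⟨pow_ne_zero _ h.1, fun v => by rw [ord_pow, h.2.1]; push_cast; ring, h.2.2⟩

theorem IsTorsionRep.nsmul (h : IsTorsionRep (n * m) x D f) :
    IsTorsionRep n (m • x) (m • D) f := by
  obtain ⟨hf, ho, hd, rfl⟩ := h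
  exact ⟨hf, fun v => by rw [ho, Finsupp.smul_apply, nsmul_eq_mul]; push_cast; ring,
    nsmul_mem hd m, pic0_mk_nsmul m ⟨D, hd⟩⟩

variable [IsAlgClosed K]

section Basic

variable [IsCurveOver K F]

theorem hasFiniteMulSupport_pairFactor (n : ℤ) (D E : Divisor K F) (f g : F) :
    (fun v : Place K F => pairFactor n v (D v) (E v) f g).HasFiniteMulSupport := by
  classical
  refine (D.support ∪ E.support).finite_toSet.subset fun v hv => ?_
  by_contra h
  simp only [Finset.mem_coe, Finset.mem_union, Finsupp.mem_support_iff, not_or, not_not] at h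
  apply hv
  show pairFactor n v (D v) (E v) f g = 1
  rw [h.1, h.2, pairFactor_zero]

theorem weilPre_mul_right (hx : IsTorsionRep n x D f) (hy : IsTorsionRep n y E g)
    (hy' : IsTorsionRep n y' E' g') :
    weilPre n D f (E + E') (g * g') = weilPre n D f E g * weilPre n D f E' g' := by
  rw [weilPre, weilPre, weilPre, ← finprod_mul_distrib (hasFiniteMulSupport_pairFactor _ D E f g)
    (hasFiniteMulSupport_pairFactor _ D E' f g')]
  exact finprod_congr fun v => by
    rw [Finsupp.add_apply]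
    exact pairFactor_mul_right hx.1 hy.1 hy'.1 (hx.2.1 v) (hy.2.1 v) (hy'.2.1 v)

theorem weilPre_swap (hx : IsTorsionRep n x D f) (hy : IsTorsionRep n y E g) :
    weilPre n E g D f = (weilPre n D f E g)⁻¹ := by
  rw [weilPre, weilPre, ← finprod_inv_distrib]
  exact finprod_congr fun v => pairFactor_swap hx.1 hy.1 (hx.2.1 v) (hy.2.1 v)

theorem weilPre_ne_zero (hx : IsTorsionRep n x D f) (hy : IsTorsionRep n y E g) :
    weilPre n D f E g ≠ 0 :=
  finprod_induction (p := fun a : K => a ≠ 0) one_ne_zero (fun _ _ => mul_ne_zero)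
    fun v => pairFactor_ne_zero hx.1 hy.1 (hx.2.1 v) (hy.2.1 v)

theorem weilPre_self (hx : IsTorsionRep n x D f) : weilPre n D f D f = 1 := by
  have hS : (Function.mulSupport fun v : Place K F => pairFactor (n : ℤ) v (D v) (D v) f f)
      ⊆ D.support := fun v hv => by
    by_contra h
    rw [Finset.mem_coe, Finsupp.mem_support_iff, not_not] at h
    exact hv (by simp [h, pairFactor_zero])
  rw [weilPre, finprod_eq_prod_of_mulSupport_subset _ hS,
    Finset.prod_congr rfl fun v _ => (pairFactor_self hx.1 (D v)).trans (by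
      rw [mul_assoc, zpow_mul', neg_one_zpow_mul_self, ← zpow_mul, mul_comm (D v)] :
      _ = (-1 : K) ^ ((n : ℤ) * D v)), prod_zpow_eq_zpow_sum' (neg_ne_zero.2 one_ne_zero),
    ← Finset.mul_sum, ← degree_eq_sum D (subset_refl _), Divisor.mem_degZero.1 hx.2.2.1, mul_zero,
    zpow_zero]

omit [IsAlgClosed K] [IsCurveOver K F] in
theorem weilPre_compat :
    weilPre (n * m) D (f ^ m) E g = weilPre n D f (m • E) g := by
  refine finprod_congr fun v => ?_
  rw [pairFactor, pairFactor, Finsupp.smul_apply, nsmul_eq_mul, ← zpow_natCast f m, ← zpow_mul]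
  congr 1
  push_cast
  ring_nf

end Basic

variable [CharZero K] [FF.IsFunctionField K F]

omit [CharZero K] in
theorem eq_algebraMap_of_forall_ord_eq_zero (h : ∀ v : Place K F, v.ord f = 0) :
    ∃ c : K, algebraMap K F c = f := by
  rcases mem_range_or_transcendental (K := K) f with h' | h'
  · exact h'
  · exact absurd (FF.isAlgebraic_of_forall_ord_nonneg fun v => (h v).ge) h'

theorem weilPre_pow_eq_one (hx : IsTorsionRep n x D f) (hy : IsTorsionRep n y E g) :
    weilPre n D f E g ^ n = 1 := by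
  rw [weilPre, finprod_pow (hasFiniteMulSupport_pairFactor _ D E f g),
    ← recipProd_eq_one (K := K) hx.1 hy.1]
  refine finprod_congr fun v => ?_
  rw [← zpow_natCast (pairFactor _ v _ _ f g), pairFactor,
    ← evalAt_zpow (pairFactor_ord hx.1 hy.1 (hx.2.1 v) (hy.2.1 v)), tameSymbol, pairFactor,
    hx.2.1 v, hy.2.1 v, mul_zpow, div_zpow, ← zpow_mul, ← zpow_mul, ← zpow_mul]
  congr 1
  ring_nf

omit [CharZero K] in
theorem IsTorsionRep.exists_eq (hx : IsTorsionRep n x D f) (hx' : IsTorsionRep n x D' f') :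
    ∃ (h : F) (c : K), h ≠ 0 ∧ c ≠ 0 ∧ (∀ v : Place K F, D' v = D v + v.ord h) ∧
      f' = algebraMap K F c * (f * h ^ n) := by
  obtain ⟨hf, ho, hd, hmk⟩ := hx
  obtain ⟨hf', ho', hd', hmk'⟩ := hx'
  rw [← hmk', Pic0.mk, Pic0.mk, QuotientAddGroup.eq, AddSubgroup.mem_addSubgroupOf] at hmk
  obtain ⟨h, hh, hdiv⟩ := hmk
  have hD : ∀ v : Place K F, D' v = D v + v.ord h := fun v => by
    have := hdiv v
    simp at this
    omega
  have hne : f * h ^ n ≠ 0 := mul_ne_zero hf (pow_ne_zero _ hh)
  obtain ⟨c, hc⟩ := eq_algebraMap_of_forall_ord_eq_zero (K := K) (f := f' / (f * h ^ n)) fun v => by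
    rw [ord_div v hf' hne, v.ord_mul hf (pow_ne_zero _ hh), ho', ho, ord_pow, hD]; ring
  have heq : f' = algebraMap K F c * (f * h ^ n) := by rw [hc, div_mul_cancel₀ _ hne]
  exact ⟨h, c, hh, fun h0 => hf' (by rw [heq, h0, map_zero, zero_mul]), hD, heq⟩

theorem weilPre_congr_left (hx : IsTorsionRep n x D f) (hx' : IsTorsionRep n x D' f')
    (hy : IsTorsionRep n y E g) : weilPre n D f E g = weilPre n D' f' E g := by
  classical
  obtain ⟨h, c, hh, hc, hD, rfl⟩ := hx.exists_eq hx'
  have hc' : algebraMap K F c ≠ 0 := by simpa using hc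
  have key : ∀ v : Place K F,
      pairFactor n v (D' v) (E v) (algebraMap K F c * (f * h ^ n)) g
        = c ^ E v * (pairFactor n v (D v) (E v) f g * tameSymbol v h g) := by
    intro v
    rw [hD v, show D v + v.ord h = 0 + (D v + v.ord h) by ring,
      pairFactor_mul_left hc' (mul_ne_zero hx.1 (pow_ne_zero _ hh)) hy.1
        (by rw [ord_algebraMap hc, mul_zero])
        (by rw [v.ord_mul hx.1 (pow_ne_zero _ hh), hx.2.1, ord_pow]; ring) (hy.2.1 v),
      pairFactor_const_left hc,
      pairFactor_mul_left hx.1 (pow_ne_zero _ hh) hy.1 (hx.2.1 v) (ord_pow v h n) (hy.2.1 v)]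
    congr 2
    rw [pairFactor, tameSymbol, pairFactor, hy.2.1 v, ← zpow_natCast h n, ← zpow_mul]
    congr 1
    ring_nf
  have hfinE : (fun v : Place K F => c ^ E v).HasFiniteMulSupport :=
    E.support.finite_toSet.subset fun v hv => by
      by_contra h0
      simp only [Finset.mem_coe, Finsupp.mem_support_iff, not_not] at h0
      exact hv (by simp [h0])
  have hfinP := hasFiniteMulSupport_pairFactor (n : ℤ) D E f g
  have hfinT := hasFiniteMulSupport_tameSymbol (K := K) h g
  conv_rhs => rw [weilPre, finprod_congr key]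
  rw [finprod_mul_distrib hfinE
      ((hfinP.union hfinT).subset (Function.mulSupport_mul _ _)),
    finprod_mul_distrib hfinP hfinT,
    show ∏ᶠ v : Place K F, tameSymbol v h g = 1 from recipProd_eq_one hh hy.1, mul_one,
    finprod_eq_prod_of_mulSupport_subset _ (s := E.support) (fun v hv => by
      by_contra h0
      simp only [Finset.mem_coe, Finsupp.mem_support_iff, not_not] at h0
      exact hv (by simp [h0])),
    prod_zpow_eq_zpow_sum' hc, ← degree_eq_sum E (subset_refl _),
    Divisor.mem_degZero.1 hy.2.2.1, zpow_zero, one_mul, weilPre]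

/-- The Weil pairing `e_n(x, y)`, as an element of `K`. -/
def weilPair (n : ℕ) (x y : Pic0.torsion K F n) : K :=
  weilPre n (isTorsionRep_exists x.2).choose (isTorsionRep_exists x.2).choose_spec.choose
    (isTorsionRep_exists y.2).choose (isTorsionRep_exists y.2).choose_spec.choose

theorem weilPair_eq {x y : Pic0.torsion K F n} (hx : IsTorsionRep n (x : Pic0 K F) D f)
    (hy : IsTorsionRep n (y : Pic0 K F) E g) : weilPair n x y = weilPre n D f E g := by
  have hx₀ := (isTorsionRep_exists x.2).choose_spec.choose_spec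
  have hy₀ := (isTorsionRep_exists y.2).choose_spec.choose_spec
  rw [weilPair, weilPre_congr_left hx₀ hx hy₀]
  apply inv_injective
  rw [← weilPre_swap hx hy₀, ← weilPre_swap hx hy, weilPre_congr_left hy₀ hy hx]

variable (n) in
theorem weilPair_add_right (x y y' : Pic0.torsion K F n) :
    weilPair n x (y + y') = weilPair n x y * weilPair n x y' := by
  obtain ⟨D, f, hx⟩ := isTorsionRep_exists x.2
  obtain ⟨E, g, hy⟩ := isTorsionRep_exists y.2
  obtain ⟨E', g', hy'⟩ := isTorsionRep_exists y'.2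
  rw [weilPair_eq hx hy, weilPair_eq hx hy', ← weilPre_mul_right hx hy hy']
  exact weilPair_eq hx (by exact_mod_cast hy.add hy')

theorem weilPair_swap (x y : Pic0.torsion K F n) : weilPair n y x = (weilPair n x y)⁻¹ := by
  obtain ⟨D, f, hx⟩ := isTorsionRep_exists x.2
  obtain ⟨E, g, hy⟩ := isTorsionRep_exists y.2
  rw [weilPair_eq hx hy, weilPair_eq hy hx, weilPre_swap hx hy]

variable (n) in
theorem weilPair_add_left (x x' y : Pic0.torsion K F n) :
    weilPair n (x + x') y = weilPair n x y * weilPair n x' y := by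
  rw [weilPair_swap y, weilPair_swap y x, weilPair_swap y x', weilPair_add_right, mul_inv]

/-- The pairing is alternating. -/
theorem weilPair_self (x : Pic0.torsion K F n) : weilPair n x x = 1 := by
  obtain ⟨D, f, hx⟩ := isTorsionRep_exists x.2
  rw [weilPair_eq hx hx, weilPre_self hx]

theorem weilPair_pow_eq_one (x y : Pic0.torsion K F n) : weilPair n x y ^ n = 1 := by
  obtain ⟨D, f, hx⟩ := isTorsionRep_exists x.2
  obtain ⟨E, g, hy⟩ := isTorsionRep_exists y.2
  rw [weilPair_eq hx hy, weilPre_pow_eq_one hx hy]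

theorem weilPair_ne_zero (x y : Pic0.torsion K F n) : weilPair n x y ≠ 0 := by
  obtain ⟨D, f, hx⟩ := isTorsionRep_exists x.2
  obtain ⟨E, g, hy⟩ := isTorsionRep_exists y.2
  rw [weilPair_eq hx hy]
  exact weilPre_ne_zero hx hy

/-- `e_{n m}(x, y) = e_n(x, m y)` for `x` killed by `n`. -/
theorem weilPair_compat {x : Pic0.torsion K F n} {x' y : Pic0.torsion K F (n * m)}
    (z : Pic0.torsion K F n) (hx : (x' : Pic0 K F) = x) (hz : (z : Pic0 K F) = m • (y : Pic0 K F)) :
    weilPair (n * m) x' y = weilPair n x z := by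
  obtain ⟨D, f, hxr⟩ := isTorsionRep_exists x.2
  obtain ⟨E, g, hy⟩ := isTorsionRep_exists y.2
  rw [weilPair_eq (hx.symm ▸ hxr.lift m) hy, weilPair_eq hxr (hz.symm ▸ hy.nsmul),
    weilPre_compat]

variable (K F) in
/-- The Weil pairing as a bi-additive map to `Additive Kˣ`. -/
def weilPairing (n : ℕ) : Pic0.torsion K F n →+ Pic0.torsion K F n →+ Additive Kˣ :=
  AddMonoidHom.mk' (fun x => AddMonoidHom.mk'
    (fun y => Additive.ofMul (Units.mk0 (weilPair n x y) (weilPair_ne_zero x y)))
    fun y y' => Additive.toMul.injective (Units.ext (weilPair_add_right n x y y')))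
    fun x x' => AddMonoidHom.ext fun y =>
      Additive.toMul.injective (Units.ext (weilPair_add_left n x x' y))

@[simp]
theorem coe_weilPairing (x y : Pic0.torsion K F n) :
    ((weilPairing K F n x y).toMul : K) = weilPair n x y := rfl

theorem weilPairing_mem_rootsOfUnity (x y : Pic0.torsion K F n) :
    (weilPairing K F n x y).toMul ∈ rootsOfUnity n K :=
  Units.ext (by rw [Units.val_pow_eq_pow_val, coe_weilPairing, weilPair_pow_eq_one, Units.val_one])

section Semilinear

variable (s : SemilinearAut K F)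

theorem evalAt_smul (v : Place K F) {f : F} (hf : OrdGE v 0 f) :
    evalAt (s • v) (s • f) = SemilinearAut.baseAut s (evalAt v f) := by
  refine evalAt_eq ?_
  rw [← SemilinearAut.smul_algebraMap, ← smul_sub]
  rcases ordGE_sub_evalAt v hf with h | h
  · exact Or.inl (by rw [h, smul_zero])
  · exact Or.inr (by rwa [SemilinearAut.ord_smul])

omit [IsAlgClosed K] [CharZero K] [FF.IsFunctionField K F] in
theorem IsTorsionRep.smul (hx : IsTorsionRep n x D f) :
    IsTorsionRep n (s • x) (s • D) (s • f) := by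
  obtain ⟨hf, ho, hd, rfl⟩ := hx
  refine ⟨fun h => hf ((smul_eq_zero_iff_eq s).1 h), fun v => ?_,
    SemilinearAut.smul_mem_degZero s hd, (SemilinearAut.pic0_smul_mk s ⟨D, hd⟩).symm⟩
  have h := SemilinearAut.ord_smul s (s⁻¹ • v) f
  rw [smul_inv_smul] at h
  rw [h, ho, SemilinearAut.divisor_smul_apply]

/-- Galois equivariance of the Weil pairing. -/
theorem weilPair_smul (x y : Pic0.torsion K F n) :
    weilPair n (s • x) (s • y) = SemilinearAut.baseAut s (weilPair n x y) := by
  obtain ⟨D, f, hx⟩ := isTorsionRep_exists x.2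
  obtain ⟨E, g, hy⟩ := isTorsionRep_exists y.2
  rw [weilPair_eq (x := s • x) (y := s • y) (hx.smul s) (hy.smul s), weilPair_eq hx hy, weilPre,
    weilPre, ← finprod_comp_equiv (MulAction.toPerm s)]
  rw [show SemilinearAut.baseAut s (∏ᶠ v, pairFactor (n : ℤ) v (D v) (E v) f g)
      = ∏ᶠ v, SemilinearAut.baseAut s (pairFactor (n : ℤ) v (D v) (E v) f g) from
    MonoidHom.map_finprod (SemilinearAut.baseAut s).toMulEquiv.toMonoidHom
      (hasFiniteMulSupport_pairFactor _ D E f g)]
  refine finprod_congr fun v => ?_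
  rw [MulAction.toPerm_apply, SemilinearAut.divisor_smul_apply_smul,
    SemilinearAut.divisor_smul_apply_smul, pairFactor, pairFactor,
    ← evalAt_smul s v (Or.inr (pairFactor_ord hx.1 hy.1 (hx.2.1 v) (hy.2.1 v)).ge)]
  congr 1
  simp only [SemilinearAut.smul_def, map_mul, map_div₀, map_zpow₀, map_neg, map_one]

end Semilinear

end Fermat.Agent.JPairing
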