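import Fermat.Agent.HK.FrickeSwap

/-!
The Atkin–Lehner involution `w_ℓ` of the level `N ℓ` function field, `ℓ` prime not dividing `N`:
it exchanges `j(eτ)` and `j(eℓτ)` for `e ∣ N`, hence the two degeneracy maps from level `N`.
-/

set_option autoImplicit false

noncomputable section

open ModularCurve IntermediateField MvPolynomial UpperHalfPlane ModularForm EisensteinSeries
open Fermat.Agent.MF
open scoped MatrixGroups

namespace Fermat.Agent.JPairing

namespace Swap

open Fermat.Agent.HK.Corr (jSer coeffEmb_qExpand_eq)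

variable {ι : Type*} [Fintype ι] (s : ι → ℕ) [∀ i, NeZero (s i)]

section Analytic

omit [∀ i, NeZero (s i)] in
theorem map_sum_homogenised {A B : Type*} [CommRing A] [Field B] [Algebra ℂ A]
    [Algebra ℂ B] (φ : A →ₐ[ℂ] B) (P : MvPolynomial ι ℂ) (n : ℕ) (hn : P.totalDegree ≤ n)
    (a b : ι → A) (u : ι → B) (hu : ∀ i, φ (a i) = u i * φ (b i)) :
    φ (∑ e ∈ P.support, P.coeff e • ∏ i, (a i ^ e i * b i ^ (n - e i)))
      = MvPolynomial.aeval u P * ∏ i, φ (b i) ^ n := by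
  rw [map_sum, MvPolynomial.aeval_def, MvPolynomial.eval₂_eq', Finset.sum_mul]
  refine Finset.sum_congr rfl fun e he => ?_
  rw [map_smul, map_prod, Algebra.smul_def, mul_assoc, ← Finset.prod_mul_distrib]
  congr 1
  refine Finset.prod_congr rfl fun i _ => ?_
  have hle : e i ≤ n := by
    refine le_trans ?_ ((MvPolynomial.le_totalDegree he).trans hn)
    rw [Finsupp.sum_fintype _ _ (fun _ => rfl)]
    exact Finset.single_le_sum (fun _ _ => Nat.zero_le _) (Finset.mem_univ i)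
  rw [map_mul, map_pow, map_pow, hu, mul_pow, mul_assoc, ← pow_add, Nat.add_sub_cancel' hle]

/-- A relation among the `j(s_i τ)` holds as series iff it holds as functions. -/
theorem aeval_jdC_eq_zero_iff (P : MvPolynomial ι ℂ) :
    MvPolynomial.aeval (fun i => jdC (s i)) P = 0 ↔
      ∀ τ : ℍ, MvPolynomial.aeval (fun i => kleinJ (scaleH (s i) τ)) P = 0 := by
  let a : ι → qFunctions := fun i =>
    ⟨⇑E₄ ∘ scaleH (s i), mem_qFunctions_comp_scaleH (coe_levelOne_mem_qFunctions E₄) (s i)⟩ ^ 3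
  let b : ι → qFunctions := fun i =>
    ⟨discriminant ∘ scaleH (s i), mem_qFunctions_comp_scaleH mem_qFunctions_discriminant (s i)⟩
  let n := P.totalDegree
  let G : qFunctions := ∑ e ∈ P.support, P.coeff e • ∏ i, (a i ^ e i * b i ^ (n - e i))
  have hL : qLHom G = MvPolynomial.aeval (fun i => jdC (s i)) P * ∏ i, qLHom (b i) ^ n :=
    map_sum_homogenised qLHom P n le_rfl a b _ fun i => (jdC_mul_discriminant (s i)).symm
  have hF : ∀ τ : ℍ, (G : ℍ → ℂ) τ
      = MvPolynomial.aeval (fun i => kleinJ (scaleH (s i) τ)) P *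
        ∏ i, discriminant (scaleH (s i) τ) ^ n := fun τ =>
    map_sum_homogenised ((Pi.evalAlgHom ℂ (fun _ : ℍ => ℂ) τ).comp qFunctions.val) P n le_rfl
      a b _ fun i => (kleinJ_mul_discriminant (scaleH (s i) τ)).symm
  constructor
  · intro h τ
    rw [h, zero_mul] at hL
    have hG : G = 0 := qLHom_injective (hL.trans (map_zero qLHom).symm)
    have := hF τ
    rw [hG] at this
    exact (mul_eq_zero.mp this.symm).resolve_right
      (Finset.prod_ne_zero_iff.2 fun i _ => pow_ne_zero _ (discriminant_ne_zero _))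
  · intro h
    have hG : G = 0 := Subtype.ext (funext fun τ => by rw [hF, h τ, zero_mul]; rfl)
    rw [hG, map_zero] at hL
    refine (mul_eq_zero.mp hL.symm).resolve_right
      (Finset.prod_ne_zero_iff.2 fun i _ => pow_ne_zero _ ?_)
    show qL (discriminant ∘ scaleH (s i)) ≠ 0
    rw [Ne, qL_eq_zero_iff (mem_qFunctions_comp_scaleH mem_qFunctions_discriminant (s i))]
    exact fun h0 =>
      discriminant_ne_zero (scaleH (s i) UpperHalfPlane.I) (congrFun h0 UpperHalfPlane.I)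

/-- `p` is realised by a substitution of the upper half plane. -/
def IsModularPerm (p : ι → ι) : Prop :=
  ∀ τ : ℍ, ∃ w : ℍ, ∀ i, kleinJ (scaleH (s i) w) = kleinJ (scaleH (s (p i)) τ)

theorem aeval_jdC_perm {p : ι → ι} (hp : IsModularPerm s p) {P : MvPolynomial ι ℂ}
    (h : MvPolynomial.aeval (fun i => jdC (s i)) P = 0) :
    MvPolynomial.aeval (fun i => jdC (s (p i))) P = 0 := by
  rw [aeval_jdC_eq_zero_iff] at h
  rw [show (fun i => jdC (s (p i))) = (fun i => jdC (s i)) ∘ p from rfl, ← aeval_rename,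
    aeval_jdC_eq_zero_iff]
  intro τ
  obtain ⟨w, hw⟩ := hp τ
  rw [aeval_rename]
  have := h w
  simp only [hw] at this
  exact this

end Analytic

section Descent

variable {L : Type*} [Field L] [Algebra ℚ L]

omit [∀ i, NeZero (s i)] in
theorem map_coeff_aeval (φ : L →ₗ[ℚ] ℚ) (t : ι → LaurentSeries ℚ)
    (P : MvPolynomial ι L) (k : ℤ) :
    φ ((MvPolynomial.aeval (fun i => coeffEmb L (t i)) P).coeff k) =
      (MvPolynomial.aeval t (∑ e ∈ P.support, monomial e (φ (P.coeff e)))).coeff k := by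
  rw [MvPolynomial.aeval_def, MvPolynomial.eval₂_eq', map_sum]
  simp only [HahnSeries.coeff_sum, map_sum]
  refine Finset.sum_congr rfl fun e _ => ?_
  rw [aeval_monomial, Finsupp.prod_fintype _ _ (fun _ => pow_zero _),
    algebraMap_laurentSeries_eq_single, HahnSeries.coeff_single_mul, sub_zero,
    ModularCurve.algebraMap_apply_eq_single, HahnSeries.coeff_single_mul, sub_zero]
  simp only [← map_pow, ← map_prod, coeffEmb_coeff]
  rw [mul_comm, ← Algebra.smul_def, map_smul, smul_eq_mul, mul_comm]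

omit [Fintype ι] [∀ i, NeZero (s i)] in
theorem coeffEmb_aeval (t : ι → LaurentSeries ℚ) (P : MvPolynomial ι ℚ) :
    coeffEmb L (MvPolynomial.aeval t P)
      = MvPolynomial.aeval (fun i => coeffEmb L (t i)) (MvPolynomial.map (algebraMap ℚ L) P) := by
  rw [MvPolynomial.aeval_def, MvPolynomial.aeval_def, MvPolynomial.eval₂_map,
    MvPolynomial.eval₂_comp_left]
  congr 1
  exact Subsingleton.elim _ _

variable (L) in
/-- The series `j(s_i τ)` over `L`. -/
def ser (i : ι) : LaurentSeries L := qExpand L (s i) (jSer L)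

omit [Fintype ι] in
theorem coeffEmb_qExpand_jq' (i : ι) : coeffEmb L (qExpand ℚ (s i) jq) = ser s L i :=
  coeffEmb_qExpand_eq (s i) jq

theorem aeval_perm_eq_zero {p : ι → ι} (hp : IsModularPerm s p) {P : MvPolynomial ι L}
    (h : MvPolynomial.aeval (ser s L) P = 0) :
    MvPolynomial.aeval (fun i => ser s L (p i)) P = 0 := by
  have c₁ : ∀ i, coeffEmb ℂ (qExpand ℚ (s i) jq) = jdC (s i) := fun i =>
    coeffEmb_qExpand_jq (s i)
  have e₁ : (fun i => coeffEmb L (qExpand ℚ (s i) jq)) = ser s L :=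
    funext fun i => coeffEmb_qExpand_jq' s i
  have e₂ : (fun i => coeffEmb L (qExpand ℚ (s (p i)) jq)) = fun i => ser s L (p i) :=
    funext fun i => coeffEmb_qExpand_jq' s (p i)
  rw [← e₁] at h
  rw [← e₂]
  ext k
  rw [HahnSeries.coeff_zero]
  by_contra hne
  obtain ⟨φ, hφ⟩ := (LinearMap.toSpanSingleton ℚ L _).exists_leftInverse_of_injective
    (LinearMap.ker_eq_bot.mpr (smul_left_injective ℚ hne))
  have hφ1 := LinearMap.congr_fun hφ 1
  simp only [LinearMap.comp_apply, LinearMap.toSpanSingleton_apply, one_smul,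
    LinearMap.id_apply] at hφ1
  rw [map_coeff_aeval] at hφ1
  set Q := ∑ e ∈ P.support, monomial e (φ (P.coeff e)) with hQ
  have hQ0 : MvPolynomial.aeval (fun i => qExpand ℚ (s i) jq) Q = 0 := by
    ext m
    rw [hQ, ← map_coeff_aeval φ, h, HahnSeries.coeff_zero, map_zero, HahnSeries.coeff_zero]
  have hC : MvPolynomial.aeval (fun i => jdC (s i)) (MvPolynomial.map (algebraMap ℚ ℂ) Q) = 0 := by
    rw [← funext c₁, ← coeffEmb_aeval, hQ0, map_zero]
  have hC' := aeval_jdC_perm s hp hC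
  rw [← funext fun i => c₁ (p i), ← coeffEmb_aeval] at hC'
  have : MvPolynomial.aeval (fun i => qExpand ℚ (s (p i)) jq) Q = 0 := by
    ext m
    have hm := congrArg (fun x : LaurentSeries ℂ => x.coeff m) hC'
    simp only [coeffEmb_coeff, HahnSeries.coeff_zero] at hm
    rw [HahnSeries.coeff_zero]
    exact (map_eq_zero (algebraMap ℚ ℂ)).mp hm
  rw [this, HahnSeries.coeff_zero] at hφ1
  exact zero_ne_one hφ1

open scoped IntermediateField.algebraAdjoinAdjoin in
variable (L) in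
/-- A modular permutation with an inverse extends to the field generated by the `j(s_i τ)`. -/
theorem exists_permHom {p : ι → ι} (hp : IsModularPerm s p) (hinv : Function.Involutive p) :
    ∃ σ : adjoin L (Set.range (ser s L)) →ₐ[L] LaurentSeries L,
      ∀ i, σ ⟨ser s L i, subset_adjoin L _ (Set.mem_range_self i)⟩ = ser s L (p i) := by
  let S : Set (LaurentSeries L) := Set.range (ser s L)
  let f : MvPolynomial ι L →ₐ[L] Algebra.adjoin L S :=
    MvPolynomial.aeval fun i => ⟨ser s L i, Algebra.subset_adjoin (Set.mem_range_self i)⟩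
  have hf : (Algebra.adjoin L S).val.comp f = MvPolynomial.aeval (ser s L) :=
    MvPolynomial.algHom_ext fun i => by simp [f]
  have hsurj : Function.Surjective f := by
    intro x
    have hx : (x : LaurentSeries L) ∈ (MvPolynomial.aeval (R := L) (ser s L)).range := by
      rw [← Algebra.adjoin_range_eq_range_aeval]
      exact x.2
    obtain ⟨P, hP⟩ := hx
    exact ⟨P, Subtype.ext ((AlgHom.congr_fun hf P).trans hP)⟩
  let h₂ : MvPolynomial ι L →ₐ[L] LaurentSeries L := MvPolynomial.aeval fun i => ser s L (p i)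
  have hker : RingHom.ker f.toRingHom ≤ RingHom.ker h₂.toRingHom := by
    intro P hP
    rw [RingHom.mem_ker] at hP ⊢
    refine aeval_perm_eq_zero s hp ?_
    rw [← hf, AlgHom.comp_apply]
    exact (congrArg _ hP).trans (map_zero _)
  let g₀ := f.toRingHom.liftOfSurjective hsurj ⟨h₂.toRingHom, hker⟩
  have hg₀ : ∀ P, g₀ (f P) = h₂ P := fun P =>
    RingHom.liftOfRightInverse_comp_apply f.toRingHom _ _ ⟨h₂.toRingHom, hker⟩ P
  let g : Algebra.adjoin L S →ₐ[L] LaurentSeries L :=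
    { g₀ with commutes' := fun c => by simpa [AlgHom.commutes] using hg₀ (MvPolynomial.C c) }
  have hg : Function.Injective g := by
    rw [injective_iff_map_eq_zero]
    intro x hx
    obtain ⟨P, rfl⟩ := hsurj x
    have h0 : h₂ P = 0 := (hg₀ P).symm.trans hx
    refine Subtype.ext ((AlgHom.congr_fun hf P).trans ?_)
    have h1 : MvPolynomial.aeval (fun i => ser s L (p i)) (rename p P) = 0 :=
      aeval_perm_eq_zero s hp (by rw [aeval_rename]; exact h0)
    rw [aeval_rename] at h1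
    rw [show ser s L = (fun i => ser s L (p i)) ∘ p from
      funext fun i => (congrArg (ser s L) (hinv i)).symm]
    exact h1
  refine ⟨IsFractionRing.liftAlgHom hg, fun i => ?_⟩
  rw [show (⟨ser s L i, _⟩ : adjoin L S) = algebraMap (Algebra.adjoin L S) (adjoin L S)
    ⟨ser s L i, Algebra.subset_adjoin (Set.mem_range_self i)⟩ from rfl]
  refine Eq.trans ?_ (by simpa [f, h₂] using hg₀ (MvPolynomial.X i))
  exact IsFractionRing.lift_algebraMap hg _

end Descent

end Swap

section Atkin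

open Fermat.Agent.HK.Corr (jSer modField qExpand_jSer_mem modField_eq_adjoin coeffEmb_qExpand_eq)

variable (L : Type*) [Field L] [Algebra ℚ L] (N ℓ : ℕ) [NeZero N] [NeZero ℓ]

/-- The divisors of `N ℓ`. -/
abbrev DivIdx : Type := {e : ℕ // e ∈ (N * ℓ).divisors}

instance (e : DivIdx N ℓ) : NeZero e.1 := ⟨(Nat.pos_of_mem_divisors e.2).ne'⟩

variable {N ℓ}

omit [NeZero N] [NeZero ℓ] in
theorem scaleIdx_mem (hℓ : ℓ.Prime) {e : ℕ} (he : e ∈ (N * ℓ).divisors) :
    (if ℓ ∣ e then e / ℓ else e * ℓ) ∈ (N * ℓ).divisors := by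
  rw [Nat.mem_divisors] at he ⊢
  refine ⟨?_, he.2⟩
  split_ifs with h
  · exact (Nat.div_dvd_of_dvd h).trans he.1
  · exact mul_dvd_mul_right (((hℓ.coprime_iff_not_dvd.2 h).symm).dvd_of_dvd_mul_right he.1) ℓ

/-- The permutation `e ↔ e ℓ` of the divisors of `N ℓ`. -/
def atkinIdx (hℓ : ℓ.Prime) (_hN : ¬ ℓ ∣ N) (e : DivIdx N ℓ) : DivIdx N ℓ :=
  ⟨if ℓ ∣ e.1 then e.1 / ℓ else e.1 * ℓ, scaleIdx_mem hℓ e.2⟩

omit [NeZero N] [NeZero ℓ] in
theorem dvd_N_of_mem {e : ℕ} (hℓ : ℓ.Prime) (he : e ∈ (N * ℓ).divisors) :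
    (¬ ℓ ∣ e → e ∣ N) ∧ (ℓ ∣ e → e / ℓ ∣ N) := by
  refine ⟨fun h => ((hℓ.coprime_iff_not_dvd.2 h).symm).dvd_of_dvd_mul_right
    (Nat.mem_divisors.1 he).1, fun h => ?_⟩
  obtain ⟨c, rfl⟩ := h
  rw [Nat.mul_div_cancel_left _ hℓ.pos]
  exact Nat.dvd_of_mul_dvd_mul_left hℓ.pos (mul_comm N ℓ ▸ (Nat.mem_divisors.1 he).1)

theorem atkinIdx_involutive (hℓ : ℓ.Prime) (hN : ¬ ℓ ∣ N) :
    Function.Involutive (atkinIdx hℓ hN) := by
  rintro ⟨e, he⟩
  apply Subtype.ext
  simp only [atkinIdx]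
  by_cases h : ℓ ∣ e
  · have h' : ¬ ℓ ∣ e / ℓ := fun hh => hN (hh.trans ((dvd_N_of_mem hℓ he).2 h))
    rw [if_pos h, if_neg h', Nat.div_mul_cancel h]
  · rw [if_neg h, if_pos (dvd_mul_left ℓ e), Nat.mul_div_cancel _ hℓ.pos]

theorem isModularPerm_atkinIdx (hℓ : ℓ.Prime) (hN : ¬ ℓ ∣ N) :
    Swap.IsModularPerm (fun e : DivIdx N ℓ => e.1) (atkinIdx hℓ hN) := by
  intro τ
  obtain ⟨u, v, huv⟩ : ∃ u v : ℤ, u * ℓ + v * N = 1 :=
    (Nat.isCoprime_iff_coprime.2 (hℓ.coprime_iff_not_dvd.2 hN))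
  let γ₀ : SL(2, ℤ) := ⟨!![u, -v; (N : ℤ), ℓ], by rw [Matrix.det_fin_two_of]; linear_combination huv⟩
  refine ⟨γ₀ • scaleH ℓ τ, fun e => ?_⟩
  obtain ⟨h1, h2⟩ := dvd_N_of_mem hℓ e.2
  have hℓ0 : (ℓ : ℂ) ≠ 0 := by exact_mod_cast hℓ.ne_zero
  by_cases h : ℓ ∣ e.1
  · obtain ⟨m, hm⟩ := h2 h
    set d := e.1 / ℓ with hd
    have hed : e.1 = d * ℓ := (Nat.div_mul_cancel h).symm
    have : NeZero d := ⟨fun h0 => (Nat.pos_of_mem_divisors e.2).ne' (by rw [hed, h0, zero_mul])⟩
    let γ : SL(2, ℤ) := ⟨!![u * ℓ, -v * d; (m : ℤ), 1], by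
      rw [Matrix.det_fin_two_of]; rw [hm] at huv; push_cast at huv; linear_combination huv⟩
    have hp : (atkinIdx hℓ hN e).1 = d := if_pos h
    have : scaleH e.1 (γ₀ • scaleH ℓ τ) = γ • scaleH d τ := by
      apply UpperHalfPlane.ext
      rw [coe_scaleH, UpperHalfPlane.coe_specialLinearGroup_apply,
        UpperHalfPlane.coe_specialLinearGroup_apply]
      simp only [γ₀, γ, coe_scaleH, hed, hm]
      push_cast
      simp
      have hden := UpperHalfPlane.denom_ne_zero γ (scaleH d τ)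
      simp [γ, UpperHalfPlane.denom, coe_scaleH] at hden
      field_simp
    simp only [hp]
    rw [this, kleinJ_smul]
  · obtain ⟨m, hm⟩ := h1 h
    have : NeZero (e.1 * ℓ) := ⟨mul_ne_zero (Nat.pos_of_mem_divisors e.2).ne' hℓ.ne_zero⟩
    let γ : SL(2, ℤ) := ⟨!![u, -v * e.1; (m : ℤ), ℓ], by
      rw [Matrix.det_fin_two_of]; rw [hm] at huv; push_cast at huv; linear_combination huv⟩
    have hp : (atkinIdx hℓ hN e).1 = e.1 * ℓ := if_neg h
    have : scaleH e.1 (γ₀ • scaleH ℓ τ) = γ • scaleH (e.1 * ℓ) τ := by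
      apply UpperHalfPlane.ext
      rw [coe_scaleH, UpperHalfPlane.coe_specialLinearGroup_apply,
        UpperHalfPlane.coe_specialLinearGroup_apply]
      simp only [γ₀, γ, coe_scaleH, hm]
      push_cast
      simp
      ring
    simp only [hp]
    rw [this, kleinJ_smul]

theorem modField_eq_adjoin_ser :
    modField L (N * ℓ) = adjoin L (Set.range (Swap.ser (fun e : DivIdx N ℓ => e.1) L)) := by
  rw [modField_eq_adjoin]
  congr 1
  ext x
  constructor
  · rintro ⟨_, ⟨d, hne, hd, rfl⟩, rfl⟩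
    exact ⟨⟨d, Nat.mem_divisors.2 ⟨hd, NeZero.ne _⟩⟩, (coeffEmb_qExpand_eq d jq).symm⟩
  · rintro ⟨e, rfl⟩
    exact ⟨_, mem_divisorExpansions _ (Nat.mem_divisors.1 e.2).1, coeffEmb_qExpand_eq e.1 jq⟩

variable {L}

/-- Algebra maps out of a modular function field are determined on the `j(dτ)`. -/
theorem modField_algHom_ext {M : ℕ} {F : Type*} [Field F] [Algebra L F]
    {φ ψ : modField L M →ₐ[L] F}
    (h : ∀ d (hd : d ∣ M) (_ : NeZero d), φ ⟨_, qExpand_jSer_mem (L := L) hd⟩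
      = ψ ⟨_, qExpand_jSer_mem (L := L) hd⟩) : φ = ψ := by
  refine AlgHom.ext fun x => ?_
  obtain ⟨x, hx⟩ := x
  rw [modField_eq_adjoin] at hx
  induction hx using adjoin_induction with
  | mem y hy =>
    obtain ⟨_, ⟨d, hne, hd, rfl⟩, rfl⟩ := hy
    have e : coeffEmb L (qExpand ℚ d jq) = qExpand L d (jSer L) := coeffEmb_qExpand_eq d jq
    simp only [e]
    exact h d hd hne
  | algebraMap c => exact (φ.commutes c).trans (ψ.commutes c).symm
  | add y z hy hz ihy ihz =>
    rw [← modField_eq_adjoin] at hy hz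
    have := congrArg₂ (· + ·) (ihy hy) (ihz hz)
    simp only [← map_add] at this
    exact this
  | inv y hy ihy =>
    rw [← modField_eq_adjoin] at hy
    have := congrArg (·⁻¹) (ihy hy)
    simp only [← map_inv₀] at this
    exact this
  | mul y z hy hz ihy ihz =>
    rw [← modField_eq_adjoin] at hy hz
    have := congrArg₂ (· * ·) (ihy hy) (ihz hz)
    simp only [← map_mul] at this
    exact this

variable (L) in
/-- The Atkin–Lehner involution of level `N ℓ` exchanging the degeneracy maps. -/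
theorem exists_atkinSwap (hℓ : ℓ.Prime) (hN : ¬ ℓ ∣ N) :
    ∃ w : modField L (N * ℓ) ≃ₐ[L] modField L (N * ℓ),
      w.toAlgHom.comp (heckeAlphaBar L N ℓ) = heckeBetaBar L N ℓ ∧
      w.toAlgHom.comp (heckeBetaBar L N ℓ) = heckeAlphaBar L N ℓ := by
  obtain ⟨σ, hσ⟩ := Swap.exists_permHom (fun e : DivIdx N ℓ => e.1) L
    (isModularPerm_atkinIdx hℓ hN) (atkinIdx_involutive hℓ hN)
  let S := Set.range (Swap.ser (fun e : DivIdx N ℓ => e.1) L)
  have hrange : ∀ x, σ x ∈ modField L (N * ℓ) := by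
    rintro ⟨x, hx⟩
    induction hx using adjoin_induction with
    | mem y hy =>
      obtain ⟨e, rfl⟩ := hy
      rw [hσ e]
      exact qExpand_jSer_mem (Nat.mem_divisors.1 (atkinIdx hℓ hN e).2).1
    | algebraMap c =>
      rw [show (⟨algebraMap L (LaurentSeries L) c, _⟩ : adjoin L S) = algebraMap L _ c from rfl,
        AlgHom.commutes]
      exact IntermediateField.algebraMap_mem _ c
    | add y z hy hz ihy ihz =>
      rw [show (⟨y + z, _⟩ : adjoin L S) = ⟨y, hy⟩ + ⟨z, hz⟩ from rfl, map_add]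
      exact add_mem ihy ihz
    | inv y hy ihy =>
      rw [show (⟨y⁻¹, _⟩ : adjoin L S) = ⟨y, hy⟩⁻¹ from rfl, map_inv₀]
      exact inv_mem ihy
    | mul y z hy hz ihy ihz =>
      rw [show (⟨y * z, _⟩ : adjoin L S) = ⟨y, hy⟩ * ⟨z, hz⟩ from rfl, map_mul]
      exact mul_mem ihy ihz
  let w : modField L (N * ℓ) →ₐ[L] modField L (N * ℓ) :=
    (σ.comp (IntermediateField.equivOfEq (modField_eq_adjoin_ser L)).toAlgHom).codRestrict
      (modField L (N * ℓ)).toSubalgebra fun x => hrange _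
  have hw : ∀ (d : ℕ) (hd : d ∣ N * ℓ) (_ : NeZero d),
      (w ⟨_, qExpand_jSer_mem (L := L) hd⟩ : LaurentSeries L) =
        Swap.ser (fun e : DivIdx N ℓ => e.1) L
          (atkinIdx hℓ hN ⟨d, Nat.mem_divisors.2 ⟨hd, NeZero.ne _⟩⟩) := fun d hd _ =>
    hσ ⟨d, Nat.mem_divisors.2 ⟨hd, NeZero.ne _⟩⟩
  have hww : w.comp w = AlgHom.id L _ := by
    refine modField_algHom_ext fun d hd _ => Subtype.ext ?_
    set e := atkinIdx hℓ hN ⟨d, Nat.mem_divisors.2 ⟨hd, NeZero.ne _⟩⟩ with he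
    have h1 : w ⟨_, qExpand_jSer_mem (L := L) hd⟩
        = ⟨_, qExpand_jSer_mem (L := L) (Nat.mem_divisors.1 e.2).1⟩ := Subtype.ext (hw d hd ‹_›)
    rw [AlgHom.comp_apply, h1, hw e.1 (Nat.mem_divisors.1 e.2).1 inferInstance]
    show Swap.ser _ L (atkinIdx hℓ hN e) = qExpand L d (jSer L)
    rw [he, atkinIdx_involutive hℓ hN]
    rfl
  refine ⟨AlgEquiv.ofAlgHom w w hww hww, ?_, ?_⟩
  · refine modField_algHom_ext fun d hd _ => Subtype.ext ?_
    have : NeZero (ℓ * d) := ⟨mul_ne_zero (NeZero.ne ℓ) (NeZero.ne d)⟩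
    have hd' : d ∣ N * ℓ := hd.mul_right ℓ
    have h1 : heckeAlphaBar L N ℓ ⟨_, qExpand_jSer_mem (L := L) hd⟩
        = ⟨_, qExpand_jSer_mem (L := L) hd'⟩ := Subtype.ext (coe_heckeAlphaBar N ℓ _)
    show ((w (heckeAlphaBar L N ℓ _)) : LaurentSeries L) = _
    rw [h1, hw d hd' ‹_›, coe_heckeBetaBar, qExpand_qExpand]
    refine qExpand_congr ?_ _
    show (if ℓ ∣ d then d / ℓ else d * ℓ) = ℓ * d
    rw [if_neg (fun h => hN (h.trans hd)), mul_comm]
  · refine modField_algHom_ext fun d hd _ => Subtype.ext ?_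
    have : NeZero (ℓ * d) := ⟨mul_ne_zero (NeZero.ne ℓ) (NeZero.ne d)⟩
    have hd' : ℓ * d ∣ N * ℓ := mul_comm ℓ d ▸ mul_dvd_mul_right hd ℓ
    have h1 : heckeBetaBar L N ℓ ⟨_, qExpand_jSer_mem (L := L) hd⟩
        = ⟨_, qExpand_jSer_mem (L := L) hd'⟩ :=
      Subtype.ext ((coe_heckeBetaBar N ℓ _).trans (qExpand_qExpand d ℓ _))
    show ((w (heckeBetaBar L N ℓ _)) : LaurentSeries L) = _
    rw [h1, hw (ℓ * d) hd' inferInstance, coe_heckeAlphaBar]
    refine qExpand_congr ?_ _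
    show (if ℓ ∣ ℓ * d then ℓ * d / ℓ else ℓ * d * ℓ) = d
    rw [if_pos (dvd_mul_right ℓ d), Nat.mul_div_cancel_left _ hℓ.pos]

end Atkin

end Fermat.Agent.JPairing
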