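import Fermat.Agent.FF.Along
import Fermat.Agent.JPairing.Weil
import Fermat.Prelude.Def_AlgebraicCurve_Correspondence

/-!
# Functoriality of the Weil pairing

Pullback and pushforward are adjoint, and so are a correspondence and its transpose.
-/

set_option autoImplicit false

noncomputable section

open AlgebraicCurve

namespace Fermat.Agent.JPairing

variable {K F : Type*} [Field K] [Field F] [Algebra K F] [IsAlgClosed K] [CharZero K]
  [FF.IsFunctionField K F] {n : ℕ}

omit [IsAlgClosed K] [CharZero K] in
/-- Moving a representative off a finite set of places. -/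
theorem exists_rep_avoiding {x : Pic0 K F} (hx : x ∈ Pic0.torsion K F n)
    (S : Finset (Place K F)) : ∃ D f, IsTorsionRep n x D f ∧ ∀ v ∈ S, D v = 0 := by
  obtain ⟨D, f, hD⟩ := isTorsionRep_exists hx
  obtain ⟨hf, ho, hd, rfl⟩ := hD
  obtain ⟨h, hh, hord⟩ := exists_ord_prescribed S fun v => -D v
  have hdiv : divOf K h ∈ Divisor.principal (K := K) (F := F) := divOf_isPrincipal hh
  refine ⟨D + divOf K h, f * h ^ n, ⟨mul_ne_zero hf (pow_ne_zero _ hh), fun v => ?_,
    add_mem hd (degree_divOf h), ?_⟩, fun v hv => ?_⟩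
  · rw [v.ord_mul hf (pow_ne_zero _ hh), ho, ord_pow, Finsupp.add_apply, divOf_apply, mul_add]
  · rw [Pic0.mk, Pic0.mk, QuotientAddGroup.eq, AddSubgroup.mem_addSubgroupOf]
    have : -(D + divOf K h) + D = -divOf K h := by abel
    simpa [this] using neg_mem hdiv
  · rw [Finsupp.add_apply, divOf_apply, hord v hv, add_neg_cancel]

section PullPush

variable {F' : Type*} [Field F'] [Algebra K F'] [FF.IsFunctionField K F'] [Algebra F F']
  [IsScalarTower K F F'] [Algebra.IsIntegral F F'] [Module.Finite F F']
  [SumRamificationInertia K F F']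

omit [CharZero K] [Module.Finite F F'] [SumRamificationInertia K F F'] in
theorem pushforward_apply_eq_sum_fiber (E : Divisor K F') (v : Place K F) :
    Divisor.pushforward F E v = ∑ w ∈ v.fiber F', E w := by
  classical
  rw [Divisor.pushforward_apply]
  simp only [inertiaDeg_eq_one, Nat.cast_one, mul_one]
  rw [← Finset.sum_filter]
  refine Finset.sum_subset (fun w hw => Place.mem_fiber.2 (Finset.mem_filter.1 hw).2)
    (fun w hw hw' => ?_)
  by_contra hne
  exact hw' (Finset.mem_filter.2 ⟨Finsupp.mem_support_iff.2 hne, Place.mem_fiber.1 hw⟩)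

variable {x : Pic0 K F} {y : Pic0 K F'} {D : Divisor K F} {E : Divisor K F'} {f : F} {g : F'}

omit [IsAlgClosed K] [CharZero K] [FF.IsFunctionField K F] [Module.Finite F F'] in
theorem IsTorsionRep.pullback (hx : IsTorsionRep n x D f) :
    IsTorsionRep n (Pic0.pullbackHom F' x) (Divisor.pullback F' D) (algebraMap F F' f) := by
  obtain ⟨hf, ho, hd, rfl⟩ := hx
  refine ⟨by simpa using hf, fun w => ?_, Divisor.pullback_mem_degZero hd,
    (Pic0.pullbackHom_mk (F' := F') ⟨D, hd⟩).symm⟩
  rw [w.ord_restrict, ho, Divisor.pullback_apply]; ring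

omit [CharZero K] [SumRamificationInertia K F F'] in
theorem IsTorsionRep.pushforward (hN : Divisor.PushforwardNormFormula K F F')
    (hy : IsTorsionRep n y E g) :
    IsTorsionRep n (Pic0.pushforwardHom K F F' hN y) (Divisor.pushforward F E)
      (Algebra.norm F g) := by
  obtain ⟨hg, ho, hd, rfl⟩ := hy
  refine ⟨Algebra.norm_ne_zero_iff.2 hg, fun v => ?_, Divisor.pushforward_mem_degZero hd,
    (Pic0.pushforwardHom_mk hN ⟨E, hd⟩).symm⟩
  rw [ord_norm_eq_sum_fiber hN hg, pushforward_apply_eq_sum_fiber, Finset.mul_sum]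
  exact Finset.sum_congr rfl fun w _ => ho w

omit [CharZero K] in
/-- The local projection formula for the pairing, when `D` misses the image of `E`. -/
theorem prod_fiber_pairFactor (hN : Divisor.PushforwardNormFormula K F F')
    (hx : IsTorsionRep n x D f) (hy : IsTorsionRep n y E g) (v : Place K F)
    (h : D v = 0 ∨ ∀ w ∈ v.fiber F', E w = 0) :
    ∏ w ∈ v.fiber F', pairFactor (n : ℤ) w (Divisor.pullback F' D w) (E w) (algebraMap F F' f) g
      = pairFactor (n : ℤ) v (D v) (Divisor.pushforward F E v) f (Algebra.norm F g) := by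
  rcases h with h | h
  · have hv0 : v.ord f = 0 := by rw [hx.2.1, h, mul_zero]
    have hw : ∀ w ∈ v.fiber F',
        pairFactor (n : ℤ) w (Divisor.pullback F' D w) (E w) (algebraMap F F' f) g
          = evalAt v f ^ E w := by
      intro w hw
      have hwv := Place.mem_fiber.1 hw
      rw [Divisor.pullback_apply, hwv, h, mul_zero,
        pairFactor_left_unit (by rw [w.ord_restrict, hwv, hv0, mul_zero]),
        evalAt_algebraMap_lift hwv (Or.inr hv0.ge)]
    rw [Finset.prod_congr rfl hw, prod_zpow_eq_zpow_sum' (evalAt_ne_zero hx.1 hv0), h,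
      pairFactor_left_unit hv0, pushforward_apply_eq_sum_fiber]
  · have hg0 : ∀ w ∈ v.fiber F', w.ord g = 0 := fun w hw => by rw [hy.2.1, h w hw, mul_zero]
    obtain ⟨-, hev⟩ := evalAt_norm v (f := g) fun w hw => Or.inr (hg0 w hw).ge
    have hN0 : v.ord (Algebra.norm F g) = 0 := by
      rw [ord_norm_eq_sum_fiber hN hy.1]; exact Finset.sum_eq_zero hg0
    have hw : ∀ w ∈ v.fiber F',
        pairFactor (n : ℤ) w (Divisor.pullback F' D w) (E w) (algebraMap F F' f) g
          = ((evalAt w g ^ w.ramificationIndex F) ^ D v)⁻¹ := by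
      intro w hw
      rw [h w hw, pairFactor_right_unit _ (hg0 w hw), Divisor.pullback_apply,
        Place.mem_fiber.1 hw, zpow_mul, zpow_natCast]
    rw [Finset.prod_congr rfl hw, Finset.prod_inv_distrib, Finset.prod_zpow, ← hev,
      pushforward_apply_eq_sum_fiber, Finset.sum_eq_zero h, pairFactor_right_unit _ hN0]

/-- `e(π^* x, y) = e(x, π_* y)`. -/
theorem weilPair_pullback_pushforward (hN : Divisor.PushforwardNormFormula K F F')
    {x y₀ : Pic0.torsion K F n} {x' y : Pic0.torsion K F' n}
    (hx : (x' : Pic0 K F') = Pic0.pullbackHom F' (x : Pic0 K F))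
    (hy : (y₀ : Pic0 K F) = Pic0.pushforwardHom K F F' hN (y : Pic0 K F')) :
    weilPair n x' y = weilPair n x y₀ := by
  classical
  obtain ⟨E, g, hyr⟩ := isTorsionRep_exists y.2
  obtain ⟨D, f, hxr, hD⟩ := exists_rep_avoiding x.2 (E.support.image fun w => w.restrict F)
  rw [weilPair_eq (hx.symm ▸ hxr.pullback) hyr, weilPair_eq hxr (hy.symm ▸ hyr.pushforward hN)]
  set T := D.support ∪ E.support.image (fun w => w.restrict F) with hT
  rw [weilPre, weilPre,
    finprod_eq_prod_of_mulSupport_subset _ (s := T.biUnion fun v => v.fiber F') ?_,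
    finprod_eq_prod_of_mulSupport_subset _ (s := T) ?_, Finset.prod_biUnion ?_]
  · refine Finset.prod_congr rfl fun v _ => prod_fiber_pairFactor hN hxr hyr v ?_
    by_cases hv : v ∈ E.support.image fun w => w.restrict F
    · exact Or.inl (hD v hv)
    · refine Or.inr fun w hw => ?_
      by_contra hne
      exact hv (Finset.mem_image.2 ⟨w, Finsupp.mem_support_iff.2 hne, Place.mem_fiber.1 hw⟩)
  · intro v _ v' _ hne
    exact Finset.disjoint_left.2 fun w hw hw' =>
      hne ((Place.mem_fiber.1 hw).symm.trans (Place.mem_fiber.1 hw'))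
  · intro v hv
    by_contra hvT
    apply hv
    rw [Finset.mem_coe, hT, Finset.mem_union, Finsupp.mem_support_iff, not_or, not_not] at hvT
    show pairFactor (n : ℤ) v (D v) (Divisor.pushforward F E v) f (Algebra.norm F g) = 1
    rw [hvT.1, pushforward_apply_eq_sum_fiber, Finset.sum_eq_zero, pairFactor_zero]
    intro w hw
    by_contra hne
    exact hvT.2 (Finset.mem_image.2 ⟨w, Finsupp.mem_support_iff.2 hne, Place.mem_fiber.1 hw⟩)
  · intro w hw
    by_contra hwT
    apply hw
    rw [Finset.mem_coe, Finset.mem_biUnion] at hwT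
    push Not at hwT
    have hv : w.restrict F ∉ T := fun hh => hwT _ hh w.restrict_mem_fiber
    rw [hT, Finset.mem_union, Finsupp.mem_support_iff, not_or, not_not] at hv
    show pairFactor (n : ℤ) w (Divisor.pullback F' D w) (E w) (algebraMap F F' f) g = 1
    rw [Divisor.pullback_apply, hv.1, mul_zero, show E w = 0 by
      by_contra hne
      exact hv.2 (Finset.mem_image_of_mem _ (Finsupp.mem_support_iff.2 hne)), pairFactor_zero]

end PullPush

section Correspondence

variable {F' : Type*} [Field F'] [Algebra K F'] [FF.IsFunctionField K F']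

omit [CharZero K] [FF.IsFunctionField K F] [IsAlgClosed K] in
theorem correspondence_eq_comp (φ ψ : F →ₐ[K] F') (hφ : φ.toRingHom.IsIntegral)
    (hψ : ψ.toRingHom.IsIntegral) (hFI : FundamentalIdentityAlong K φ hφ)
    (hfin : FiniteAlong K ψ) (hN : NormFormulaAlong K ψ hfin) (x : Pic0 K F) :
    Pic0.correspondence φ ψ hφ hψ hFI hfin hN x
      = (letI := algebraAlong ψ
         haveI := isScalarTower_along ψ
         haveI := isIntegral_along ψ hψ
         haveI : Module.Finite F F' := hfin
         Pic0.pushforwardHom K F F' hN)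
        (letI := algebraAlong φ
         haveI := isScalarTower_along φ
         haveI := isIntegral_along φ hφ
         haveI : FundamentalIdentity K F F' := hFI
         Pic0.pullbackHom F' x) := by
  obtain ⟨D, rfl⟩ := Pic0.mk_surjective x
  rfl

/-- A correspondence and its transpose are adjoint for the Weil pairing. -/
theorem weilPair_correspondence (φ ψ : F →ₐ[K] F') (hφ : φ.toRingHom.IsIntegral)
    (hψ : ψ.toRingHom.IsIntegral) (hFIφ : FundamentalIdentityAlong K φ hφ)
    (hfinψ : FiniteAlong K ψ) (hNψ : NormFormulaAlong K ψ hfinψ)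
    (hFIψ : FundamentalIdentityAlong K ψ hψ) (hfinφ : FiniteAlong K φ)
    (hNφ : NormFormulaAlong K φ hfinφ) {x y Tx T'y : Pic0.torsion K F n}
    (hx : (Tx : Pic0 K F) = Pic0.correspondence φ ψ hφ hψ hFIφ hfinψ hNψ x)
    (hy : (T'y : Pic0 K F) = Pic0.correspondence ψ φ hψ hφ hFIψ hfinφ hNφ y) :
    weilPair n Tx y = weilPair n x T'y := by
  rw [correspondence_eq_comp] at hx hy
  let px : Pic0.torsion K F' n := ⟨letI := algebraAlong φ
    haveI := isScalarTower_along φ
    haveI := isIntegral_along φ hφ
    haveI : FundamentalIdentity K F F' := hFIφ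
    Pic0.pullbackHom F' (x : Pic0 K F), by
      rw [Pic0.mem_torsion, ← map_zsmul, Pic0.mem_torsion.1 x.2, map_zero]⟩
  let py : Pic0.torsion K F' n := ⟨letI := algebraAlong ψ
    haveI := isScalarTower_along ψ
    haveI := isIntegral_along ψ hψ
    haveI : FundamentalIdentity K F F' := hFIψ
    Pic0.pullbackHom F' (y : Pic0 K F), by
      rw [Pic0.mem_torsion, ← map_zsmul, Pic0.mem_torsion.1 y.2, map_zero]⟩
  have h2 : weilPair n px py = weilPair n x T'y := by
    let _ := algebraAlong φ
    have := isScalarTower_along φ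
    have := isIntegral_along φ hφ
    have : Module.Finite F F' := hfinφ
    have : CharZero F := FF.charZero_of_isFunctionField (K := K)
    have : SumRamificationInertia K F F' := FF.sumRamificationInertia
    exact weilPair_pullback_pushforward hNφ rfl hy
  have h1 : weilPair n py px = weilPair n y Tx := by
    let _ := algebraAlong ψ
    have := isScalarTower_along ψ
    have := isIntegral_along ψ hψ
    have : Module.Finite F F' := hfinψ
    have : CharZero F := FF.charZero_of_isFunctionField (K := K)
    have : SumRamificationInertia K F F' := FF.sumRamificationInertia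
    exact weilPair_pullback_pushforward hNψ rfl hx
  rw [weilPair_swap y Tx, ← h1, ← weilPair_swap py px, h2]

end Correspondence

end Fermat.Agent.JPairing
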