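import Mathlib.FieldTheory.KummerPolynomial
import Mathlib.RingTheory.RootsOfUnity.AlgebraicallyClosed
import Fermat.Agent.JPairing.Functorial

/-!
# Nondegeneracy of the Weil pairing

If `x` is a nonzero class killed by a prime `ℓ`, `ℓ D = div f`, and `Pic⁰` of the cyclic cover
`F' = F(f^(1/ℓ))` is `ℓ`-divisible, then `x` pairs nontrivially: with `σ` a generator, `P` a place
of `F'` and `ℓ y' = [σP] - [P]`, the class `y = π_* y'` is killed by `ℓ` and `e_ℓ(x, y) = ζ⁻¹`.
-/

set_option autoImplicit false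

noncomputable section

open AlgebraicCurve Polynomial

namespace Fermat.Agent.JPairing

universe u v

variable {K : Type v} {F : Type u} [Field K] [Field F] [Algebra K F]

section Cover

variable {F' : Type*} [Field F'] [Algebra K F'] [Algebra F F'] [IsScalarTower K F F']
  [Algebra.IsIntegral F F']

theorem restrict_smul_algEquiv (σ : F' ≃ₐ[F] F') (w : Place K F') :
    ((σ.restrictScalars K) • w).restrict F = w.restrict F := by
  refine Place.ext (SetLike.ext fun a => ?_)
  rw [Place.mem_restrict_iff, Place.mem_restrict_iff, Place.smul_toValuationSubring,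
    ValuationSubring.mem_pointwise_smul_iff_inv_smul_mem, AlgEquiv.smul_def]
  rw [show (σ.restrictScalars K)⁻¹ (algebraMap F F' a) = algebraMap F F' a from σ.symm.commutes a]

variable [IsAlgClosed K] [CharZero K] [FF.IsFunctionField K F] [FF.IsFunctionField K F']

theorem evalAt_smul_algEquiv (σ : F' ≃ₐ[K] F') (w : Place K F') {f : F'} (hf : OrdGE w 0 f) :
    evalAt (σ • w) (σ f) = evalAt w f := by
  refine evalAt_eq ?_
  rw [← σ.commutes (evalAt w f), ← map_sub]
  rcases ordGE_sub_evalAt w hf with h | h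
  · exact Or.inl (by rw [h, map_zero])
  · exact Or.inr (by rwa [Place.ord_smul])

variable [Module.Finite F F'] [SumRamificationInertia K F F']

/-- The pairing of `x` with `π_* y'`, computed on the cover. -/
theorem weilPre_kummer (hN : Divisor.PushforwardNormFormula K F F') {ℓ : ℕ} [NeZero ℓ]
    {x : Pic0 K F} {D : Divisor K F} {f : F} {φ g' : F'} {E' : Divisor K F'} {P Q : Place K F'}
    (hx : IsTorsionRep ℓ x D f) (hφ : φ ^ ℓ = algebraMap F F' f) (hg' : g' ≠ 0)
    (hE' : ∀ w : Place K F', (ℓ : ℤ) * E' w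
      = w.ord g' + ((Finsupp.single Q 1 : Divisor K F') w - (Finsupp.single P 1 : Divisor K F') w))
    (hD : ∀ w : Place K F', (E' w ≠ 0 ∨ w = P ∨ w = Q) → D (w.restrict F) = 0)
    :
    weilPre ℓ D f (Divisor.pushforward F E') (Algebra.norm F g')
      = evalAt Q φ / evalAt P φ := by
  classical
  have hℓ : (ℓ : ℤ) ≠ 0 := by exact_mod_cast NeZero.ne ℓ
  have hφ0 : φ ≠ 0 := fun h => hx.1 <| (algebraMap F F').injective <| by
    rw [← hφ, h, zero_pow (NeZero.ne ℓ), map_zero]
  have hordφ : ∀ w : Place K F', w.ord φ = w.ramificationIndex F * D (w.restrict F) := fun w => by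
    have h := congrArg w.ord hφ
    rw [ord_pow, w.ord_restrict, hx.2.1] at h
    exact mul_left_cancel₀ hℓ (h.trans (by ring))
  set u : Place K F' → K := fun w => evalAt w φ ^
    ((Finsupp.single Q 1 : Divisor K F') w - (Finsupp.single P 1 : Divisor K F') w) with hu
  have key : ∀ v : Place K F, ∏ w ∈ v.fiber F', tameSymbol w φ g' * u w
      = pairFactor (ℓ : ℤ) v (D v) (Divisor.pushforward F E' v) f (Algebra.norm F g') := by
    intro v
    by_cases hv : D v = 0
    · have hv0 : v.ord f = 0 := by rw [hx.2.1, hv, mul_zero]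
      have hw : ∀ w ∈ v.fiber F', tameSymbol w φ g' * u w = evalAt v f ^ E' w := by
        intro w hw
        have hwv := Place.mem_fiber.1 hw
        have hφw : w.ord φ = 0 := by rw [hordφ, hwv, hv, mul_zero]
        rw [hu, tameSymbol, hφw, pairFactor_left_unit hφw,
          ← zpow_add₀ (evalAt_ne_zero hφ0 hφw), ← hE', zpow_mul, zpow_natCast,
          ← evalAt_pow (Or.inr hφw.ge), hφ, evalAt_algebraMap_lift hwv (Or.inr hv0.ge)]
      rw [Finset.prod_congr rfl hw, prod_zpow_eq_zpow_sum' (evalAt_ne_zero hx.1 hv0), hv,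
        pairFactor_left_unit hv0, pushforward_apply_eq_sum_fiber]
    · have h0 : ∀ w ∈ v.fiber F', E' w = 0 ∧ (Finsupp.single Q 1 : Divisor K F') w = 0 ∧
          (Finsupp.single P 1 : Divisor K F') w = 0 := fun w hw => by
        have hn : ¬(E' w ≠ 0 ∨ w = P ∨ w = Q) := fun h =>
          hv (by rw [← Place.mem_fiber.1 hw]; exact hD w h)
        push Not at hn
        exact ⟨hn.1, Finsupp.single_eq_of_ne hn.2.2, Finsupp.single_eq_of_ne hn.2.1⟩
      have hg0 : ∀ w ∈ v.fiber F', w.ord g' = 0 := fun w hw => by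
        have := hE' w
        obtain ⟨h1, h2, h3⟩ := h0 w hw
        rw [h1, h2, h3] at this
        linarith
      obtain ⟨-, hev⟩ := evalAt_norm v (f := g') fun w hw => Or.inr (hg0 w hw).ge
      have hN0 : v.ord (Algebra.norm F g') = 0 := by
        rw [ord_norm_eq_sum_fiber hN hg']; exact Finset.sum_eq_zero hg0
      have hw : ∀ w ∈ v.fiber F', tameSymbol w φ g' * u w
          = ((evalAt w g' ^ w.ramificationIndex F) ^ D v)⁻¹ := fun w hw => by
        obtain ⟨-, h2, h3⟩ := h0 w hw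
        rw [hu, tameSymbol, hg0 w hw, pairFactor_right_unit _ (hg0 w hw), hordφ,
          Place.mem_fiber.1 hw, zpow_mul, zpow_natCast]
        simp [h2, h3]
      rw [Finset.prod_congr rfl hw, Finset.prod_inv_distrib, Finset.prod_zpow, ← hev,
        pushforward_apply_eq_sum_fiber, Finset.sum_eq_zero (fun w hw => (h0 w hw).1),
        pairFactor_right_unit _ hN0]
  set T : Finset (Place K F) := D.support ∪
    ((E'.support ∪ (divOf K φ).support ∪ (divOf K g').support ∪ {P, Q}).image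
      fun w => w.restrict F) with hT
  have hmem : ∀ w : Place K F', w ∉ T.biUnion (fun v => v.fiber F') →
      w ∉ E'.support ∧ w ∉ (divOf K φ).support ∧ w ∉ (divOf K g').support ∧ w ≠ P ∧ w ≠ Q := by
    intro w hw
    have : w.restrict F ∉ T := fun h => hw (Finset.mem_biUnion.2 ⟨_, h, w.restrict_mem_fiber⟩)
    simp only [hT, Finset.mem_union, Finset.mem_image, not_or, not_exists, not_and,
      Finset.mem_insert, Finset.mem_singleton] at this
    have h := this.2 w
    tauto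
  have hfibT : ∀ v : Place K F, v ∉ T → ∀ w ∈ v.fiber F', E' w = 0 := fun v hv w hw => by
    by_contra hne
    refine hv (Finset.mem_union_right _ (Finset.mem_image.2 ⟨w, ?_, Place.mem_fiber.1 hw⟩))
    simp [Finsupp.mem_support_iff.2 hne]
  rw [weilPre, finprod_eq_prod_of_mulSupport_subset _ (s := T) ?_,
    ← Finset.prod_congr rfl (fun v _ => key v), ← Finset.prod_biUnion ?_, Finset.prod_mul_distrib,
    ← recipProd_eq_prod φ g' (S := T.biUnion fun v => v.fiber F')
      (fun w hw => ord_eq_zero_of_notMem_support (hmem w hw).2.1)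
      (fun w hw => ord_eq_zero_of_notMem_support (hmem w hw).2.2.1),
    recipProd_eq_one hφ0 hg', one_mul]
  · have hPQ : ∀ R ∈ ({P, Q} : Finset (Place K F')), R ∈ T.biUnion fun v => v.fiber F' := by
      intro R hR
      by_contra h
      have := (hmem R h).2.2.2
      simp only [Finset.mem_insert, Finset.mem_singleton] at hR
      tauto
    by_cases hPQ' : P = Q
    · subst hPQ'
      have hφP : P.ord φ = 0 := by rw [hordφ, hD P (Or.inr (Or.inl rfl)), mul_zero]
      rw [div_self (evalAt_ne_zero hφ0 hφP)]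
      exact Finset.prod_eq_one fun w _ => by rw [hu]; simp
    rw [Finset.prod_eq_mul_of_mem Q P (hPQ Q (by simp)) (hPQ P (by simp)) (Ne.symm hPQ')]
    · simp [hu, Ne.symm hPQ', hPQ', div_eq_mul_inv]
    · intro w _ hne
      simp [hu, hne.1, hne.2]
  · intro v _ v' _ hne
    exact Finset.disjoint_left.2 fun w hw hw' =>
      hne ((Place.mem_fiber.1 hw).symm.trans (Place.mem_fiber.1 hw'))
  · intro v hv
    by_contra hvT
    apply hv
    have hDv : D v = 0 := by
      by_contra h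
      exact hvT (Finset.mem_union_left _ (Finsupp.mem_support_iff.2 h))
    show pairFactor (ℓ : ℤ) v (D v) (Divisor.pushforward F E' v) f (Algebra.norm F g') = 1
    rw [hDv, pushforward_apply_eq_sum_fiber, Finset.sum_eq_zero (hfibT v hvT), pairFactor_zero]

end Cover

variable [IsAlgClosed K] [CharZero K] [FF.IsFunctionField K F]

/-- A nonzero class of prime order pairs nontrivially. -/
theorem exists_weilPair_ne_one {ℓ : ℕ} [hℓ : Fact ℓ.Prime]
    (hdiv : ∀ (F' : Type u) [Field F'] [Algebra K F'] [FF.IsFunctionField K F'] (z : Pic0 K F'),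
      ∃ y : Pic0 K F', ℓ • y = z)
    {x : Pic0.torsion K F ℓ} (hx : x ≠ 0) :
    ∃ y : Pic0.torsion K F ℓ, weilPair ℓ x y ≠ 1 := by
  classical
  have : NeZero ℓ := ⟨hℓ.out.ne_zero⟩
  obtain ⟨D₀, f₀, hx₀⟩ := isTorsionRep_exists x.2
  have hirr : Irreducible (X ^ ℓ - C f₀) := by
    refine X_pow_sub_C_irreducible_of_prime hℓ.out fun b hb => hx (Subtype.ext ?_)
    obtain ⟨hf, ho, hd, hmk⟩ := hx₀
    rw [← hmk, ZeroMemClass.coe_zero, Pic0.mk, QuotientAddGroup.eq_zero_iff,
      AddSubgroup.mem_addSubgroupOf]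
    have hb0 : b ≠ 0 := fun h => hf (by rw [← hb, h, zero_pow hℓ.out.ne_zero])
    refine ⟨b, hb0, fun v => ?_⟩
    have h := congrArg v.ord hb
    rw [ord_pow, ho] at h
    exact (mul_left_cancel₀ (by exact_mod_cast hℓ.out.ne_zero) h).symm
  have := Fact.mk hirr
  let F' := AdjoinRoot (X ^ ℓ - C f₀)
  have : Module.Finite F F' :=
    (AdjoinRoot.powerBasis hirr.ne_zero).finite
  have : Algebra.IsIntegral F F' := Algebra.IsIntegral.of_finite _ _
  have : FF.IsFunctionField K F' := FF.IsFunctionField.of_finite K F F'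
  have : CharZero F := FF.charZero_of_isFunctionField (K := K)
  have : SumRamificationInertia K F F' := FF.sumRamificationInertia
  have hN : Divisor.PushforwardNormFormula K F F' := FF.pushforwardNormFormula
  set φ₀ : F' := AdjoinRoot.root (X ^ ℓ - C f₀) with hφ₀
  have hφ : φ₀ ^ ℓ = algebraMap F F' f₀ := by
    have h : AdjoinRoot.mk (X ^ ℓ - C f₀) (X ^ ℓ - C f₀) = 0 := AdjoinRoot.mk_self
    rw [map_sub, map_pow, AdjoinRoot.mk_X, AdjoinRoot.mk_C, sub_eq_zero] at h
    exact h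
  have : NeZero (ℓ : K) := ⟨by exact_mod_cast hℓ.out.ne_zero⟩
  obtain ⟨ζ, hζ⟩ := HasEnoughRootsOfUnity.exists_primitiveRoot K ℓ
  set c : F' := algebraMap K F' ζ with hc
  have hroot : eval₂ (algebraMap F F') (c * φ₀) (X ^ ℓ - C f₀) = 0 := by
    rw [eval₂_sub, eval₂_pow, eval₂_X, eval₂_C, mul_pow, hφ, hc, ← map_pow, hζ.pow_eq_one,
      map_one, one_mul, sub_self]
  let σ₀ : F' →ₐ[F] F' := AdjoinRoot.liftAlgHom _ (Algebra.ofId F F') (c * φ₀) hroot
  let σ : F' ≃ₐ[F] F' :=
    AlgEquiv.ofBijective σ₀ σ₀.bijective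
  let τ : F' ≃ₐ[K] F' := σ.restrictScalars K
  have hτφ : τ φ₀ = c * φ₀ := by
    show σ₀ (AdjoinRoot.root (X ^ ℓ - C f₀)) = c * φ₀
    exact AdjoinRoot.lift_root hroot
  obtain ⟨t, ht, -⟩ := FF.IsFunctionField.exists_transcendental (K := K) (F := F')
  obtain ⟨P, -⟩ := FF.exists_place_ord_pos ht
  set Q := τ • P with hQ
  have hdeg : (Finsupp.single Q 1 - Finsupp.single P 1 : Divisor K F')
      ∈ Divisor.degZero (K := K) (F := F') := by
    rw [Divisor.mem_degZero, map_sub, Divisor.degree_single, Divisor.degree_single,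
      IsCurveOver.deg_eq_one_of_isAlgClosed, IsCurveOver.deg_eq_one_of_isAlgClosed, sub_self]
  obtain ⟨y', hy'⟩ := hdiv F' (Pic0.mk ⟨_, hdeg⟩)
  obtain ⟨⟨E', hE'0⟩, rfl⟩ := Pic0.mk_surjective y'
  rw [← pic0_mk_nsmul, Pic0.mk, Pic0.mk, eq_comm, QuotientAddGroup.eq,
    AddSubgroup.mem_addSubgroupOf] at hy'
  obtain ⟨g', hg', hg'div⟩ := hy'
  have hE' : ∀ w : Place K F', (ℓ : ℤ) * E' w
      = w.ord g' + ((Finsupp.single Q 1 : Divisor K F') w - (Finsupp.single P 1 : Divisor K F') w) :=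
    fun w => by
      have := hg'div w
      simp at this
      linarith
  -- move `D` off the relevant places
  obtain ⟨D, f, hxr, hD⟩ := exists_rep_avoiding x.2
    ((E'.support ∪ {P, Q}).image fun w => w.restrict F)
  obtain ⟨h, c₁, hh, hc₁, -, hf⟩ := hx₀.exists_eq hxr
  obtain ⟨r, hr⟩ := IsAlgClosed.exists_pow_nat_eq c₁ hℓ.out.pos
  set φ : F' := algebraMap K F' r * (φ₀ * algebraMap F F' h) with hφdef
  have hφ' : φ ^ ℓ = algebraMap F F' f := by
    rw [hφdef, mul_pow, mul_pow, hφ, ← map_pow, ← map_pow (algebraMap F F'), hr, hf,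
      map_mul, map_mul, IsScalarTower.algebraMap_apply K F F']
  have hτφ' : τ φ = c * φ := by
    rw [hφdef, map_mul, map_mul, τ.commutes, hτφ,
      show τ (algebraMap F F' h) = algebraMap F F' h from σ.commutes h]
    ring
  have hDE : ∀ w : Place K F', (E' w ≠ 0 ∨ w = P ∨ w = Q) → D (w.restrict F) = 0 := fun w hw => by
    refine hD _ (Finset.mem_image_of_mem _ ?_)
    rcases hw with hw | hw | hw
    · exact Finset.mem_union_left _ (Finsupp.mem_support_iff.2 hw)
    · simp [hw]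
    · simp [hw]
  have hPQ : Q.restrict F = P.restrict F := restrict_smul_algEquiv σ P
  have hord : ∀ v : Place K F, v.ord (Algebra.norm F g')
      = (ℓ : ℤ) * Divisor.pushforward F E' v := fun v => by
    rw [ord_norm_eq_sum_fiber hN hg', pushforward_apply_eq_sum_fiber, Finset.mul_sum,
      Finset.sum_congr rfl fun w _ => hE' w, Finset.sum_add_distrib, Finset.sum_sub_distrib]
    have : ∀ R : Place K F', ∑ w ∈ v.fiber F', (Finsupp.single R 1 : Divisor K F') w
        = if R.restrict F = v then 1 else 0 := fun R => by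
      simp [Finsupp.single_apply, Place.mem_fiber]
    rw [this, this, hPQ, sub_self, add_zero]
  have hy : IsTorsionRep ℓ (Pic0.mk ⟨_, Divisor.pushforward_mem_degZero hE'0⟩)
      (Divisor.pushforward F E') (Algebra.norm F g') :=
    ⟨Algebra.norm_ne_zero_iff.2 hg', hord, _, rfl⟩
  refine ⟨⟨_, hy.isTorsion⟩, ?_⟩
  rw [weilPair_eq hxr hy, weilPre_kummer hN hxr hφ' hg' hE' hDE]
  have hφ0 : φ ≠ 0 := fun h0 => hxr.1 <| (algebraMap F F').injective <| by
    rw [← hφ', h0, zero_pow hℓ.out.ne_zero, map_zero]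
  have hφw : ∀ w : Place K F', D (w.restrict F) = 0 → w.ord φ = 0 := fun w hw => by
    have h1 := congrArg w.ord hφ'
    rw [ord_pow, w.ord_restrict, hxr.2.1, hw, mul_zero, mul_zero, mul_eq_zero] at h1
    exact h1.resolve_left (by exact_mod_cast hℓ.out.ne_zero)
  have hP0 := hφw P (hDE P (Or.inr (Or.inl rfl)))
  have hQ0 := hφw Q (hDE Q (Or.inr (Or.inr rfl)))
  have hev := evalAt_smul_algEquiv τ P (f := φ) (Or.inr hP0.ge)
  rw [← hQ, hτφ', hc, evalAt_mul (mem_iff_ordGE.1 (Q.algebraMap_mem' ζ)) (Or.inr hQ0.ge),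
    evalAt_algebraMap] at hev
  intro h1
  rw [div_eq_one_iff_eq (evalAt_ne_zero hφ0 hP0)] at h1
  rw [h1] at hev
  exact hζ.ne_one hℓ.out.one_lt (mul_eq_right₀ (evalAt_ne_zero hφ0 hP0) |>.1 hev)

theorem weilPair_zero_left {n : ℕ} (y : Pic0.torsion K F n) : weilPair n 0 y = 1 := by
  have h := weilPair_add_left n (0 : Pic0.torsion K F n) 0 y
  rw [add_zero] at h
  exact (mul_eq_left₀ (weilPair_ne_zero _ _)).1 h.symm

theorem weilPair_nsmul_left_eq_one {n : ℕ} (k : ℕ) {x y : Pic0.torsion K F n}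
    (h : weilPair n x y = 1) : weilPair n (k • x) y = 1 := by
  induction k with
  | zero => rw [zero_nsmul, weilPair_zero_left]
  | succ k ih => rw [succ_nsmul, weilPair_add_left, ih, h, one_mul]

/-- The Weil pairing `e_n` is nondegenerate. -/
theorem weilPair_nondegenerate {n : ℕ} [NeZero n]
    (hdiv : ∀ (ℓ : ℕ), ℓ.Prime → ℓ ∣ n → ∀ (F' : Type u) [Field F'] [Algebra K F']
      [FF.IsFunctionField K F'] (z : Pic0 K F'), ∃ y : Pic0 K F', ℓ • y = z)
    (hdivF : ∀ (m : ℕ), m ≠ 0 → m ∣ n → ∀ z : Pic0 K F, ∃ y : Pic0 K F, m • y = z)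
    {x : Pic0.torsion K F n} (h : ∀ y : Pic0.torsion K F n, weilPair n x y = 1) : x = 0 := by
  by_contra hx
  have hxn : n • x = 0 := by
    apply Subtype.ext
    have := Pic0.mem_torsion.1 x.2
    rwa [natCast_zsmul] at this
  obtain ⟨ℓ, hℓ, hℓd⟩ : ∃ ℓ, ℓ.Prime ∧ ℓ ∣ addOrderOf x :=
    Nat.exists_prime_and_dvd (by rwa [ne_eq, AddMonoid.addOrderOf_eq_one_iff])
  have hℓn : ℓ ∣ n := hℓd.trans (addOrderOf_dvd_of_nsmul_eq_zero hxn)
  obtain ⟨k, hk⟩ := hℓd
  have hk0 : 0 < k := Nat.pos_of_ne_zero fun h0 => by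
    have hpos : 0 < addOrderOf x :=
      (isOfFinAddOrder_iff_nsmul_eq_zero.2 ⟨n, Nat.pos_of_ne_zero (NeZero.ne n), hxn⟩).addOrderOf_pos
    rw [hk, h0, mul_zero] at hpos
    exact lt_irrefl _ hpos
  set x₂ : Pic0.torsion K F n := k • x with hx₂
  have hℓx : ((ℓ : ℕ) : ℤ) • (x₂ : Pic0 K F) = 0 := by
    rw [natCast_zsmul, hx₂, AddSubgroupClass.coe_nsmul, ← mul_nsmul', ← hk,
      ← AddSubgroupClass.coe_nsmul, addOrderOf_nsmul_eq_zero, ZeroMemClass.coe_zero]
  let x₁ : Pic0.torsion K F ℓ := ⟨(x₂ : Pic0 K F), Pic0.mem_torsion.2 hℓx⟩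
  have hx₁ : x₁ ≠ 0 := fun h0 => by
    have h1 : k • x = 0 := hx₂ ▸ Subtype.ext (congrArg Subtype.val h0 : (x₂ : Pic0 K F) = 0)
    have h2 := Nat.le_of_dvd hk0 (addOrderOf_dvd_of_nsmul_eq_zero h1)
    rw [hk] at h2
    have h3 : 2 * k ≤ ℓ * k := Nat.mul_le_mul_right k hℓ.two_le
    omega
  have := Fact.mk hℓ
  obtain ⟨y₁, hy₁⟩ := exists_weilPair_ne_one (hdiv ℓ hℓ hℓn) hx₁
  obtain ⟨m, hm⟩ := hℓn
  obtain ⟨y, hy⟩ := hdivF m (fun h0 => NeZero.ne n (by rw [hm, h0, mul_zero])) ⟨ℓ, by rw [hm, mul_comm]⟩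
    (y₁ : Pic0 K F)
  subst hm
  have hyt : y ∈ Pic0.torsion K F (ℓ * m) := by
    rw [Pic0.mem_torsion, natCast_zsmul, mul_nsmul', hy, ← natCast_zsmul]
    exact Pic0.mem_torsion.1 y₁.2
  refine hy₁ ((weilPair_compat (x := x₁) (x' := x₂) (y := ⟨y, hyt⟩) y₁ rfl hy.symm).symm.trans ?_)
  rw [hx₂]
  exact weilPair_nsmul_left_eq_one k (h _)

end Fermat.Agent.JPairing
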