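import Fermat.Agent.HK.HeckeFinal
import Fermat.Agent.JPairing.Nondegenerate
import Fermat.Prelude.Def_ModularCurve_HeckeModule

/-!
# The Weil pairing on `JZero N`

`e_n : JZero N [n] × JZero N [n] → μ_n`, Galois equivariant, with the Hecke operator `T_ℓ`
adjoint to its transpose, and nondegenerate as soon as `Pic⁰` of curves over `ℚ̄` is divisible.
-/

set_option autoImplicit false

noncomputable section

open AlgebraicCurve ModularCurve
open Fermat.Agent.HK.Corr (degreeInput heckeAlphaBarIntegral_of heckeBetaBarIntegral_of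
  finiteAlong_heckeAlphaBar finiteAlong_heckeBetaBar separableAlong_heckeAlphaBar
  separableAlong_heckeBetaBar)

namespace Fermat.Agent.JPairing

instance instIsFunctionFieldModField (L : Type*) [Field L] [Algebra ℚ L] (N : ℕ) [NeZero N] :
    FF.IsFunctionField L (laurentBaseChange L (modularFunctionFieldFull N)) :=
  HK.Corr.isFunctionField_modField (degreeInput L) N

/-- The `n`-torsion of `JZero N`. -/
abbrev JTorsion (N n : ℕ) : AddSubgroup (JZero N) :=
  Pic0.torsion (AlgebraicClosure ℚ) (modularFunctionFieldBar N) n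

variable (N : ℕ) [NeZero N] {n : ℕ}

/-- Galois equivariance of the Weil pairing on `JZero N`. -/
theorem weilPair_galois (σ : AlgebraicClosure ℚ ≃ₐ[ℚ] AlgebraicClosure ℚ) {x y x' y' : JTorsion N n}
    (hx : (x' : JZero N) = σ • (x : JZero N)) (hy : (y' : JZero N) = σ • (y : JZero N)) :
    weilPair n x' y' = σ (weilPair n x y) := by
  have hx' : x' = arithmeticGalois (modularFunctionFieldFull N) σ • x := Subtype.ext hx
  have hy' : y' = arithmeticGalois (modularFunctionFieldFull N) σ • y := Subtype.ext hy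
  rw [hx', hy', weilPair_smul, baseAut_arithmeticGalois]
  rfl

/-- The Galois action in the form of `JZero.torsionGaloisRep`. -/
theorem weilPair_torsionGaloisRep (σ : AlgebraicClosure ℚ ≃ₐ[ℚ] AlgebraicClosure ℚ)
    (x y : JTorsion N n) :
    weilPair n (JZero.torsionGaloisRep N n σ x) (JZero.torsionGaloisRep N n σ y)
      = σ (weilPair n x y) :=
  weilPair_galois N σ (JZero.coe_torsionGaloisRep_apply N σ x)
    (JZero.coe_torsionGaloisRep_apply N σ y)

section Hecke

variable (ℓ : ℕ) [NeZero ℓ]

/-- The transposed Hecke correspondence on `Pic⁰` of level `N`, with its hypotheses discharged. -/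
def heckeTransposeBar : JZero N →+ JZero N :=
  heckePic0BarTranspose (heckeAlphaBarIntegral_of N ℓ (degreeInput _))
    (heckeBetaBarIntegral_of N ℓ (degreeInput _))
    (FF.fundamentalIdentityAlong _ _ (finiteAlong_heckeAlphaBar N ℓ (degreeInput _))
      (separableAlong_heckeAlphaBar N ℓ (degreeInput _)))
    (finiteAlong_heckeBetaBar N ℓ (degreeInput _))
    (FF.normFormulaAlong _ _ (separableAlong_heckeBetaBar N ℓ (degreeInput _)))

/-- `T_ℓ` (or `U_ℓ`) is adjoint to its transpose. -/
theorem weilPair_heckeOperatorAlong {x y Tx Ty : JTorsion N n}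
    (hx : (Tx : JZero N) = heckeOperatorAlong (AlgebraicClosure ℚ) N ℓ (x : JZero N))
    (hy : (Ty : JZero N) = heckeTransposeBar N ℓ (y : JZero N)) :
    weilPair n Tx y = weilPair n x Ty := by
  rw [heckeOperatorAlong_eq (heckeAlphaBarIntegral_of N ℓ (degreeInput _))
    (heckeBetaBarIntegral_of N ℓ (degreeInput _))
    (HK.Corr.fundamentalIdentityAlong_heckeBetaBar N ℓ (degreeInput _))
    (finiteAlong_heckeAlphaBar N ℓ (degreeInput _))
    (HK.Corr.normFormulaAlong_heckeAlphaBar N ℓ (degreeInput _))] at hx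
  exact weilPair_correspondence (heckeBetaBar (AlgebraicClosure ℚ) N ℓ)
    (heckeAlphaBar (AlgebraicClosure ℚ) N ℓ) _ _ _ _ _
    (FF.fundamentalIdentityAlong _ _ (finiteAlong_heckeAlphaBar N ℓ (degreeInput _))
      (separableAlong_heckeAlphaBar N ℓ (degreeInput _)))
    (finiteAlong_heckeBetaBar N ℓ (degreeInput _))
    (FF.normFormulaAlong _ _ (separableAlong_heckeBetaBar N ℓ (degreeInput _))) hx hy

end Hecke

/-- Nondegeneracy on `JZero N`, given divisibility. -/
theorem weilPair_jzero_nondegenerate [NeZero n]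
    (hdiv : ∀ (ℓ : ℕ), ℓ.Prime → ∀ (F' : Type) [Field F'] [Algebra (AlgebraicClosure ℚ) F']
      [FF.IsFunctionField (AlgebraicClosure ℚ) F'] (z : Pic0 (AlgebraicClosure ℚ) F'),
      ∃ y : Pic0 (AlgebraicClosure ℚ) F', ℓ • y = z)
    (hdivJ : ∀ (m : ℕ), m ≠ 0 → ∀ z : JZero N, ∃ y : JZero N, m • y = z)
    {x : JTorsion N n} (h : ∀ y : JTorsion N n, weilPair n x y = 1) : x = 0 :=
  weilPair_nondegenerate (fun ℓ hℓ _ => hdiv ℓ hℓ) (fun m hm _ => hdivJ m hm) h

end Fermat.Agent.JPairing
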