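import Mathlib.GroupTheory.FiniteAbelian.Duality
import Fermat.Agent.HK.Kummer.Bijective
import Fermat.Agent.MW.DivisibleJZero
import Fermat.Agent.JPairing.JZero

/-!
# Perfectness of the Weil pairing

For finite torsion, nondegeneracy makes `x ↦ e_n(x, ·)` a bijection onto the characters of `Pic⁰[n]`.
-/

set_option autoImplicit false

noncomputable section

open AlgebraicCurve ModularCurve

namespace Fermat.Agent.JPairing

theorem natCard_addHom_additive_units {G K : Type*} [AddCommGroup G] [Finite G] [Field K]
    [IsAlgClosed K] [CharZero K] : Nat.card (G →+ Additive Kˣ) = Nat.card G := by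
  have : NeZero (Monoid.exponent (Multiplicative G) : K) :=
    ⟨Nat.cast_ne_zero.2 Monoid.exponent_ne_zero_of_finite⟩
  rw [Nat.card_congr AddMonoidHom.toMultiplicativeLeft,
    CommGroup.card_monoidHom_of_hasEnoughRootsOfUnity]
  exact Nat.card_congr Multiplicative.toAdd

variable {K F : Type*} [Field K] [Field F] [Algebra K F] [IsAlgClosed K] [CharZero K]
  [FF.IsFunctionField K F] {n : ℕ}

/-- Nondegeneracy plus finiteness gives perfectness. -/
theorem weilPairing_bijective_of_nondegenerate [Finite (Pic0.torsion K F n)]
    (h : ∀ x : Pic0.torsion K F n, (∀ y, weilPair n x y = 1) → x = 0) :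
    Function.Bijective (weilPairing K F n) := by
  have hinj : Function.Injective (weilPairing K F n) := by
    refine (injective_iff_map_eq_zero _).2 fun x hx => h x fun y => ?_
    rw [← coe_weilPairing, hx]
    rfl
  have : Finite (Pic0.torsion K F n →+ Additive Kˣ) := by
    refine Nat.finite_of_card_ne_zero ?_
    rw [natCard_addHom_additive_units]
    exact Nat.card_pos.ne'
  exact hinj.bijective_of_nat_card_le natCard_addHom_additive_units.le

/-- The Weil pairing on `JZero N [n]` is perfect, given divisibility of `Pic⁰` of the cyclic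
covers. -/
theorem weilPairing_jzero_bijective_of_divisible (N : ℕ) [NeZero N] (n : ℕ) [NeZero n]
    (hdiv : ∀ (ℓ : ℕ), ℓ.Prime → ∀ (F' : Type) [Field F'] [Algebra (AlgebraicClosure ℚ) F']
      [FF.IsFunctionField (AlgebraicClosure ℚ) F'] (z : Pic0 (AlgebraicClosure ℚ) F'),
      ∃ y : Pic0 (AlgebraicClosure ℚ) F', ℓ • y = z) :
    Function.Bijective (weilPairing (AlgebraicClosure ℚ) (modularFunctionFieldBar N) n) := by
  have : Finite (Pic0.torsion (AlgebraicClosure ℚ) (modularFunctionFieldBar N) n) := by
    refine Nat.finite_of_card_ne_zero ?_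
    rw [HK.natCard_jZero_torsion]
    exact pow_ne_zero _ (NeZero.ne n)
  exact weilPairing_bijective_of_nondegenerate fun x hx =>
    weilPair_jzero_nondegenerate N hdiv (fun m hm z => MW.exists_nsmul_eq_jzero N hm z) hx

end Fermat.Agent.JPairing
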