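import Fermat.Agent.JPairing.Eval

/-!
# Local symbols

`pairFactor n v a b f g = ((-1) ^ (n a b) f ^ b / g ^ a) (v)` for `ord f = n a`, `ord g = n b`.
For `n = 1` it is the tame symbol; for general `n` it is the local factor of the Weil pairing.
-/

set_option autoImplicit false

noncomputable section

open AlgebraicCurve

namespace Fermat.Agent.JPairing

variable {K F : Type*} [Field K] [Field F] [Algebra K F]

/-- The local factor `((-1) ^ (n a b) f ^ b / g ^ a) (v)`. -/
def pairFactor (n : ℤ) (v : Place K F) (a b : ℤ) (f g : F) : K :=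
  evalAt v ((-1) ^ (n * a * b) * (f ^ b / g ^ a))

/-- The tame symbol at a rational place. -/
def tameSymbol (v : Place K F) (f g : F) : K :=
  pairFactor 1 v (v.ord f) (v.ord g) f g

variable {n : ℤ} {v : Place K F} {a a' b b' : ℤ} {f f' g g' : F}

theorem ord_neg_one_zpow (s : ℤ) : v.ord ((-1 : F) ^ s) = 0 := by
  rw [v.ord_zpow, ord_neg, v.ord_one, mul_zero]

theorem neg_one_zpow_ne_zero (s : ℤ) : (-1 : F) ^ s ≠ 0 :=
  zpow_ne_zero _ (neg_ne_zero.2 one_ne_zero)

theorem pairFactor_ord (hf : f ≠ 0) (hg : g ≠ 0) (ha : v.ord f = n * a) (hb : v.ord g = n * b) :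
    v.ord ((-1) ^ (n * a * b) * (f ^ b / g ^ a)) = 0 := by
  rw [v.ord_mul (neg_one_zpow_ne_zero _) (div_ne_zero (zpow_ne_zero _ hf) (zpow_ne_zero _ hg)),
    ord_neg_one_zpow, ord_div v (zpow_ne_zero _ hf) (zpow_ne_zero _ hg), v.ord_zpow, v.ord_zpow,
    ha, hb]
  ring

theorem neg_one_zpow_neg (R : Type*) [Field R] (s : ℤ) : (-1 : R) ^ (-s) = (-1) ^ s := by
  rw [zpow_neg, ← inv_zpow, inv_neg_one]

theorem neg_one_zpow_sq (R : Type*) [Field R] (s : ℤ) : ((-1 : R) ^ s) * (-1) ^ s = 1 := by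
  rw [← mul_zpow, neg_one_mul, neg_neg, one_zpow]

theorem neg_one_zpow_mul_self (R : Type*) [Field R] (x : ℤ) :
    (-1 : R) ^ (x * x) = (-1) ^ x := by
  rcases Int.even_or_odd x with h | h
  · rw [(h.mul_right x).neg_one_zpow, h.neg_one_zpow]
  · rw [(h.mul h).neg_one_zpow, h.neg_one_zpow]

variable [IsAlgClosed K] [IsCurveOver K F]

theorem pairFactor_ne_zero (hf : f ≠ 0) (hg : g ≠ 0) (ha : v.ord f = n * a) (hb : v.ord g = n * b) :
    pairFactor n v a b f g ≠ 0 :=
  evalAt_ne_zero
    (mul_ne_zero (neg_one_zpow_ne_zero _) (div_ne_zero (zpow_ne_zero _ hf) (zpow_ne_zero _ hg)))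
    (pairFactor_ord hf hg ha hb)

theorem pairFactor_mul_right (hf : f ≠ 0) (hg : g ≠ 0) (hg' : g' ≠ 0)
    (ha : v.ord f = n * a) (hb : v.ord g = n * b) (hb' : v.ord g' = n * b') :
    pairFactor n v a (b + b') f (g * g')
      = pairFactor n v a b f g * pairFactor n v a b' f g' := by
  rw [pairFactor, pairFactor, pairFactor,
    ← evalAt_mul_of_ord (pairFactor_ord hf hg ha hb) (pairFactor_ord hf hg' ha hb')]
  congr 1
  rw [mul_add, zpow_add₀ (neg_ne_zero.2 one_ne_zero), zpow_add₀ hf, mul_zpow]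
  field_simp

theorem pairFactor_swap (hf : f ≠ 0) (hg : g ≠ 0) (ha : v.ord f = n * a) (hb : v.ord g = n * b) :
    pairFactor n v b a g f = (pairFactor n v a b f g)⁻¹ := by
  rw [pairFactor, pairFactor, ← evalAt_inv (pairFactor_ord hf hg ha hb), mul_inv, inv_div,
    show n * b * a = n * a * b by ring, ← zpow_neg, neg_one_zpow_neg]

theorem pairFactor_mul_left (hf : f ≠ 0) (hf' : f' ≠ 0) (hg : g ≠ 0)
    (ha : v.ord f = n * a) (ha' : v.ord f' = n * a') (hb : v.ord g = n * b) :
    pairFactor n v (a + a') b (f * f') g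
      = pairFactor n v a b f g * pairFactor n v a' b f' g := by
  rw [pairFactor_swap hg (mul_ne_zero hf hf') hb (by rw [v.ord_mul hf hf', ha, ha', mul_add]),
    pairFactor_mul_right hg hf hf' hb ha ha', mul_inv, ← pairFactor_swap hg hf hb ha,
    ← pairFactor_swap hg hf' hb ha']

theorem pairFactor_zero : pairFactor n v 0 0 f g = 1 := by
  simp [pairFactor]

theorem pairFactor_self (hf : f ≠ 0) (a : ℤ) : pairFactor n v a a f f = (-1 : K) ^ (n * a * a) := by
  rw [pairFactor, div_self (zpow_ne_zero _ hf), mul_one, evalAt_neg_one_zpow]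

theorem pairFactor_const_left {c : K} (hc : c ≠ 0) (g : F) :
    pairFactor n v 0 b (algebraMap K F c) g = c ^ b := by
  rw [pairFactor, mul_zero, zero_mul, zpow_zero, zpow_zero, one_mul, div_one,
    evalAt_zpow (ord_algebraMap hc), evalAt_algebraMap]

theorem pairFactor_left_unit (hf : v.ord f = 0) (g : F) :
    pairFactor n v 0 b f g = evalAt v f ^ b := by
  rw [pairFactor, mul_zero, zero_mul, zpow_zero, zpow_zero, one_mul, div_one, evalAt_zpow hf]

theorem pairFactor_right_unit (f : F) (hg : v.ord g = 0) :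
    pairFactor n v a 0 f g = (evalAt v g ^ a)⁻¹ := by
  rw [pairFactor, mul_zero, zpow_zero, zpow_zero, one_mul, one_div,
    evalAt_inv (by rw [v.ord_zpow, hg, mul_zero]), evalAt_zpow hg]

/-! ### The tame symbol -/

theorem tameSymbol_ne_zero (hf : f ≠ 0) (hg : g ≠ 0) : tameSymbol v f g ≠ 0 :=
  pairFactor_ne_zero hf hg (one_mul _).symm (one_mul _).symm

theorem tameSymbol_mul_right (hf : f ≠ 0) (hg : g ≠ 0) (hg' : g' ≠ 0) :
    tameSymbol v f (g * g') = tameSymbol v f g * tameSymbol v f g' := by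
  rw [tameSymbol, v.ord_mul hg hg']
  exact pairFactor_mul_right hf hg hg' (one_mul _).symm (one_mul _).symm (one_mul _).symm

theorem tameSymbol_mul_left (hf : f ≠ 0) (hf' : f' ≠ 0) (hg : g ≠ 0) :
    tameSymbol v (f * f') g = tameSymbol v f g * tameSymbol v f' g := by
  rw [tameSymbol, v.ord_mul hf hf']
  exact pairFactor_mul_left hf hf' hg (one_mul _).symm (one_mul _).symm (one_mul _).symm

theorem tameSymbol_swap (hf : f ≠ 0) (hg : g ≠ 0) :
    tameSymbol v g f = (tameSymbol v f g)⁻¹ :=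
  pairFactor_swap hf hg (one_mul _).symm (one_mul _).symm

theorem tameSymbol_eq_one_of_ord (hf : v.ord f = 0) (hg : v.ord g = 0) :
    tameSymbol v f g = 1 := by
  rw [tameSymbol, hf, hg, pairFactor_zero]

theorem tameSymbol_const_left {c : K} (hc : c ≠ 0) (g : F) :
    tameSymbol v (algebraMap K F c) g = c ^ v.ord g := by
  rw [tameSymbol, ord_algebraMap hc, pairFactor_const_left hc]

theorem tameSymbol_self (hf : f ≠ 0) : tameSymbol v f f = (-1 : K) ^ v.ord f := by
  rw [tameSymbol, pairFactor_self hf, one_mul, neg_one_zpow_mul_self]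

/-- The Steinberg relation. -/
theorem tameSymbol_one_sub (hf : f ≠ 0) (h1 : 1 - f ≠ 0) : tameSymbol v f (1 - f) = 1 := by
  rcases lt_trichotomy (v.ord f) 0 with h | h | h
  · have h' : v.ord (1 - f) = v.ord f := by
      rw [sub_eq_neg_add, ord_add_eq_of_lt v (neg_ne_zero.2 hf) one_ne_zero
        (by rw [ord_neg, v.ord_one]; exact h), ord_neg]
    rw [tameSymbol, h', pairFactor, one_mul, ← div_zpow,
      neg_one_zpow_mul_self, ← mul_zpow]
    have h2 : OrdGE v 1 ((-1 : F) * (f / (1 - f)) - algebraMap K F 1) := by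
      refine Or.inr ?_
      rw [map_one, show (-1 : F) * (f / (1 - f)) - 1 = -1 / (1 - f) by field_simp; ring,
        ord_div v (neg_ne_zero.2 one_ne_zero) h1, ord_neg, v.ord_one, h']
      omega
    rw [evalAt_zpow (by rw [v.ord_mul (neg_ne_zero.2 one_ne_zero) (div_ne_zero hf h1), ord_neg,
      v.ord_one, ord_div v hf h1, h']; ring), evalAt_eq h2, one_zpow]
  · rw [tameSymbol, h, pairFactor_left_unit h]
    by_cases hb : v.ord (1 - f) = 0
    · rw [hb, zpow_zero]
    have hpos : 1 ≤ v.ord (1 - f) := by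
      have := min_ord_le_ord_add v one_ne_zero (neg_ne_zero.2 hf) (by rwa [← sub_eq_add_neg])
      rw [v.ord_one, ord_neg, h, ← sub_eq_add_neg] at this
      omega
    rw [evalAt_eq (c := 1) (by
      rw [map_one, ← neg_sub]; exact OrdGE.neg (Or.inr hpos : OrdGE v 1 (1 - f))), one_zpow]
  · have h' : v.ord (1 - f) = 0 := by
      rw [sub_eq_add_neg, ord_add_eq_of_lt v one_ne_zero (neg_ne_zero.2 hf)
        (by rw [ord_neg, v.ord_one]; exact h), v.ord_one]
    rw [tameSymbol, h', pairFactor_right_unit f h', evalAt_eq (c := 1) (by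
      rw [map_one, sub_sub_cancel_left]; exact OrdGE.neg (Or.inr h : OrdGE v 1 f)),
      one_zpow, inv_one]

end Fermat.Agent.JPairing
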