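import Fermat.Agent.JPairing.AtkinSwap
import Fermat.Agent.JPairing.JZero

/-!
# `T_ℓ` is self-adjoint for the Weil pairing when `ℓ ∤ N`

The Atkin–Lehner involution `w_ℓ` exchanges the two degeneracy maps, so the Hecke correspondence
equals its transpose.
-/

set_option autoImplicit false

noncomputable section

open AlgebraicCurve ModularCurve

namespace Fermat.Agent.JPairing

section Abstract

variable {K F F' : Type*} [Field K] [Field F] [Field F'] [Algebra K F] [Algebra K F']

theorem finrankAlong_algEquiv (e : F ≃ₐ[K] F') : finrankAlong K e.toAlgHom = 1 := by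
  let _ := algebraAlong e.toAlgHom
  exact (AlgEquiv.ofBijective (Algebra.ofId F F') e.bijective).toLinearEquiv.finrank_eq.symm.trans
    (Module.finrank_self F)

theorem finiteAlong_algEquiv (e : F ≃ₐ[K] F') : FiniteAlong K e.toAlgHom := by
  let _ := algebraAlong e.toAlgHom
  exact Module.Finite.equiv (AlgEquiv.ofBijective (Algebra.ofId F F') e.bijective).toLinearEquiv

/-- A correspondence is unchanged by an automorphism of the correspondence curve. -/
theorem correspondence_comp_algEquiv [HasPrincipalDivisors K F'] (e : F' ≃ₐ[K] F')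
    (φ ψ φ' ψ' : F →ₐ[K] F') (hφe : e.toAlgHom.comp φ = φ') (hψe : e.toAlgHom.comp ψ = ψ')
    (hφ : φ.toRingHom.IsIntegral) (hψ : ψ.toRingHom.IsIntegral)
    (hφ' : φ'.toRingHom.IsIntegral) (hψ' : ψ'.toRingHom.IsIntegral)
    (hsep : SeparableAlong K e.toAlgHom) (D : Divisor K F) :
    Divisor.correspondence φ' ψ' hφ' hψ' D = Divisor.correspondence φ ψ hφ hψ D := by
  subst hφe hψe
  have he : e.toAlgHom.toRingHom.IsIntegral := FF.isIntegral_of_finiteAlong (finiteAlong_algEquiv e)
  rw [Divisor.correspondence_apply, Divisor.correspondence_apply,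
    FF.pullbackAlong_comp φ e.toAlgHom hφ he, FF.pushforwardAlong_comp ψ e.toAlgHom hψ he,
    AddMonoidHom.comp_apply, AddMonoidHom.comp_apply,
    FF.pushforwardAlong_pullbackAlong e.toAlgHom he (finiteAlong_algEquiv e) hsep,
    finrankAlong_algEquiv, Nat.cast_one, one_smul]

/-- A correspondence whose two legs are exchanged by an automorphism equals its transpose. -/
theorem pic0_correspondence_eq_transpose [CharZero F'] [HasPrincipalDivisors K F'] (φ ψ : F →ₐ[K] F')
    (e : F' ≃ₐ[K] F') (hφe : e.toAlgHom.comp φ = ψ) (hψe : e.toAlgHom.comp ψ = φ)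
    (hφ : φ.toRingHom.IsIntegral) (hψ : ψ.toRingHom.IsIntegral)
    (hFIφ : FundamentalIdentityAlong K φ hφ) (hfinψ : FiniteAlong K ψ)
    (hNψ : NormFormulaAlong K ψ hfinψ) (hFIψ : FundamentalIdentityAlong K ψ hψ)
    (hfinφ : FiniteAlong K φ) (hNφ : NormFormulaAlong K φ hfinφ) :
    Pic0.correspondence φ ψ hφ hψ hFIφ hfinψ hNψ
      = Pic0.correspondence ψ φ hψ hφ hFIψ hfinφ hNφ := by
  refine AddMonoidHom.ext fun x => ?_
  obtain ⟨D, rfl⟩ := Pic0.mk_surjective x
  rw [Pic0.correspondence_mk, Pic0.correspondence_mk]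
  refine congrArg Pic0.mk (Subtype.ext ?_)
  rw [Pic0.coe_degZeroCorrespondence, Pic0.coe_degZeroCorrespondence]
  exact (correspondence_comp_algEquiv e φ ψ ψ φ hφe hψe hφ hψ hψ hφ
    (FF.separableAlong_of_charZero (FF.isIntegral_of_finiteAlong (finiteAlong_algEquiv e)))
    (D : Divisor K F)).symm

end Abstract

open Fermat.Agent.HK.Corr (degreeInput heckeAlphaBarIntegral_of heckeBetaBarIntegral_of
  finiteAlong_heckeAlphaBar fundamentalIdentityAlong_heckeBetaBar normFormulaAlong_heckeAlphaBar)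

variable (N ℓ : ℕ) [NeZero N] [NeZero ℓ] {n : ℕ}

/-- For a prime `ℓ ∤ N` the transposed correspondence is `T_ℓ`. -/
theorem heckeTransposeBar_eq (hℓ : ℓ.Prime) (hN : ¬ ℓ ∣ N) :
    heckeTransposeBar N ℓ = heckeOperatorAlong (AlgebraicClosure ℚ) N ℓ := by
  obtain ⟨w, hwα, hwβ⟩ := exists_atkinSwap (AlgebraicClosure ℚ) hℓ hN
  have : CharZero (modularFunctionFieldBar (N * ℓ)) :=
    FF.charZero_of_isFunctionField (K := AlgebraicClosure ℚ)
  rw [heckeOperatorAlong_eq (heckeAlphaBarIntegral_of N ℓ (degreeInput _))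
    (heckeBetaBarIntegral_of N ℓ (degreeInput _))
    (fundamentalIdentityAlong_heckeBetaBar N ℓ (degreeInput _))
    (finiteAlong_heckeAlphaBar N ℓ (degreeInput _))
    (normFormulaAlong_heckeAlphaBar N ℓ (degreeInput _))]
  exact pic0_correspondence_eq_transpose (heckeAlphaBar (AlgebraicClosure ℚ) N ℓ)
    (heckeBetaBar (AlgebraicClosure ℚ) N ℓ) w hwα hwβ _ _
    (FF.fundamentalIdentityAlong _ _ (finiteAlong_heckeAlphaBar N ℓ (degreeInput _))
      (HK.Corr.separableAlong_heckeAlphaBar N ℓ (degreeInput _)))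
    (HK.Corr.finiteAlong_heckeBetaBar N ℓ (degreeInput _))
    (FF.normFormulaAlong _ _ (HK.Corr.separableAlong_heckeBetaBar N ℓ (degreeInput _)))
    (fundamentalIdentityAlong_heckeBetaBar N ℓ (degreeInput _))
    (finiteAlong_heckeAlphaBar N ℓ (degreeInput _))
    (normFormulaAlong_heckeAlphaBar N ℓ (degreeInput _))

/-- `T_ℓ` is self-adjoint for the Weil pairing, for a prime `ℓ ∤ N`. -/
theorem weilPair_heckeOperatorAlong_symm (hℓ : ℓ.Prime) (hN : ¬ ℓ ∣ N) {x y Tx Ty : JTorsion N n}
    (hx : (Tx : JZero N) = heckeOperatorAlong (AlgebraicClosure ℚ) N ℓ (x : JZero N))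
    (hy : (Ty : JZero N) = heckeOperatorAlong (AlgebraicClosure ℚ) N ℓ (y : JZero N)) :
    weilPair n Tx y = weilPair n x Ty :=
  weilPair_heckeOperatorAlong N ℓ hx (by rw [heckeTransposeBar_eq N ℓ hℓ hN, hy])

/-- The same, for the operators `heckeOperatorBar` of the Hecke module. -/
theorem weilPair_heckeOperatorBar_symm (p : Nat.Primes) (hN : ¬ (p : ℕ) ∣ N)
    {x y Tx Ty : JTorsion N n} (hx : (Tx : JZero N) = heckeOperatorBar N p (x : JZero N))
    (hy : (Ty : JZero N) = heckeOperatorBar N p (y : JZero N)) :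
    weilPair n Tx y = weilPair n x Ty :=
  haveI : NeZero (p : ℕ) := ⟨p.2.ne_zero⟩
  weilPair_heckeOperatorAlong_symm N p p.2 hN hx hy

end Fermat.Agent.JPairing
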