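import Fermat.Agent.AJ.Transfer
import Fermat.Agent.JPairing.Perfect
import Fermat.Agent.JPairing.SymmetricHecke

/-!
# The Weil pairing is perfect

Unconditional forms of nondegeneracy and perfectness, using divisibility of `Pic⁰`.
-/

set_option autoImplicit false

noncomputable section

open AlgebraicCurve ModularCurve

namespace Fermat.Agent.JPairing

variable {K F : Type*} [Field K] [Field F] [Algebra K F] [IsAlgClosed K] [CharZero K]
  [FF.IsFunctionField K F] (n : ℕ) [NeZero n]

/-- The Weil pairing of any curve over an algebraically closed field of characteristic zero is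
nondegenerate. -/
theorem weilPair_left_nondegenerate {x : Pic0.torsion K F n}
    (h : ∀ y : Pic0.torsion K F n, weilPair n x y = 1) : x = 0 :=
  weilPair_nondegenerate
    (fun ℓ hℓ _ F' _ _ _ z =>
      haveI : NeZero ℓ := ⟨hℓ.ne_zero⟩
      AJ.exists_nsmul_eq_pic0 K F' ℓ z)
    (fun m hm _ z =>
      haveI : NeZero m := ⟨hm⟩
      AJ.exists_nsmul_eq_pic0 K F m z) h

variable (K F) in
/-- The Weil pairing is perfect. -/
theorem weilPairing_bijective : Function.Bijective (weilPairing K F n) := by
  have : Finite (Pic0.torsion K F n) := AJ.finite_torsion K F (NeZero.pos n)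
  exact weilPairing_bijective_of_nondegenerate fun x hx => weilPair_left_nondegenerate n hx

/-- The Weil pairing on `JZero N [n]` is perfect. -/
theorem weilPairing_jzero_bijective (N : ℕ) [NeZero N] :
    Function.Bijective (weilPairing (AlgebraicClosure ℚ) (modularFunctionFieldBar N) n) :=
  weilPairing_bijective _ _ n

end Fermat.Agent.JPairing
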